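import Mathlib
import Fermat.Agent.MUL.Lib.FF.GoodEll.Semi
import Fermat.Agent.MUL.Lib.FF.RedCore
import Fermat.Agent.MUL.Lib.RR.Hurwitz.Val
import Fermat.Agent.MUL.Orig.Lib.Cyclo.RootsReduce
import Fermat.Agent.MUL.Lib.FF.RedValue
import Fermat.Agent.MUL.Lib.FF.GeomDefs
import Fermat.Agent.MUL.Lib.FF.GalAct
import Fermat.Agent.MUL.Lib.IgusaDeg.JInput
import Fermat.Agent.MUL.Lib.RR.Hurwitz.Fibres
import Fermat.Agent.MUL.Lib.Deuring.Generic
import Fermat.Agent.MUL.Orig.Lib.FF.Value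
import Fermat.Agent.MUL.Lib.FF.RedRat.Core
import Fermat.Agent.MUL.Lib.FF.RedRat.Extend
import Fermat.Agent.MUL.Lib.GaussInt.ModularInst
import Fermat.Agent.MUL.Orig.Lib.FF.PlacesQbar
import Fermat.Agent.MUL.Lib.GoodRed.Modular
import Fermat.Agent.MUL.Lib.GoodRed.ModularData
import Fermat.Agent.MUL.Lib.GenusEq.Main
import Fermat.Agent.MUL.Lib.FF.GeomEch
import Fermat.Agent.MUL.Lib.FF.GeomInst
import Fermat.Agent.MUL.Lib.FF.GeomGood
import Fermat.Agent.MUL.Lib.FF.GeomCl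
import Fermat.Agent.MUL.Lib.FF.GeomInt
import Fermat.Agent.MUL.Lib.FF.Formal
import Fermat.Agent.MUL.Lib.FlatMod.OrderOmega
import Fermat.Agent.MUL.Lib.FF.GeomBases
import Fermat.Agent.MUL.Orig.Lib.FF.FormalDefs
import Fermat.Agent.MUL.Orig.Lib.FlatMod.Defs
import Fermat.Agent.MUL.Lib.FF.GeomAsm
import Fermat.Agent.MUL.Lib.FF.Transfer
import Fermat.Agent.MUL.F3.TorsFin.Final
import Fermat.Agent.MUL.Lib.FF.Kum.KumPt
import Fermat.Agent.MUL.Lib.FF.Kum.KumTransfer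
import Fermat.Agent.MUL.Orig.Lib.Frobenius.Exists

section MergeWrap_Lib_FF_GoodEll_Fib -- from Lib/FF/GoodEll/Fib.lean

set_option autoImplicit false

/-!
# FF / S19, route R-G, seat FIB (a)(b)(d), abstract part (helper20)

`S : Deuring.ValSetup K F k Fk` a constant reduction, `r` a Deuring reduction of places
(`FF.IsReduction S r`), `x ∈ F` a function (in the application `x = j`) whose fibres are
compatible with `r` (`FibCompat`, seat RedFibre), `Θ : ℕ → Finset K` a sequence of finite sets of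
integral values whose residues are pairwise distinct for different indices.

* `fib x Θ m` : the places of `F` over the values of `Θ m`; `fibBar S x Θ m` the places of `Fk`
  over their residues (a `Finset`); `fibBar_disjoint`; `r (fib m) ⊆ fibBar m`;
* `exists_indices_good` : `g` distinct indices `m i`, off a given finite set, such that for EVERY
  tuple `P i ∈ fib (m i)` and every `X` of a finite family of divisors of degree `0`:
  `r_* (X + ∑ P i)` is good at `r Pinf` (special fibre) and `X + ∑ P i` is good at `Pinf`.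
-/

noncomputable section

open AlgebraicCurve

namespace Fermat.Agent.FFGoodEll

open Fermat.Agent.RR Fermat.Agent.Deuring Fermat.Agent.FF

variable {K F k Fk : Type*} [Field K] [Field F] [Algebra K F]
  [Field k] [Field Fk] [Algebra k Fk]

/-- the fibres of `x` are compatible with the reduction of places: a zero of `x - c`, `c ∈ A`,
reduces to a zero of `red x - res c`. -/
def FibCompat (S : ValSetup K F k Fk) (r : Place K F → Place k Fk) (x : F) : Prop :=
  ∀ (c : K) (hc : c ∈ S.A) (P : Place K F), 0 < P.ord (x - algebraMap K F c) →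
    0 < (r P).ord (S.red x - algebraMap k Fk (S.res ⟨c, hc⟩))

/-- a sequence of finite sets of integral values with pairwise distinct residues. -/
structure ValueSeq (S : ValSetup K F k Fk) where
  /-- the values -/
  Θ : ℕ → Finset K
  mem : ∀ m, ∀ t ∈ Θ m, t ∈ S.A
  res_ne : ∀ m m', m ≠ m' → ∀ t (ht : t ∈ Θ m) t' (ht' : t' ∈ Θ m'),
    S.res ⟨t, mem m t ht⟩ ≠ S.res ⟨t', mem m' t' ht'⟩

/-- the places of `F` over the values of `Θ m`. -/
def fib (x : F) (Θ : ℕ → Finset K) (m : ℕ) : Set (Place K F) :=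
  {P | ∃ t ∈ Θ m, 0 < P.ord (x - algebraMap K F t)}

theorem mem_fib {x : F} {Θ : ℕ → Finset K} {m : ℕ} {P : Place K F} :
    P ∈ fib x Θ m ↔ ∃ t ∈ Θ m, 0 < P.ord (x - algebraMap K F t) := Iff.rfl

theorem sub_const_ne_zero {x : F} (hx : Transcendental K x) (c : K) :
    x - algebraMap K F c ≠ 0 := by
  intro h0
  apply hx
  rw [sub_eq_zero.mp h0]
  exact isAlgebraic_algebraMap c

theorem finite_fib (h : IsRRField K F) (x : F) (Θ : ℕ → Finset K)
    (m : ℕ) : (fib x Θ m).Finite := by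
  have : fib x Θ m = ⋃ t ∈ Θ m, {P : Place K F | 0 < P.ord (x - algebraMap K F t)} := by
    ext P
    simp [fib]
  rw [this]
  exact Set.Finite.biUnion (Finset.finite_toSet _) fun t _ => finite_zeros h _

/-- every value has a place over it. -/
theorem exists_place_over (h : IsRRField K F) {x : F} (hx : Transcendental K x) (c : K) :
    ∃ P : Place K F, 0 < P.ord (x - algebraMap K F c) := by
  have hne := sub_const_ne_zero hx c
  have htr : Transcendental K (x - algebraMap K F c)⁻¹ := by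
    intro halg
    apply hx
    have h1 : IsAlgebraic K (x - algebraMap K F c) := by
      have := halg.inv
      rwa [inv_inv] at this
    have h2 := h1.add (isAlgebraic_algebraMap (R := K) (A := F) c)
    rwa [sub_add_cancel] at h2
  obtain ⟨P, hP⟩ := Fermat.Agent.RRHur.exists_pole h htr
  refine ⟨P, ?_⟩
  have h1 : P.ord (x - algebraMap K F c)⁻¹ < 0 :=
    (Fermat.Agent.RRHur.one_lt_adicValuation_iff P).mp hP
  rw [P.ord_inv] at h1
  omega

theorem fib_nonempty (h : IsRRField K F) {x : F} (hx : Transcendental K x) {Θ : ℕ → Finset K}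
    {m : ℕ} (hΘ : (Θ m).Nonempty) : (fib x Θ m).Nonempty := by
  obtain ⟨t, ht⟩ := hΘ
  obtain ⟨P, hP⟩ := exists_place_over h hx t
  exact ⟨P, t, ht, hP⟩

/-- a zero of `x - c` is not a zero of `x - c'`, `c' ≠ c`. -/
theorem ord_sub_const_le_zero (v : Place K F) {x : F} {c c' : K} (hcc : c ≠ c')
    (hv : 0 < v.ord (x - algebraMap K F c)) : ¬ 0 < v.ord (x - algebraMap K F c') := by
  intro hv'
  have h1 : algebraMap K F (c' - c) = (x - algebraMap K F c) - (x - algebraMap K F c') := by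
    rw [map_sub]
    ring
  have hne : algebraMap K F (c' - c) ≠ 0 :=
    (map_ne_zero (algebraMap K F)).mpr (sub_ne_zero.mpr (Ne.symm hcc))
  have h2 : v.adicValuation (algebraMap K F (c' - c)) < 1 := by
    rw [h1]
    refine lt_of_le_of_lt (Valuation.map_sub _ _ _) (max_lt ?_ ?_)
    · by_contra hcon
      push Not at hcon
      have := (Fermat.Agent.RRHur.adicValuation_le_one_iff' v (f := (x - algebraMap K F c)⁻¹)).mp
        (by rw [map_inv₀]; exact inv_le_one_of_one_le₀ hcon)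
      rw [v.ord_inv] at this
      omega
    · by_contra hcon
      push Not at hcon
      have := (Fermat.Agent.RRHur.adicValuation_le_one_iff' v (f := (x - algebraMap K F c')⁻¹)).mp
        (by rw [map_inv₀]; exact inv_le_one_of_one_le₀ hcon)
      rw [v.ord_inv] at this
      omega
  have h3 : 0 ≤ v.ord (algebraMap K F (c' - c)⁻¹) := by
    rw [← Fermat.Agent.RRHur.adicValuation_le_one_iff' v]
    exact v.adicValuation_algebraMap_le_one _
  have h4 : 0 < v.ord (algebraMap K F (c' - c)) := by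
    by_contra hcon
    push Not at hcon
    have := (Fermat.Agent.RRHur.adicValuation_le_one_iff' v (f := (algebraMap K F (c' - c))⁻¹)).mp
      (by
        rw [← map_inv₀]
        exact v.adicValuation_algebraMap_le_one _)
    have h5 : 1 ≤ v.adicValuation (algebraMap K F (c' - c)) := by
      by_contra hlt
      push Not at hlt
      have h6 : ¬ 0 ≤ v.ord (algebraMap K F (c' - c))⁻¹ := by
        rw [← Fermat.Agent.RRHur.adicValuation_le_one_iff' v, map_inv₀, not_le]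
        exact (one_lt_inv₀ (by
          rw [pos_iff_ne_zero]
          exact v.adicValuation_ne_zero hne)).mpr hlt
      exact h6 this
    exact absurd h2 (not_lt.mpr h5)
  rw [map_inv₀, v.ord_inv] at h3
  omega

section Bar

variable (S : ValSetup K F k Fk)

/-- the places of `Fk` over the residues of the values of `Θ m`. -/
def fibBarSet (x : F) (V : ValueSeq S) (m : ℕ) : Set (Place k Fk) :=
  {Q | ∃ t, ∃ ht : t ∈ V.Θ m, 0 < Q.ord (S.red x - algebraMap k Fk (S.res ⟨t, V.mem m t ht⟩))}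

theorem finite_fibBarSet (x : F) (V : ValueSeq S) (m : ℕ) :
    (fibBarSet S x V m).Finite := by
  have : fibBarSet S x V m = ⋃ t ∈ (V.Θ m).attach,
      {Q : Place k Fk | 0 < Q.ord (S.red x - algebraMap k Fk (S.res ⟨t.1, V.mem m t.1 t.2⟩))} := by
    ext Q
    constructor
    · rintro ⟨t, ht, hQ⟩
      exact Set.mem_biUnion (Finset.mem_coe.mpr (Finset.mem_attach _ ⟨t, ht⟩)) hQ
    · intro hQ
      obtain ⟨t, -, hQ⟩ := Set.mem_iUnion₂.mp hQ
      exact ⟨t.1, t.2, hQ⟩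
  rw [this]
  exact Set.Finite.biUnion (Finset.finite_toSet _) fun t _ => finite_zeros S.hFk _

/-- the places of `Fk` over the residues of the values of `Θ m`, as a `Finset`. -/
def fibBar (x : F) (V : ValueSeq S) (m : ℕ) :
    Finset (Place k Fk) :=
  (finite_fibBarSet S x V m).toFinset

theorem mem_fibBar (x : F) (V : ValueSeq S) (m : ℕ)
    (Q : Place k Fk) :
    Q ∈ fibBar S x V m ↔ ∃ t, ∃ ht : t ∈ V.Θ m,
      0 < Q.ord (S.red x - algebraMap k Fk (S.res ⟨t, V.mem m t ht⟩)) := by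
  unfold fibBar
  rw [Set.Finite.mem_toFinset]
  rfl

theorem fibBar_disjoint (x : F) (V : ValueSeq S)
    (m m' : ℕ) (hmm : m ≠ m') : Disjoint (fibBar S x V m) (fibBar S x V m') := by
  rw [Finset.disjoint_left]
  intro Q hQ hQ'
  rw [mem_fibBar] at hQ hQ'
  obtain ⟨t, ht, h1⟩ := hQ
  obtain ⟨t', ht', h2⟩ := hQ'
  exact ord_sub_const_le_zero Q (V.res_ne m m' hmm t ht t' ht') h1 h2

/-- a place of the fibre over `Θ m` reduces into the fibre over the residues. -/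
theorem red_mem_fibBar {r : Place K F → Place k Fk} {x : F} (hc : FibCompat S r x)
    (V : ValueSeq S) {m : ℕ} {P : Place K F}
    (hP : P ∈ fib x V.Θ m) : r P ∈ fibBar S x V m := by
  obtain ⟨t, ht, hPt⟩ := hP
  rw [mem_fibBar]
  exact ⟨t, ht, hc t (V.mem m t ht) P hPt⟩

/-- **good tuples, uniformly** (FIB (d)): there are `g` distinct indices `m i`, off a given finite
set `T`, such that for EVERY tuple `P i ∈ fib (m i)` and every `X ∈ 𝒳` (divisors of degree `0`)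
the divisor `r_* (X + ∑ P i)` is good at `r Pinf` and `X + ∑ P i` is good at `Pinf`. -/
theorem exists_indices_good (hL : HasLattice S) {r : Place K F → Place k Fk}
    (hr : IsReduction S r) (hg : genusFF K F = genusFF k Fk) {x : F} (hc : FibCompat S r x)
    (V : ValueSeq S) (Pinf : Place K F)
    (𝒳 : Finset (Divisor K F)) (h𝒳 : ∀ X ∈ 𝒳, Divisor.degree X = 0) (T : Finset ℕ) :
    ∃ m : Fin (genusFF K F) → ℕ, Function.Injective m ∧ (∀ i, m i ∉ T) ∧
      ∀ P : Fin (genusFF K F) → Place K F, (∀ i, P i ∈ fib x V.Θ (m i)) →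
        ∀ X ∈ 𝒳, IsGoodDiv (r Pinf) (redDiv r (X + sumTuple P)) ∧ IsGoodDiv Pinf (X + sumTuple P) := by
  classical
  have key := exists_indices_isGoodDiv S.hFk (r Pinf) (fun m => fibBar S x V m)
    (fun m m' hmm => fibBar_disjoint S x V m m' hmm) (𝒳.image (redDiv r))
    (by
      intro X hX
      obtain ⟨X₀, hX₀, rfl⟩ := Finset.mem_image.mp hX
      rw [redDiv_apply, hr.deg, h𝒳 X₀ hX₀]) T
  rw [← hg] at key
  obtain ⟨m, hminj, hmT, hm⟩ := key
  refine ⟨m, hminj, hmT, fun P hP X hX => ?_⟩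
  have h1 : IsGoodDiv (r Pinf) (redDiv r (X + sumTuple P)) := by
    have := hm (fun i => r (P i)) (fun i => red_mem_fibBar S hc V (hP i)) (redDiv r X)
      (Finset.mem_image_of_mem _ hX)
    rw [map_add, redDiv_apply r (sumTuple P), mapDomain_sumTuple]
    exact this
  refine ⟨h1, ?_⟩
  exact IsGoodDiv.of_reduction S hL hr.push hg (by rwa [redDiv_apply] at h1)

/-- only finitely many indices `m` have a value whose residue lies in a given finite set `B`
(the residues for different indices are different). -/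
theorem ValueSeq.finite_bad (V : ValueSeq S) {B : Set k} (hB : B.Finite) :
    {m : ℕ | ∃ t, ∃ ht : t ∈ V.Θ m, S.res ⟨t, V.mem m t ht⟩ ∈ B}.Finite := by
  classical
  refine Set.Finite.of_injOn (f := fun m : ℕ =>
      if h : ∃ t, ∃ ht : t ∈ V.Θ m, S.res ⟨t, V.mem m t ht⟩ ∈ B then
        S.res ⟨h.choose, V.mem m _ h.choose_spec.choose⟩ else 0) (t := B) ?_ ?_ hB
  · intro m hm
    have hm' : ∃ t, ∃ ht : t ∈ V.Θ m, S.res ⟨t, V.mem m t ht⟩ ∈ B := hm
    show (if h : ∃ t, ∃ ht : t ∈ V.Θ m, S.res ⟨t, V.mem m t ht⟩ ∈ B then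
        S.res ⟨h.choose, V.mem m _ h.choose_spec.choose⟩ else 0) ∈ B
    rw [dif_pos hm']
    exact hm'.choose_spec.choose_spec
  · intro m hm m' hm' heq
    have h1 : ∃ t, ∃ ht : t ∈ V.Θ m, S.res ⟨t, V.mem m t ht⟩ ∈ B := hm
    have h2 : ∃ t, ∃ ht : t ∈ V.Θ m', S.res ⟨t, V.mem m' t ht⟩ ∈ B := hm'
    simp only [dif_pos h1, dif_pos h2] at heq
    by_contra hne
    exact V.res_ne m m' hne _ h1.choose_spec.choose _ h2.choose_spec.choose heq

end Bar

end Fermat.Agent.FFGoodEll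
end
end MergeWrap_Lib_FF_GoodEll_Fib

section MergeWrap_Lib_FF_GoodEll_Cyclo -- from Lib/FF/GoodEll/Cyclo.lean

set_option autoImplicit false

/-!
# FF / S19, route R-G, seat FIB (a): the value sets `Θ m` (helper20)

`Θ m :=` the primitive `(ℓ m + 1)`-th roots of unity of `K`.  They are integral at every
valuation ring, stable under every field automorphism, nonempty (for `K` algebraically closed of
characteristic `0`), and the residues of `Θ m`, `Θ m'` are disjoint for `m ≠ m'` at every place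
over `ℓ` (roots of unity of order prime to `ℓ` do not collapse under reduction).

So `Θ m` plays the role of the roots of a monic `f_m ∈ ℤ[X]` which is separable mod `ℓ` and
coprime mod `ℓ` to `f_m'`, `m' ≠ m` (`f_m` = the cyclotomic polynomial `Φ_{ℓ m + 1}`).
-/

noncomputable section

open AlgebraicCurve

namespace Fermat.Agent.FFGoodEll

open Fermat.Agent.RR Fermat.Agent.Deuring Fermat.Agent.FF

variable {K F k Fk : Type*} [Field K] [Field F] [Algebra K F]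
  [Field k] [Field Fk] [Algebra k Fk]

/-- the orders `ℓ m + 1`: pairwise distinct and prime to `ℓ`. -/
def cycloN (ℓ m : ℕ) : ℕ := ℓ * m + 1

theorem cycloN_pos (ℓ m : ℕ) : 0 < cycloN ℓ m := Nat.succ_pos _

theorem cycloN_ne_zero (ℓ m : ℕ) : cycloN ℓ m ≠ 0 := Nat.succ_ne_zero _

theorem cycloN_injective {ℓ : ℕ} (hℓ : ℓ.Prime) : Function.Injective (cycloN ℓ) := by
  intro m m' h
  unfold cycloN at h
  have := Nat.eq_of_mul_eq_mul_left hℓ.pos (Nat.succ_injective h)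
  exact this

theorem not_dvd_cycloN {ℓ : ℕ} (hℓ : ℓ.Prime) (m : ℕ) : ¬ ℓ ∣ cycloN ℓ m := by
  intro h
  unfold cycloN at h
  have h1 : ℓ ∣ 1 := (Nat.dvd_add_right (dvd_mul_right ℓ m)).mp h
  exact hℓ.one_lt.ne' (Nat.dvd_one.mp h1)

/-- the value sets: primitive roots of unity of order `ℓ m + 1`. -/
def cycloΘ (K : Type*) [Field K] (ℓ m : ℕ) : Finset K := primitiveRoots (cycloN ℓ m) K

theorem mem_cycloΘ {ℓ m : ℕ} {t : K} : t ∈ cycloΘ K ℓ m ↔ IsPrimitiveRoot t (cycloN ℓ m) :=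
  mem_primitiveRoots (cycloN_pos ℓ m)

theorem cycloΘ_mem_valuationSubring (A : ValuationSubring K) {ℓ m : ℕ} {t : K}
    (ht : t ∈ cycloΘ K ℓ m) : t ∈ A :=
  Fermat.Agent.Cyclo.pow_eq_one_mem A (cycloN_ne_zero ℓ m) (mem_cycloΘ.mp ht).pow_eq_one

theorem cycloΘ_map {ℓ m : ℕ} {t : K} (ht : t ∈ cycloΘ K ℓ m) (σ : K →+* K) :
    σ t ∈ cycloΘ K ℓ m := by
  rw [mem_cycloΘ] at ht ⊢
  exact ht.map_of_injective σ.injective

theorem cycloΘ_nonempty [IsAlgClosed K] [CharZero K] (ℓ m : ℕ) : (cycloΘ K ℓ m).Nonempty := by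
  have : NeZero ((cycloN ℓ m : ℕ) : K) := ⟨Nat.cast_ne_zero.mpr (cycloN_ne_zero ℓ m)⟩
  obtain ⟨ζ, hζ⟩ := IsAlgClosed.exists_root (Polynomial.cyclotomic (cycloN ℓ m) K)
    (by
      rw [Polynomial.degree_cyclotomic]
      exact_mod_cast (Nat.totient_pos.mpr (cycloN_pos ℓ m)).ne')
  exact ⟨ζ, mem_cycloΘ.mpr (Polynomial.isRoot_cyclotomic_iff.mp hζ)⟩

/-- the kernel of the residue map of the constants is the maximal ideal. -/
theorem mem_nonunits_of_res_eq_zero (S : ValSetup K F k Fk) (c : S.A) (hc : S.res c = 0) :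
    (c : K) ∈ S.A.nonunits := by
  rw [ValuationSubring.coe_mem_nonunits_iff]
  intro hunit
  have hcO : algebraMap K F (c : K) ∈ S.Ov := (S.mem_Ov_iff _).mpr c.2
  have h1 : S.ρ ⟨algebraMap K F (c : K), hcO⟩ = 0 := by
    rw [S.ρ_algebraMap (c : K) c.2 hcO]
    have : (⟨(c : K), c.2⟩ : S.A) = c := rfl
    rw [this, hc, map_zero]
  have h2 := (S.ρ_eq_zero_iff _).mp h1
  apply h2
  obtain ⟨u, hu⟩ := hunit
  have hinvO : algebraMap K F (((u⁻¹ : S.Aˣ) : S.A) : K) ∈ S.Ov := (S.mem_Ov_iff _).mpr (Subtype.mem _)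
  refine isUnit_iff_exists_inv.mpr ⟨⟨_, hinvO⟩, ?_⟩
  apply Subtype.ext
  show algebraMap K F (c : K) * algebraMap K F (((u⁻¹ : S.Aˣ) : S.A) : K) = 1
  rw [← map_mul, ← hu]
  have hmi : (u : S.A) * ((u⁻¹ : S.Aˣ) : S.A) = 1 := u.mul_inv
  have : ((u : S.A) : K) * (((u⁻¹ : S.Aˣ) : S.A) : K) = 1 := by
    exact_mod_cast congrArg (fun a : S.A => (a : K)) hmi
  rw [this, map_one]

/-- **the value sequence** of seat FIB: `Θ m` = primitive `(ℓ m + 1)`-th roots of unity. -/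
def cycloValueSeq (S : ValSetup K F k Fk) {ℓ : ℕ} (hℓ : ℓ.Prime) (hA : S.A.LiesOverPrime ℓ) :
    ValueSeq S where
  Θ := cycloΘ K ℓ
  mem := fun _ _ ht => cycloΘ_mem_valuationSubring S.A ht
  res_ne := by
    intro m m' hmm t ht t' ht' hres
    apply hmm
    apply cycloN_injective hℓ
    have hζ := mem_cycloΘ.mp ht
    have hζ' := mem_cycloΘ.mp ht'
    have htA := cycloΘ_mem_valuationSubring S.A ht
    have ht'A := cycloΘ_mem_valuationSubring S.A ht'
    -- `t - t' ∈ 𝔪`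
    have hsub : S.res (⟨t, htA⟩ - ⟨t', ht'A⟩) = 0 := by
      rw [map_sub, hres, sub_self]
    have hnon : t - t' ∈ S.A.nonunits := mem_nonunits_of_res_eq_zero S _ hsub
    have ht'0 : t' ≠ 0 := hζ'.ne_zero (cycloN_ne_zero ℓ m')
    have hinvA : t'⁻¹ ∈ S.A := by
      refine Fermat.Agent.Cyclo.pow_eq_one_mem S.A (cycloN_ne_zero ℓ m') ?_
      rw [inv_pow, hζ'.pow_eq_one, inv_one]
    have hξ : t * t'⁻¹ - 1 ∈ S.A.nonunits := by
      have : t * t'⁻¹ - 1 = (t - t') * t'⁻¹ := by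
        field_simp
      rw [this]
      exact Fermat.Agent.Cyclo.nonunits_mul_mem S.A hnon hinvA
    have hpow : (t * t'⁻¹) ^ (cycloN ℓ m * cycloN ℓ m') = 1 := by
      rw [mul_pow, pow_mul, hζ.pow_eq_one, one_pow, inv_pow, mul_comm (cycloN ℓ m), pow_mul,
        hζ'.pow_eq_one, one_pow, inv_one, one_mul]
    have hnd : ¬ ℓ ∣ cycloN ℓ m * cycloN ℓ m' := by
      intro h
      rcases (Nat.Prime.dvd_mul hℓ).mp h with h | h
      · exact not_dvd_cycloN hℓ m h
      · exact not_dvd_cycloN hℓ m' h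
    have h1 := Fermat.Agent.Cyclo.eq_one_of_sub_one_mem_nonunits S.A
      (Nat.mul_ne_zero (cycloN_ne_zero ℓ m) (cycloN_ne_zero ℓ m')) hpow
      (Fermat.Agent.Cyclo.natCast_not_mem_nonunits S.A hℓ hA hnd) hξ
    have htt : t = t' := by
      have := congrArg (· * t') h1
      simpa [mul_assoc, inv_mul_cancel₀ ht'0] using this
    rw [htt] at hζ
    exact hζ.unique hζ'

@[simp]
theorem cycloValueSeq_Θ (S : ValSetup K F k Fk) {ℓ : ℕ} (hℓ : ℓ.Prime)
    (hA : S.A.LiesOverPrime ℓ) (m : ℕ) : (cycloValueSeq S hℓ hA).Θ m = cycloΘ K ℓ m := rfl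

end Fermat.Agent.FFGoodEll
end
end MergeWrap_Lib_FF_GoodEll_Cyclo

section MergeWrap_Lib_FF_GoodEll_FibGeom -- from Lib/FF/GoodEll/FibGeom.lean

set_option autoImplicit false
set_option linter.style.haveILetI false

/-!
# FF / S19, route R-G, seat FIB (a)(b)(d): the fibres of a `GeomSetup` (helper20)

Abstract in the function field (`𝒮 : FF.GeomSetup p F Fk A₀`), for a Galois-fixed function `x`
(in the application `x = j`) which is integral for the constant reduction, with transcendental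
reduction `x̄` and `deg (x̄)_∞ = deg (x)_∞`:

* `fibCompat_of_isReduction` : `FibCompat S r x` (helper24's `IsReduction.ord_red_sub_pos`);
* `smul_mem_fib`             : the fibre `fib x Θ m` is stable under a semilinear automorphism
                               fixing `x` and mapping `Θ m` into itself;
* `isGoodDiv_redDiv_congr`   : goodness of `r_* (X + Y)` only depends on the class of `X`;
* `cycloFib 𝒮 x m`           : the places over the primitive `(p m + 1)`-th roots of unity, with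
                               `finite_cycloFib`, `cycloFib_nonempty`, `gal_smul_mem_cycloFib`;
* `exists_indices_goodFibres`: `g` distinct indices `m i` off a given finite set `T` such that
                               EVERY tuple `τ i ∈ cycloFib 𝒮 x (m i)` is good for EVERY `w ∈ W` and
                               EVERY divisor `X` of class `ι w` — the fields `Fib`, `fin`,
                               `nonempty`, `stable`, `good` of `FF.GoodFibres`.
-/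

noncomputable section

open AlgebraicCurve

namespace Fermat.Agent.FFGoodEll

open Fermat.Agent.RR Fermat.Agent.Deuring Fermat.Agent.FF

section Abstract

variable {K F k Fk : Type*} [Field K] [Field F] [Algebra K F]
  [Field k] [Field Fk] [Algebra k Fk]

/-- the fibres of `x` are compatible with the reduction of places (helper24, RedValue). -/
theorem fibCompat_of_isReduction {S : ValSetup K F k Fk} {r : Place K F → Place k Fk}
    (hr : IsReduction S r) {x : F} (hx : x ∈ S.Ov) (htr : Transcendental k (S.red x))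
    (hdeg : Divisor.degree (poleDiv S.hFk (S.red x)) = Divisor.degree (poleDiv S.hF x)) :
    FibCompat S r x :=
  fun _ hc _ hP => hr.ord_red_sub_pos hx htr hdeg hc hP

/-- the fibre `fib x Θ m` is stable under a semilinear automorphism `g` fixing `x` and mapping
`Θ m` into itself. -/
theorem smul_mem_fib (g : SemilinearAut K F) {x : F} (hgx : g • x = x) {Θ : ℕ → Finset K}
    {m : ℕ} (hΘ : ∀ t ∈ Θ m, SemilinearAut.baseAut g t ∈ Θ m) {P : Place K F} (hP : P ∈ fib x Θ m) :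
    g • P ∈ fib x Θ m := by
  obtain ⟨t, ht, hPt⟩ := hP
  refine ⟨SemilinearAut.baseAut g t, hΘ t ht, ?_⟩
  have h1 : g • (x - algebraMap K F t) = x - algebraMap K F (SemilinearAut.baseAut g t) := by
    rw [smul_sub, hgx, SemilinearAut.smul_algebraMap]
  rw [← h1, SemilinearAut.ord_smul]
  exact hPt

/-- goodness of `r_* (X + Y)` only depends on the linear equivalence class of `X`. -/
theorem isGoodDiv_redDiv_congr {S : ValSetup K F k Fk} {r : Place K F → Place k Fk}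
    (hr : IsReduction S r) {Q : Place k Fk} {X X' Y : Divisor K F}
    (hXX' : X - X' ∈ Divisor.principal (K := K) (F := F))
    (h : IsGoodDiv Q (redDiv r (X' + Y))) : IsGoodDiv Q (redDiv r (X + Y)) := by
  obtain ⟨f, hf, hfD⟩ := hr.mem_principal hXX'
  have e : redDiv r (X + Y) = redDiv r (X' + Y) + divOf S.hFk f := by
    have e1 : redDiv r (X - X') = divOf S.hFk f := by
      ext v
      rw [hfD v, divOf_apply]
    rw [← e1, ← map_add]
    congr 1
    abel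
  rw [e]
  exact h.add_divOf S.hFk hf

end Abstract

section Geom

local notation "Kb" => AlgebraicClosure ℚ
local notation "GK" => (AlgebraicClosure ℚ ≃ₐ[ℚ] AlgebraicClosure ℚ)

variable {p : ℕ} {F Fk : Type} [Field F] [Algebra Kb F] {A₀ : ValuationSubring Kb} [Field Fk]
  [Algebra (IsLocalRing.ResidueField A₀) Fk]

/-- the place `A₀` as the valuation ring of the constant reduction. -/
theorem GeomSetup_liesOver (𝒮 : GeomSetup p F Fk A₀) : 𝒮.S.A.LiesOverPrime p := by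
  rw [𝒮.S_A]
  exact 𝒮.hA₀

/-- the value sequence of a `GeomSetup`: primitive `(p m + 1)`-th roots of unity. -/
def geomValueSeq (𝒮 : GeomSetup p F Fk A₀) (hp : p.Prime) : ValueSeq 𝒮.S :=
  cycloValueSeq 𝒮.S hp (GeomSetup_liesOver 𝒮)

/-- **the fibres**: the places of `F` over the primitive `(p m + 1)`-th roots of unity. -/
def cycloFib (p : ℕ) (x : F) (m : ℕ) : Set (Place Kb F) :=
  fib x (cycloΘ Kb p) m

theorem mem_cycloFib {x : F} {m : ℕ} {P : Place Kb F} :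
    P ∈ cycloFib p x m ↔ ∃ t, IsPrimitiveRoot t (cycloN p m) ∧
      0 < P.ord (x - algebraMap Kb F t) := by
  unfold cycloFib
  rw [mem_fib]
  constructor
  · rintro ⟨t, ht, h⟩
    exact ⟨t, mem_cycloΘ.mp ht, h⟩
  · rintro ⟨t, ht, h⟩
    exact ⟨t, mem_cycloΘ.mpr ht, h⟩

theorem finite_cycloFib (h : IsRRField Kb F) (x : F) (m : ℕ) : (cycloFib p x m).Finite :=
  finite_fib h x _ m

theorem cycloFib_nonempty (h : IsRRField Kb F) {x : F} (hx : Transcendental Kb x) (m : ℕ) :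
    (cycloFib p x m).Nonempty :=
  fib_nonempty h hx (cycloΘ_nonempty p m)

/-- the fibres for different indices are disjoint. -/
theorem cycloFib_disjoint (hp : p.Prime) (x : F) {m m' : ℕ} (hmm : m ≠ m') :
    Disjoint (cycloFib p x m) (cycloFib (F := F) p x m') := by
  rw [Set.disjoint_left]
  intro P hP hP'
  obtain ⟨t, ht, h1⟩ := mem_cycloFib.mp hP
  obtain ⟨t', ht', h2⟩ := mem_cycloFib.mp hP'
  have hne : t ≠ t' := by
    rintro rfl
    exact hmm (cycloN_injective hp (ht.unique ht'))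
  exact ord_sub_const_le_zero P hne h1 h2

/-- the fibres are Galois stable. -/
theorem gal_smul_mem_cycloFib (𝒮 : GeomSetup p F Fk A₀) {x : F}
    (hfix : ∀ σ : GK, 𝒮.gal σ • x = x) (m : ℕ) (σ : GK) {P : Place Kb F}
    (hP : P ∈ cycloFib p x m) : 𝒮.gal σ • P ∈ cycloFib p x m := by
  refine smul_mem_fib (𝒮.gal σ) (hfix σ) (fun t ht => ?_) hP
  have h1 : SemilinearAut.baseAut (𝒮.gal σ) t = σ t := by
    apply (algebraMap Kb F).injective
    rw [← SemilinearAut.smul_algebraMap, 𝒮.gal_base]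
  rw [h1]
  exact cycloΘ_map ht (σ : Kb →+* Kb)

/-- the value of `x` on the fibre: `P ∈ cycloFib p x m` lies over exactly one root of unity. -/
theorem exists_unique_value {x : F} {m : ℕ} {P : Place Kb F} (hP : P ∈ cycloFib p x m) :
    ∃! t : Kb, IsPrimitiveRoot t (cycloN p m) ∧ 0 < P.ord (x - algebraMap Kb F t) := by
  obtain ⟨t, ht, h⟩ := mem_cycloFib.mp hP
  refine ⟨t, ⟨ht, h⟩, fun t' ht' => ?_⟩
  by_contra hne
  exact ord_sub_const_le_zero P hne ht'.2 h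

/-- **FIB (d)**: there are `g` distinct indices `m i`, off a given finite set `T`, such that EVERY
tuple `τ i ∈ cycloFib p x (m i)` is good at `A₀`, for every `w ∈ W` and every divisor `X` of
degree `0` and class `ι w` (and then also good in characteristic `0`). -/
theorem exists_indices_goodFibres (𝒮 : GeomSetup p F Fk A₀) (hp : p.Prime)
    {W : Type} [AddCommGroup W] [Finite W] (ι : W →+ Pic0 Kb F)
    {x : F} (hx : x ∈ 𝒮.S.Ov)
    (htr : Transcendental (IsLocalRing.ResidueField A₀) (𝒮.S.red x))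
    (hdeg : Divisor.degree (poleDiv 𝒮.S.hFk (𝒮.S.red x)) = Divisor.degree (poleDiv 𝒮.S.hF x))
    (T : Finset ℕ) :
    ∃ m : Fin (genusFF Kb F) → ℕ, Function.Injective m ∧ (∀ i, m i ∉ T) ∧
      ∀ τ : Fin (genusFF Kb F) → Place Kb F, (∀ i, τ i ∈ cycloFib p x (m i)) →
        ∀ (w : W) (X : Divisor Kb F) (hX : X ∈ Divisor.degZero (K := Kb) (F := F)),
          Pic0.mk ⟨X, hX⟩ = ι w →
            IsGoodDiv (𝒮.r 𝒮.oo) (redDiv 𝒮.r (X + sumTuple τ)) ∧
              IsGoodDiv 𝒮.oo (X + sumTuple τ) := by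
  classical
  letI : Fintype W := Fintype.ofFinite W
  -- representatives
  have hrep : ∀ w : W, ∃ D : Divisor.degZero (K := Kb) (F := F), Pic0.mk D = ι w :=
    fun w => Pic0.mk_surjective (ι w)
  choose D hD using hrep
  obtain ⟨m, hminj, hmT, hm⟩ := exists_indices_good 𝒮.S 𝒮.hL 𝒮.hr 𝒮.hg
    (fibCompat_of_isReduction 𝒮.hr hx htr hdeg) (geomValueSeq 𝒮 hp) 𝒮.oo
    (Finset.univ.image fun w => (D w : Divisor Kb F))
    (by
      intro X hX
      obtain ⟨w, -, rfl⟩ := Finset.mem_image.mp hX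
      exact (D w).2) T
  refine ⟨m, hminj, hmT, fun τ hτ w X hX hXw => ?_⟩
  have h0 := hm τ hτ (D w : Divisor Kb F) (Finset.mem_image_of_mem _ (Finset.mem_univ w))
  have hXX' : X - (D w : Divisor Kb F) ∈ Divisor.principal (K := Kb) (F := F) := by
    have h1 : Pic0.mk ⟨X, hX⟩ = Pic0.mk (D w) := hXw.trans (hD w).symm
    have h2 := (QuotientAddGroup.eq (s := (Divisor.principal (K := Kb) (F := F)).addSubgroupOf
      (Divisor.degZero (K := Kb) (F := F)))).mp h1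
    rw [AddSubgroup.mem_addSubgroupOf] at h2
    have h3 : (((-⟨X, hX⟩ + D w : Divisor.degZero (K := Kb) (F := F))) : Divisor Kb F)
        = -(X - (D w : Divisor Kb F)) := by
      rw [AddSubgroup.coe_add, AddSubgroup.coe_neg]
      abel
    rw [h3] at h2
    exact (AddSubgroup.neg_mem_iff _).mp h2
  have h1 : IsGoodDiv (𝒮.r 𝒮.oo) (redDiv 𝒮.r (X + sumTuple τ)) :=
    isGoodDiv_redDiv_congr 𝒮.hr hXX' h0.1
  refine ⟨h1, ?_⟩
  exact IsGoodDiv.of_reduction 𝒮.S 𝒮.hL 𝒮.hr.push 𝒮.hg (by rwa [redDiv_apply] at h1)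

end Geom

end Fermat.Agent.FFGoodEll
end
end MergeWrap_Lib_FF_GoodEll_FibGeom

section MergeWrap_Lib_FF_GoodEll_Modular -- from Lib/FF/GoodEll/Modular.lean

set_option autoImplicit false
set_option linter.style.haveILetI false
set_option linter.unusedSectionVars false
set_option synthInstance.maxHeartbeats 400000
set_option maxHeartbeats 1000000

/-!
# FF / S19, route R-G, seat FIB: the modular instance `x = j` (helper20)

For `S = GaussInt.modularValSetup A ℓ M hℓ hA hℓM`, `r = FF.redPlace A ℓ M hℓ hA hℓM hg` and the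
Galois action `FFGal.galQ M`, the function `j = S24.jBar M` satisfies all hypotheses of
`FibGeom.lean`:

* `jBar_mem_Ov`, `transcendental_red_jBar`, `degree_poleDiv_red_jBar` (`deg (j̄)_∞ = deg (j)_∞`),
* `galQ_smul_jBar` (`σ j = j`),
* `fibCompat_jBar` : a place over `j = t`, `t ∈ A`, reduces to a place over `j̄ = t̄`.
-/

noncomputable section

open AlgebraicCurve ModularCurve IntermediateField

namespace Fermat.Agent.FFGoodEll

open Fermat.Agent.RR Fermat.Agent.Deuring Fermat.Agent.FF Fermat.Agent.GaussInt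

section Modular

variable (A : ValuationSubring (AlgebraicClosure ℚ)) (ℓ M : ℕ) [NeZero M]
  (hℓ : ℓ.Prime) (hA : A.LiesOverPrime ℓ) (hℓM : ¬ ℓ ∣ M)

/-- `j` is integral for the Gauss valuation. -/
theorem jBar_mem_Ov : Fermat.Agent.S24.jBar M ∈ (modularValSetup A ℓ M hℓ hA hℓM).Ov :=
  Fermat.Agent.GoodRed.jBar_mem_gaussValSub M hℓ hA

/-- the reduction `j̄` of `j` is transcendental. -/
theorem transcendental_red_jBar :
    Transcendental (IsLocalRing.ResidueField A)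
      ((modularValSetup A ℓ M hℓ hA hℓM).red (Fermat.Agent.S24.jBar M)) := by
  haveI : IsAlgClosed (IsLocalRing.ResidueField A) := isAlgClosed_residue A
  rw [modularValSetup_red_jBar A ℓ M hℓ hA hℓM]
  exact Fermat.Agent.RRMod.transcendental_jC (IsLocalRing.ResidueField A) M

/-- `deg (j̄)_∞ = deg (j)_∞` (`= ψ(M)`). -/
theorem degree_poleDiv_red_jBar :
    Divisor.degree (poleDiv (modularValSetup A ℓ M hℓ hA hℓM).hFk
        ((modularValSetup A ℓ M hℓ hA hℓM).red (Fermat.Agent.S24.jBar M))) =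
      Divisor.degree (poleDiv (modularValSetup A ℓ M hℓ hA hℓM).hF (Fermat.Agent.S24.jBar M)) := by
  haveI : IsAlgClosed (IsLocalRing.ResidueField A) := isAlgClosed_residue A
  have hred := modularValSetup_red_jBar A ℓ M hℓ hA hℓM
  have htr := transcendental_red_jBar A ℓ M hℓ hA hℓM
  rw [hred] at htr ⊢
  haveI := Fermat.Agent.S24.finiteDimensional_adjoin_jBar M
  haveI := Fermat.Agent.RRMod.finiteDimensional_fullC' (IsLocalRing.ResidueField A) M
  rw [Fermat.Agent.RRHur.degree_poleDiv_eq_finrank (modularValSetup A ℓ M hℓ hA hℓM).hFk htr,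
    Fermat.Agent.RRHur.degree_poleDiv_eq_finrank (modularValSetup A ℓ M hℓ hA hℓM).hF
      (Fermat.Agent.S24.transcendental_jBar M),
    Fermat.Agent.IgusaDeg.finrank_jBar_eq_finrank_jC M hℓ hA hℓM]

/-- `σ j = j`: the `q`-expansion of `j` has rational coefficients. -/
theorem galQ_smul_jBar (σ : AlgebraicClosure ℚ ≃ₐ[ℚ] AlgebraicClosure ℚ) :
    Fermat.Agent.FFGal.galQ M σ • Fermat.Agent.S24.jBar M = Fermat.Agent.S24.jBar M := by
  apply Subtype.ext
  rw [Fermat.Agent.FFGal.coe_galQ_smul, Fermat.Agent.S24.coe_jBar_eq_jqModC,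
    ModularCurve.coeffMap_jqModC]

/-- a place over `j = t`, `t ∈ A`, reduces to a place over `j̄ = t̄`. -/
theorem fibCompat_jBar
    (hg : genusFF (AlgebraicClosure ℚ) (modularFunctionFieldBar M) =
      genusFF (IsLocalRing.ResidueField A)
        (modularFunctionFieldFullC (IsLocalRing.ResidueField A) M)) :
    FibCompat (modularValSetup A ℓ M hℓ hA hℓM) (redPlace A ℓ M hℓ hA hℓM hg)
      (Fermat.Agent.S24.jBar M) :=
  fibCompat_of_isReduction (isReduction_redPlace A ℓ M hℓ hA hℓM hg)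
    (jBar_mem_Ov A ℓ M hℓ hA hℓM) (transcendental_red_jBar A ℓ M hℓ hA hℓM)
    (degree_poleDiv_red_jBar A ℓ M hℓ hA hℓM)

end Modular

end Fermat.Agent.FFGoodEll
end
end MergeWrap_Lib_FF_GoodEll_Modular

section MergeWrap_Lib_FF_GoodEll_CycloUnit -- from Lib/FF/GoodEll/CycloUnit.lean

set_option autoImplicit false

/-!
# FF / S19, seat FIB: unit differences of roots of unity (helper20)

`A` a valuation ring of `K` over `ℓ`; `t ∈ Θ m`, `t' ∈ Θ m'` roots of unity of orders prime to `ℓ`.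
If `t ≠ t'` then `t - t'` is a unit of `A` (`A.valuation (t - t') = 1`); the elements of `Θ m` are
integral over any subring.
-/

noncomputable section

namespace Fermat.Agent.FFGoodEll

variable {K : Type*} [Field K]

/-- roots of unity of orders prime to `ℓ` which are congruent modulo the maximal ideal are
equal. -/
theorem cycloΘ_eq_of_sub_mem_nonunits (A : ValuationSubring K) {ℓ : ℕ} (hℓ : ℓ.Prime)
    (hA : A.LiesOverPrime ℓ) {m m' : ℕ} {t t' : K} (ht : t ∈ cycloΘ K ℓ m)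
    (ht' : t' ∈ cycloΘ K ℓ m') (hnon : t - t' ∈ A.nonunits) : t = t' := by
  have hζ := mem_cycloΘ.mp ht
  have hζ' := mem_cycloΘ.mp ht'
  have ht'0 : t' ≠ 0 := hζ'.ne_zero (cycloN_ne_zero ℓ m')
  have hinvA : t'⁻¹ ∈ A := by
    refine Fermat.Agent.Cyclo.pow_eq_one_mem A (cycloN_ne_zero ℓ m') ?_
    rw [inv_pow, hζ'.pow_eq_one, inv_one]
  have hξ : t * t'⁻¹ - 1 ∈ A.nonunits := by
    have : t * t'⁻¹ - 1 = (t - t') * t'⁻¹ := by
      field_simp
    rw [this]
    exact Fermat.Agent.Cyclo.nonunits_mul_mem A hnon hinvA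
  have hpow : (t * t'⁻¹) ^ (cycloN ℓ m * cycloN ℓ m') = 1 := by
    rw [mul_pow, pow_mul, hζ.pow_eq_one, one_pow, inv_pow, mul_comm (cycloN ℓ m), pow_mul,
      hζ'.pow_eq_one, one_pow, inv_one, one_mul]
  have hnd : ¬ ℓ ∣ cycloN ℓ m * cycloN ℓ m' := by
    intro h
    rcases (Nat.Prime.dvd_mul hℓ).mp h with h | h
    · exact not_dvd_cycloN hℓ m h
    · exact not_dvd_cycloN hℓ m' h
  have h1 := Fermat.Agent.Cyclo.eq_one_of_sub_one_mem_nonunits A
    (Nat.mul_ne_zero (cycloN_ne_zero ℓ m) (cycloN_ne_zero ℓ m')) hpow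
    (Fermat.Agent.Cyclo.natCast_not_mem_nonunits A hℓ hA hnd) hξ
  have := congrArg (· * t') h1
  simpa [mul_assoc, inv_mul_cancel₀ ht'0] using this

/-- **unit differences**: distinct roots of unity of orders prime to `ℓ` differ by a unit. -/
theorem valuation_sub_cycloΘ (A : ValuationSubring K) {ℓ : ℕ} (hℓ : ℓ.Prime)
    (hA : A.LiesOverPrime ℓ) {m m' : ℕ} {t t' : K} (ht : t ∈ cycloΘ K ℓ m)
    (ht' : t' ∈ cycloΘ K ℓ m') (hne : t ≠ t') : A.valuation (t - t') = 1 := by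
  have hmem : t - t' ∈ A :=
    sub_mem (cycloΘ_mem_valuationSubring A ht) (cycloΘ_mem_valuationSubring A ht')
  have h1 : A.valuation (t - t') ≤ 1 := (A.valuation_le_one_iff _).mpr hmem
  have h2 : ¬ A.valuation (t - t') < 1 := by
    intro hlt
    apply hne
    exact cycloΘ_eq_of_sub_mem_nonunits A hℓ hA ht ht' (A.mem_nonunits_iff.mpr hlt)
  exact le_antisymm h1 (not_lt.mp h2)

/-- the elements of `Θ m` are integral over every subring. -/
theorem isIntegral_cycloΘ (R : Type*) [CommRing R] [Algebra R K] {ℓ m : ℕ} {t : K}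
    (ht : t ∈ cycloΘ K ℓ m) : IsIntegral R t := by
  have hζ := mem_cycloΘ.mp ht
  refine IsIntegral.of_pow (cycloN_pos ℓ m) ?_
  rw [hζ.pow_eq_one]
  exact isIntegral_one

end Fermat.Agent.FFGoodEll
end
end MergeWrap_Lib_FF_GoodEll_CycloUnit

section MergeWrap_Lib_FF_Unram -- from Lib/FF/Unram.lean

set_option autoImplicit false

noncomputable section

namespace Fermat.Agent.FF

open AlgebraicCurve Fermat.Agent.RR Fermat.Agent.RRHur IntermediateField

variable {K F : Type*} [Field K] [Field F] [Algebra K F]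

/-! ### ramified values -/

/-- the ramified values of `x`: the `c` such that `x - c` has a multiple zero. -/
def ramValues (K : Type*) {F : Type*} [Field K] [Field F] [Algebra K F] (x : F) : Set K :=
  {c | ∃ v : Place K F, 2 ≤ v.ord (x - algebraMap K F c)}

theorem ord_le_one_of_notMem_ramValues {x : F} {c : K} (hc : c ∉ ramValues K x)
    (v : Place K F) : v.ord (x - algebraMap K F c) ≤ 1 := by
  by_contra hcon
  exact hc ⟨v, by omega⟩

/-- `deg ramAt ≥ 1` at a ramified value. -/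
theorem one_le_degree_ramAt (h : IsRRField K F) {x : F} {c : K} (hc : c ∈ ramValues K x) :
    1 ≤ Divisor.degree (ramAt h x c) := by
  obtain ⟨v, hv⟩ := hc
  have hle : (Finsupp.single v 1 : Divisor K F) ≤ ramAt h x c := by
    classical
    rw [Finsupp.le_def]
    intro w
    rw [ramAt_apply]
    by_cases hw : w = v
    · subst hw
      rw [Finsupp.single_eq_same]
      exact le_max_of_le_left (by omega)
    · rw [Finsupp.single_eq_of_ne hw]
      exact le_max_right _ _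
  have := degree_le_of_le h hle
  rwa [degree_single_one h] at this

theorem degree_ramAt_nonneg (h : IsRRField K F) (x : F) (c : K) :
    0 ≤ Divisor.degree (ramAt h x c) := by
  apply degree_nonneg_of_nonneg h
  rw [Finsupp.le_def]
  intro w
  rw [ramAt_apply]
  exact le_max_right _ _

theorem degree_ramInf_nonneg (h : IsRRField K F) (x : F) :
    0 ≤ Divisor.degree (ramInf h x) := by
  apply degree_nonneg_of_nonneg h
  rw [Finsupp.le_def]
  intro w
  rw [ramInf_apply]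
  exact le_max_right _ _

/-- **generic unramifiedness**: a finite separable `x : C → ℙ¹` has finitely many ramified
values (any characteristic). -/
theorem finite_ramValues [IsAlgClosed K] (h : IsRRField K F) {x : F} (hx : Transcendental K x)
    [FiniteDimensional K⟮x⟯ F] [Algebra.IsSeparable K⟮x⟯ F] : (ramValues K x).Finite := by
  classical
  by_contra hinf
  have hinf' : (ramValues K x).Infinite := hinf
  set B : ℕ := (2 * (genusFF K F : ℤ) - 2 + 2 * (Module.finrank K⟮x⟯ F : ℤ)).toNat with hB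
  obtain ⟨S, hS, hcard⟩ := hinf'.exists_subset_card_eq (B + 1)
  have hH := hurwitz_lower_fibres h hx S
  have h1 : ∀ c ∈ S, (1 : ℤ) ≤ (Module.finrank K⟮x⟯ F : ℤ) -
      (Nat.card {v : Place K F // 0 < v.ord (x - algebraMap K F c)} : ℤ) := by
    intro c hc
    rw [← degree_ramAt h hx c]
    exact one_le_degree_ramAt h (hS hc)
  have h2 : (0 : ℤ) ≤ (Module.finrank K⟮x⟯ F : ℤ) -
      (Nat.card {v : Place K F // v.ord x < 0} : ℤ) := by
    rw [← degree_ramInf h hx]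
    exact degree_ramInf_nonneg h x
  have h3 : (S.card : ℤ) ≤ ∑ c ∈ S, ((Module.finrank K⟮x⟯ F : ℤ) -
      (Nat.card {v : Place K F // 0 < v.ord (x - algebraMap K F c)} : ℤ)) := by
    have := Finset.sum_le_sum h1
    simpa using this
  have h4 : (S.card : ℤ) ≤ 2 * (genusFF K F : ℤ) - 2 + 2 * (Module.finrank K⟮x⟯ F : ℤ) := by
    linarith
  rw [hcard] at h4
  have h5 : (2 * (genusFF K F : ℤ) - 2 + 2 * (Module.finrank K⟮x⟯ F : ℤ)) ≤ (B : ℤ) := by
    rw [hB]
    exact Int.self_le_toNat _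
  push_cast at h4
  omega

/-! ### separation of places by `L(N · P∞)` -/

/-- **separation**: two distinct places different from `P∞` are separated by the values of a
function with poles only at `P∞`, of order `≤ N`, as soon as `N ≥ 2g + 1`. -/
theorem exists_valueAt_ne (h : IsRRField K F) (Pinf Q Q' : Place K F) (hQ : Q ≠ Pinf)
    (hQ' : Q' ≠ Pinf) (hne : Q ≠ Q') {N : ℤ} (hN : 2 * (genusFF K F : ℤ) + 1 ≤ N) :
    ∃ f ∈ riemannRochSpace (Finsupp.single Pinf N : Divisor K F),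
      valueAt h Q f ≠ valueAt h Q' f := by
  classical
  set E : Divisor K F := Finsupp.single Pinf N - Finsupp.single Q 1 with hE
  have hdeg : 2 * (genusFF K F : ℤ) ≤ Divisor.degree E := by
    rw [hE, map_sub, degree_single_one h, degree_single_one h]
    omega
  obtain ⟨f, hfE, hf0, hord⟩ := Fermat.Agent.Deuring.exists_ord_eq h hdeg Q'
  have hEQ' : E Q' = 0 := by
    rw [hE, Finsupp.sub_apply, Finsupp.single_eq_of_ne hQ', Finsupp.single_eq_of_ne hne.symm,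
      sub_zero]
  have hEQ : E Q = -1 := by
    rw [hE, Finsupp.sub_apply, Finsupp.single_eq_of_ne hQ, Finsupp.single_eq_same, zero_sub]
  rw [hEQ', neg_zero] at hord
  have hle : E ≤ Finsupp.single Pinf N := by
    rw [hE, Finsupp.le_def]
    intro w
    rw [Finsupp.sub_apply]
    have : 0 ≤ (Finsupp.single Q (1 : ℤ) : Divisor K F) w := by
      by_cases hw : w = Q
      · subst hw
        rw [Finsupp.single_eq_same]
        norm_num
      · rw [Finsupp.single_eq_of_ne hw]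
    omega
  refine ⟨f, riemannRochSpace_mono hle hfE, ?_⟩
  have hQord : 0 < Q.ord f := by
    have := ((mem_riemannRochSpace_iff.mp hfE) Q).resolve_left hf0
    rw [hEQ] at this
    omega
  have hfQ : f ∈ Q.toValuationSubring := mem_of_ord_nonneg' Q hQord.le
  have hfQ' : f ∈ Q'.toValuationSubring := mem_of_ord_nonneg' Q' hord.ge
  have hv : valueAt h Q f = 0 := (valueAt_eq_zero_iff h Q hfQ).mpr (Or.inr hQord)
  have hv' : valueAt h Q' f ≠ 0 := by
    intro h0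
    rcases (valueAt_eq_zero_iff h Q' hfQ').mp h0 with h1 | h1
    · exact hf0 h1
    · omega
  rw [hv]
  exact fun hh => hv' hh.symm

end Fermat.Agent.FF
end
end MergeWrap_Lib_FF_Unram

section MergeWrap_Lib_FF_Sep -- from Lib/FF/Sep.lean

set_option autoImplicit false

noncomputable section

namespace Fermat.Agent.FF

open AlgebraicCurve Fermat.Agent.RR Fermat.Agent.Deuring

variable {K F k Fk : Type*} [Field K] [Field F] [Algebra K F]
  [Field k] [Field Fk] [Algebra k Fk]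

variable {S : ValSetup K F k Fk} {r : Place K F → Place k Fk}

/-- a separating family: integral functions of `L(N · Pinf)` whose reductions span
`L(N · r Pinf)`. -/
structure SepBasis (S : ValSetup K F k Fk) (r : Place K F → Place k Fk) (Pinf : Place K F)
    (N : ℤ) {n : ℕ} (b : Fin n → F) : Prop where
  mem_L : ∀ i, b i ∈ riemannRochSpace (Finsupp.single Pinf N : Divisor K F)
  mem_Ov : ∀ i, b i ∈ S.Ov
  span : riemannRochSpace (Finsupp.single (r Pinf) N : Divisor k Fk) ≤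
    Submodule.span k (Set.range fun i => S.red (b i))

/-- an orthonormal basis of `L(N · Pinf)`, `N ≥ 2g`, is a separating family. -/
theorem sepBasis_of_orthonormal (hr : IsReduction S r) (Pinf : Place K F) {N : ℤ}
    (hN : 2 * (genusFF K F : ℤ) ≤ N) {n : ℕ} (b : Fin n → F)
    (hspan : Submodule.span K (Set.range b) = riemannRochSpace (Finsupp.single Pinf N))
    (hbO : ∀ i, b i ∈ S.Ov) (hli : LinearIndependent k (fun i => S.red (b i))) :
    SepBasis S r Pinf N b where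
  mem_L := fun i => by
    rw [← hspan]
    exact Submodule.subset_span ⟨i, rfl⟩
  mem_Ov := hbO
  span := by
    have h1 := hr.gr (Finsupp.single Pinf N) (by rw [degree_single_one S.hF]; exact hN)
    rw [Finsupp.mapDomain_single, ← hspan, redSpace_span S b hbO hli] at h1
    rw [← h1]

namespace SepBasis

variable {Pinf : Place K F} {N : ℤ} {n : ℕ} {b : Fin n → F}

/-- the `b i` are regular away from `Pinf`. -/
theorem ord_nonneg (hb : SepBasis S r Pinf N b) (i : Fin n) {P : Place K F} (hP : P ≠ Pinf) :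
    0 ≤ P.ord (b i) := by
  rcases (mem_riemannRochSpace_iff.mp (hb.mem_L i)) P with h0 | h0
  · rw [h0, P.ord_zero]
  · rw [Finsupp.single_eq_of_ne hP] at h0
    omega

/-- the `b i` are regular on the residue disc of a place `P` with `r P ≠ r Pinf`. -/
theorem regular (hb : SepBasis S r Pinf N b) (i : Fin n) {P : Place K F} (hP : r P ≠ r Pinf) :
    ∀ P', r P' = r P → 0 ≤ P'.ord (b i) := by
  intro P' hP'
  apply hb.ord_nonneg i
  rintro rfl
  exact hP hP'.symm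

/-- the reductions of the `b i` lie in `L(N · r Pinf)`. -/
theorem red_mem (hr : IsReduction S r) (hb : SepBasis S r Pinf N b) (i : Fin n) :
    S.red (b i) ∈ riemannRochSpace (Finsupp.single (r Pinf) N : Divisor k Fk) := by
  have := hr.red_mem (hb.mem_L i) (hb.mem_Ov i)
  rwa [redDiv_single] at this

/-- the reductions of the `b i` are regular away from `r Pinf`. -/
theorem red_ord_nonneg (hr : IsReduction S r) (hb : SepBasis S r Pinf N b) (i : Fin n)
    {Q : Place k Fk} (hQ : Q ≠ r Pinf) : 0 ≤ Q.ord (S.red (b i)) := by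
  rcases (mem_riemannRochSpace_iff.mp (hb.red_mem hr i)) Q with h0 | h0
  · rw [h0, Q.ord_zero]
  · rw [Finsupp.single_eq_of_ne hQ] at h0
    omega

/-- the values of the `b i` at a place `P` with `r P ≠ r Pinf` are integral. -/
theorem valueAt_mem (hr : IsReduction S r) (hb : SepBasis S r Pinf N b) (i : Fin n)
    {P : Place K F} (hP : r P ≠ r Pinf) : valueAt S.hF P (b i) ∈ S.A :=
  hr.valueAt_mem (hb.mem_Ov i) P (hb.regular i hP)

end SepBasis

/-- **separation with unit differences**: places with distinct reductions (both different from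
`r Pinf`) are separated by a unit difference of values of some `b i`. -/
theorem IsReduction.exists_unit_valueAt_sub (hr : IsReduction S r) {Pinf : Place K F} {N : ℤ}
    {n : ℕ} {b : Fin n → F} (hb : SepBasis S r Pinf N b)
    (hN : 2 * (genusFF k Fk : ℤ) + 1 ≤ N) {P P' : Place K F} (hP : r P ≠ r Pinf)
    (hP' : r P' ≠ r Pinf) (hne : r P ≠ r P') :
    ∃ i, S.A.valuation (valueAt S.hF P (b i) - valueAt S.hF P' (b i)) = 1 := by
  obtain ⟨f, hfL, hfne⟩ := exists_valueAt_ne S.hFk (r Pinf) (r P) (r P') hP hP' hne hN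
  obtain ⟨c, rfl⟩ := (Submodule.mem_span_range_iff_exists_fun k).mp (hb.span hfL)
  by_contra hcon0
  have hcon : ∀ i, S.A.valuation (valueAt S.hF P (b i) - valueAt S.hF P' (b i)) ≠ 1 :=
    fun i hi => hcon0 ⟨i, hi⟩
  apply hfne
  have hmemP : ∀ i, S.red (b i) ∈ (r P).toValuationSubring := fun i =>
    mem_of_ord_nonneg' (r P) (hb.red_ord_nonneg hr i hP)
  have hmemP' : ∀ i, S.red (b i) ∈ (r P').toValuationSubring := fun i =>
    mem_of_ord_nonneg' (r P') (hb.red_ord_nonneg hr i hP')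
  have heq : ∀ i, valueAt S.hFk (r P) (S.red (b i)) = valueAt S.hFk (r P') (S.red (b i)) := by
    intro i
    by_contra hi
    exact hcon i (hr.valuation_valueAt_sub (hb.mem_Ov i) P P' (hb.regular i hP)
      (hb.regular i hP') hi)
  rw [valueAt_sum S.hFk (r P) _ _ (fun i _ => by
      rw [Algebra.smul_def]
      exact mul_mem ((r P).algebraMap_mem' _) (hmemP i)),
    valueAt_sum S.hFk (r P') _ _ (fun i _ => by
      rw [Algebra.smul_def]
      exact mul_mem ((r P').algebraMap_mem' _) (hmemP' i))]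
  refine Finset.sum_congr rfl fun i _ => ?_
  rw [valueAt_smul_const S.hFk (r P) _ (hmemP i), valueAt_smul_const S.hFk (r P') _ (hmemP' i),
    heq i]

section Fibre

variable {x : F} (hr : IsReduction S r) (hx : x ∈ S.Ov) (htr : Transcendental k (S.red x))
  (hdeg : Divisor.degree (poleDiv S.hFk (S.red x)) = Divisor.degree (poleDiv S.hF x))

include hr hx htr hdeg

/-- a zero of `x - t`, `t ∈ A`, does not reduce to the reduction of a pole of `x`. -/
theorem IsReduction.red_ne_of_fibre {Pinf : Place K F} (hPinf : Pinf.ord x < 0) {t : K}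
    (ht : t ∈ S.A) {P : Place K F} (hP : 0 < P.ord (x - algebraMap K F t)) : r P ≠ r Pinf := by
  intro h
  have h1 := hr.ord_nonneg_of_disc hx htr hdeg ht hP (P' := Pinf) h.symm
  omega

/-- the values of a separating family on the fibres of `x` over integral values are integral. -/
theorem IsReduction.valueAt_mem_of_fibre {Pinf : Place K F} (hPinf : Pinf.ord x < 0) {N : ℤ}
    {n : ℕ} {b : Fin n → F} (hb : SepBasis S r Pinf N b) {t : K} (ht : t ∈ S.A)
    {P : Place K F} (hP : 0 < P.ord (x - algebraMap K F t)) (i : Fin n) :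
    valueAt S.hF P (b i) ∈ S.A :=
  hb.valueAt_mem hr i (hr.red_ne_of_fibre hx htr hdeg hPinf ht hP)

/-- **FIB(c), abstract form**: two distinct points of the fibre of `x` over `t ∈ A` are separated
by a unit difference of values of some `b i`, if `t̄` is not a ramified value of `x̄`. -/
theorem IsReduction.exists_unit_of_fibre {Pinf : Place K F} (hPinf : Pinf.ord x < 0) {N : ℤ}
    {n : ℕ} {b : Fin n → F} (hb : SepBasis S r Pinf N b)
    (hN : 2 * (genusFF k Fk : ℤ) + 1 ≤ N) {t : K} (ht : t ∈ S.A)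
    (hunr : S.res ⟨t, ht⟩ ∉ ramValues k (S.red x)) {P P' : Place K F}
    (hP : 0 < P.ord (x - algebraMap K F t)) (hP' : 0 < P'.ord (x - algebraMap K F t))
    (hne : P ≠ P') :
    ∃ i, S.A.valuation (valueAt S.hF P (b i) - valueAt S.hF P' (b i)) = 1 := by
  refine hr.exists_unit_valueAt_sub hb hN (hr.red_ne_of_fibre hx htr hdeg hPinf ht hP)
    (hr.red_ne_of_fibre hx htr hdeg hPinf ht hP') ?_
  intro h
  exact hne (hr.eq_of_unramified hx htr hdeg ht
    (fun Q => ord_le_one_of_notMem_ramValues hunr Q) hP hP' h)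

end Fibre

end Fermat.Agent.FF
end
end MergeWrap_Lib_FF_Sep

section MergeWrap_Lib_FF_RedRat -- from Lib/FF/RedRat.lean

set_option autoImplicit false
set_option linter.style.haveILetI false
set_option synthInstance.maxHeartbeats 400000
set_option maxHeartbeats 1600000

noncomputable section

namespace Fermat.Agent.FF

open ModularCurve HahnSeries AlgebraicCurve Fermat.Agent.GaussInt Fermat.Agent.Deuring
  Fermat.Agent.FF.RedRat Fermat.Agent.S17.RatDesc

local notation "Qb" => AlgebraicClosure ℚ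

/-- `A ∩ ℚ ⊆ ℤ_(ℓ)` for a valuation ring `A` over `ℓ`. -/
theorem mem_ratLocalizedAt_of_mem {L : Type*} [Field L] [Algebra ℚ L] {A : ValuationSubring L}
    {ℓ : ℕ} (hℓ : ℓ.Prime) (hA : A.LiesOverPrime ℓ) {c : ℚ} (hcA : algebraMap ℚ L c ∈ A) :
    c ∈ GaloisRep.ratLocalizedAt ℓ := by
  show c.den.Coprime ℓ
  rw [Nat.coprime_comm, hℓ.coprime_iff_not_dvd]
  intro hd
  have hden : (c.den : L) ≠ 0 := by
    have : (c.den : ℚ) ≠ 0 := by exact_mod_cast c.den_ne_zero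
    have h := (algebraMap ℚ L).injective.ne this
    simpa using h
  have hcK : algebraMap ℚ L c = (c.num : L) / (c.den : L) := by
    conv_lhs => rw [← Rat.num_div_den c]
    simp
  have hvl := valuation_prime_lt_one hℓ hA
  have hnum' : ¬ (ℓ : ℤ) ∣ c.num := by
    intro hn
    have h1 : ℓ ∣ c.num.natAbs := Int.natCast_dvd.mp hn
    have h2 := Nat.dvd_gcd h1 hd
    rw [c.reduced] at h2
    exact hℓ.one_lt.ne' (Nat.dvd_one.mp h2)
  have hv1 : A.valuation (c.num : L) = 1 :=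
    S05H5.v_intCast_eq_one A.valuation hℓ hvl hnum'
  have hv2 : A.valuation (c.den : L) < 1 := by
    have := S05H5.v_intCast_lt_one A.valuation hvl (n := (c.den : ℤ))
      (Int.natCast_dvd_natCast.mpr hd)
    simpa using this
  have hv3 : A.valuation (algebraMap ℚ L c) ≤ 1 := (A.valuation_le_one_iff _).mpr hcA
  rw [hcK, map_div₀, hv1] at hv3
  have hv4 : A.valuation (c.den : L) ≠ 0 := (Valuation.ne_zero_iff _).mpr hden
  rw [div_le_iff₀ (zero_lt_iff.mpr hv4), one_mul] at hv3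
  exact absurd hv2 (not_lt.mpr hv3)

variable (A0 : ValuationSubring Qb) (l M : ℕ) [NeZero M]
  (hl : l.Prime) (hA : A0.LiesOverPrime l) (hlM : ¬ l ∣ M)

/-- the property "fixed by `G_ℚ`" -/
def IsRatFun (f : modularFunctionFieldBar M) : Prop :=
  ∀ σ : Qb ≃ₐ[ℚ] Qb, arithmeticGalois (modularFunctionFieldFull M) σ • f = f

/-- rational orthonormal families in the modular setup -/
theorem isOrtho_of_gauss {n : ℕ} (b : Fin n → modularFunctionFieldBar M)
    (hfix : ∀ i (σ : Qb ≃ₐ[ℚ] Qb),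
      arithmeticGalois (modularFunctionFieldFull M) σ • b i = b i)
    (hint : ∀ i, ((b i : modularFunctionFieldBar M) : LaurentSeries Qb) ∈
      gaussSub A0 (modularFunctionFieldBar M))
    (hind : ∀ c : Fin n → IsLocalRing.ResidueField A0,
      ∑ i, algebraMap (IsLocalRing.ResidueField A0)
          (LaurentSeries (IsLocalRing.ResidueField A0)) (c i) *
        gaussResFun A0 (modularFunctionFieldBar M)
          ((b i : modularFunctionFieldBar M) : LaurentSeries Qb) = 0 → ∀ i, c i = 0) :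
    IsOrtho (modularValSetup A0 l M hl hA hlM) (IsRatFun M) b where
  int := fun i => (mem_modularValSetup_Ov_iff A0 l M hl hA hlM (b i)).mpr (hint i)
  li := by
    rw [Fintype.linearIndependent_iff]
    intro g hg i
    apply hind g _ i
    have key : ∑ i, algebraMap (IsLocalRing.ResidueField A0)
        (LaurentSeries (IsLocalRing.ResidueField A0)) (g i) *
          gaussResFun A0 (modularFunctionFieldBar M)
            ((b i : modularFunctionFieldBar M) : LaurentSeries Qb) =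
        ((∑ i, g i • (modularValSetup A0 l M hl hA hlM).red (b i) :
            modularFunctionFieldFullC (IsLocalRing.ResidueField A0) M) :
          LaurentSeries (IsLocalRing.ResidueField A0)) := by
      rw [AddSubmonoidClass.coe_finsetSum]
      refine Finset.sum_congr rfl fun j _ => ?_
      rw [coe_smul_subfield, coe_modularValSetup_red A0 l M hl hA hlM (hint j)]
    rw [key, hg]
    rfl
  prop := hfix

/-- **D1: RATIONAL ORTHONORMAL BASIS.**  A finite-dimensional `G_ℚ`-stable subspace of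
`F = ℚ̄(X₀(M))` has a basis consisting of `G_ℚ`-fixed elements of the Gauss ring at `A0` whose
reductions are linearly independent over the residue field. -/
theorem exists_ratOrtho_basis (W : Submodule Qb (modularFunctionFieldBar M))
    [FiniteDimensional Qb W]
    (hW : ∀ σ : Qb ≃ₐ[ℚ] Qb, ∀ f ∈ W, arithmeticGalois (modularFunctionFieldFull M) σ • f ∈ W) :
    ∃ (n : ℕ) (b : Fin n → modularFunctionFieldBar M), LinearIndependent Qb b ∧
      Submodule.span Qb (Set.range b) = W ∧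
      (∀ i (σ : Qb ≃ₐ[ℚ] Qb), arithmeticGalois (modularFunctionFieldFull M) σ • b i = b i) ∧
      (∀ i, b i ∈ (modularValSetup A0 l M hl hA hlM).Ov) ∧
      LinearIndependent (IsLocalRing.ResidueField A0)
        (fun i => (modularValSetup A0 l M hl hA hlM).red (b i)) := by
  obtain ⟨n, b, hspan, hfix, hint, hind⟩ :=
    exists_ratOrtho_gauss (gaussHyp_modular (A := A0) M hl hA) W hW
  have ho := isOrtho_of_gauss A0 l M hl hA hlM b hfix hint hind
  exact ⟨n, b, ho.linearIndependent, hspan, hfix, ho.int, ho.li⟩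

/-- **D1, flag form.**  For `G_ℚ`-stable subspaces `W' ≤ W` there is a rational orthonormal basis
`b` of `W` whose first `m` members form a basis of `W'`. -/
theorem exists_ratOrtho_basis_flag (W' W : Submodule Qb (modularFunctionFieldBar M))
    [FiniteDimensional Qb W] (hle : W' ≤ W)
    (hW' : ∀ σ : Qb ≃ₐ[ℚ] Qb, ∀ f ∈ W',
      arithmeticGalois (modularFunctionFieldFull M) σ • f ∈ W')
    (hW : ∀ σ : Qb ≃ₐ[ℚ] Qb, ∀ f ∈ W, arithmeticGalois (modularFunctionFieldFull M) σ • f ∈ W) :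
    ∃ (m n : ℕ) (hmn : m ≤ n) (b : Fin n → modularFunctionFieldBar M),
      LinearIndependent Qb b ∧
      Submodule.span Qb (Set.range b) = W ∧
      Submodule.span Qb (Set.range fun i : Fin m => b (Fin.castLE hmn i)) = W' ∧
      (∀ i (σ : Qb ≃ₐ[ℚ] Qb), arithmeticGalois (modularFunctionFieldFull M) σ • b i = b i) ∧
      (∀ i, b i ∈ (modularValSetup A0 l M hl hA hlM).Ov) ∧
      LinearIndependent (IsLocalRing.ResidueField A0)
        (fun i => (modularValSetup A0 l M hl hA hlM).red (b i)) := by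
  haveI : FiniteDimensional Qb W' := Submodule.finiteDimensional_of_le hle
  obtain ⟨m, b', hspan', hfix', hint', hind'⟩ :=
    exists_ratOrtho_gauss (gaussHyp_modular (A := A0) M hl hA) W' hW'
  obtain ⟨n, c, hspan, hfix, hint, hind⟩ :=
    exists_ratOrtho_gauss (gaussHyp_modular (A := A0) M hl hA) W hW
  have hb' := isOrtho_of_gauss A0 l M hl hA hlM b' hfix' hint' hind'
  have hc := isOrtho_of_gauss A0 l M hl hA hlM c hfix hint hind
  have hmem : ∀ i, b' i ∈ Submodule.span Qb (Set.range c) := by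
    intro i
    rw [hspan]
    apply hle
    rw [← hspan']
    exact Submodule.subset_span ⟨i, rfl⟩
  obtain ⟨hmn, b, hb, hbspan, hbb⟩ := hb'.exists_extension hc hmem
  refine ⟨m, n, hmn, b, hb.linearIndependent, hbspan.trans hspan, ?_, hb.prop, hb.int, hb.li⟩
  rw [← hspan']
  congr 2
  funext i
  exact hbb i

/-- **D1, coefficients.**  The coordinates of a `G_ℚ`-fixed element of the Gauss ring with respect
to a rational orthonormal family are rational numbers in `ℤ_(l)`. -/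
theorem ratOrtho_coeff {n : ℕ} (b : Fin n → modularFunctionFieldBar M)
    (hfix : ∀ i (σ : Qb ≃ₐ[ℚ] Qb),
      arithmeticGalois (modularFunctionFieldFull M) σ • b i = b i)
    (hO : ∀ i, b i ∈ (modularValSetup A0 l M hl hA hlM).Ov)
    (hli : LinearIndependent (IsLocalRing.ResidueField A0)
      (fun i => (modularValSetup A0 l M hl hA hlM).red (b i)))
    (c : Fin n → Qb)
    (hf : ∀ σ : Qb ≃ₐ[ℚ] Qb,
      arithmeticGalois (modularFunctionFieldFull M) σ • (∑ i, c i • b i) = ∑ i, c i • b i)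
    (hfO : (∑ i, c i • b i) ∈ (modularValSetup A0 l M hl hA hlM).Ov) :
    ∀ i, ∃ z ∈ GaloisRep.ratLocalizedAt l, algebraMap ℚ Qb z = c i := by
  have hliK := linearIndependent_of_red (modularValSetup A0 l M hl hA hlM) b hO hli
  have hcA := coeff_mem_of_sum_mem (modularValSetup A0 l M hl hA hlM) b hO hli c hfO
  intro i
  have hfixc : ∀ σ : Qb ≃ₐ[ℚ] Qb, σ (c i) = c i := by
    intro σ
    have h1 := hf σ
    rw [Finset.smul_sum] at h1
    have h2 : ∑ j, (σ (c j) - c j) • b j = 0 := by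
      simp_rw [sub_smul]
      rw [Finset.sum_sub_distrib, sub_eq_zero, ← h1]
      refine Finset.sum_congr rfl fun j _ => ?_
      rw [arith_smul_smul, hfix j σ]
    exact sub_eq_zero.mp (Fintype.linearIndependent_iff.mp hliK _ h2 i)
  obtain ⟨z, hz⟩ := fixed_const (c i) hfixc
  refine ⟨z, mem_ratLocalizedAt_of_mem hl hA ?_, hz⟩
  rw [hz]
  exact hcA i

end Fermat.Agent.FF
end
end MergeWrap_Lib_FF_RedRat

section MergeWrap_Lib_FF_FibSep -- from Lib/FF/FibSep.lean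

set_option autoImplicit false
set_option linter.style.haveILetI false
set_option linter.unusedSectionVars false
set_option synthInstance.maxHeartbeats 400000
set_option maxHeartbeats 1000000

noncomputable section

namespace Fermat.Agent.FF

open ModularCurve AlgebraicCurve Fermat.Agent.RR Fermat.Agent.Deuring Fermat.Agent.GaussInt
  Fermat.Agent.FFGal IntermediateField

local notation "Qb" => AlgebraicClosure ℚ
local notation "GQ" => (AlgebraicClosure ℚ ≃ₐ[ℚ] AlgebraicClosure ℚ)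

variable (A₀ : ValuationSubring Qb) (ℓ M : ℕ) [NeZero M]
  (hℓ : ℓ.Prime) (hA : A₀.LiesOverPrime ℓ) (hℓM : ¬ ℓ ∣ M)

/-! ### standing facts on `j` -/

theorem fibsep_j_mem : Fermat.Agent.S24.jBar M ∈ (modularValSetup A₀ ℓ M hℓ hA hℓM).Ov :=
  Fermat.Agent.GoodRed.jBar_mem_gaussValSub M hℓ hA

theorem fibsep_red_j :
    (modularValSetup A₀ ℓ M hℓ hA hℓM).red (Fermat.Agent.S24.jBar M)
      = Fermat.Agent.RRMod.jC (IsLocalRing.ResidueField A₀) M := by
  apply Subtype.ext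
  rw [coe_modularValSetup_red A₀ ℓ M hℓ hA hℓM
    ((mem_modularValSetup_Ov_iff A₀ ℓ M hℓ hA hℓM _).mp (fibsep_j_mem A₀ ℓ M hℓ hA hℓM))]
  exact Fermat.Agent.GoodRed.gaussResFun_jBar M

theorem fibsep_transcendental_jC :
    Transcendental (IsLocalRing.ResidueField A₀)
      (Fermat.Agent.RRMod.jC (IsLocalRing.ResidueField A₀) M) :=
  Fermat.Agent.GoodRed.transcendental_of_coe _ _
    (Fermat.Agent.GoodRed.transcendental_jqModC _)

theorem fibsep_transcendental_red_j :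
    Transcendental (IsLocalRing.ResidueField A₀)
      ((modularValSetup A₀ ℓ M hℓ hA hℓM).red (Fermat.Agent.S24.jBar M)) := by
  rw [fibsep_red_j]
  exact fibsep_transcendental_jC A₀ M

theorem fibsep_transcendental_j : Transcendental Qb (Fermat.Agent.S24.jBar M) :=
  Fermat.Agent.GoodRed.transcendental_of_coe (modularFunctionFieldBar M) _ (by
    rw [Fermat.Agent.S24.coe_jBar_eq_jqModC]
    exact Fermat.Agent.GoodRed.transcendental_jqModC _)

theorem fibsep_finrank_pos :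
    0 < Module.finrank Qb⟮Fermat.Agent.S24.jBar M⟯ ↥(modularFunctionFieldBar M) := by
  rw [Fermat.Agent.GoodRedBranch.finrank_jBar M]
  exact Fermat.Agent.GoodRed.index_Gamma0_pos M

theorem fibsep_finiteDimensional_j :
    FiniteDimensional Qb⟮Fermat.Agent.S24.jBar M⟯ ↥(modularFunctionFieldBar M) :=
  Module.finite_of_finrank_pos (fibsep_finrank_pos M)

include hℓ hA hℓM in
theorem fibsep_finiteDimensional_jC :
    FiniteDimensional
      (IsLocalRing.ResidueField A₀)⟮Fermat.Agent.RRMod.jC (IsLocalRing.ResidueField A₀) M⟯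
      ↥(modularFunctionFieldFullC (IsLocalRing.ResidueField A₀) M) := by
  apply Module.finite_of_finrank_pos
  rw [← Fermat.Agent.IgusaDeg.finrank_jBar_eq_finrank_jC M hℓ hA hℓM]
  exact fibsep_finrank_pos M

/-- the degrees of the pole divisors of `j` and `j̄` agree. -/
theorem fibsep_degree_poleDiv :
    Divisor.degree (poleDiv (modularValSetup A₀ ℓ M hℓ hA hℓM).hFk
        ((modularValSetup A₀ ℓ M hℓ hA hℓM).red (Fermat.Agent.S24.jBar M)))
      = Divisor.degree (poleDiv (modularValSetup A₀ ℓ M hℓ hA hℓM).hF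
          (Fermat.Agent.S24.jBar M)) := by
  haveI := fibsep_finiteDimensional_j M
  haveI := fibsep_finiteDimensional_jC A₀ ℓ M hℓ hA hℓM
  rw [fibsep_red_j,
    Fermat.Agent.RRHur.degree_poleDiv_eq_finrank _ (fibsep_transcendental_jC A₀ M),
    Fermat.Agent.RRHur.degree_poleDiv_eq_finrank _ (fibsep_transcendental_j M),
    Fermat.Agent.IgusaDeg.finrank_jBar_eq_finrank_jC M hℓ hA hℓM]

/-- `j` has a pole at the cusp `∞`. -/
theorem fibsep_ord_cusp : (Fermat.Agent.S17.Setup.cuspPlace M).ord (Fermat.Agent.S24.jBar M) < 0 := by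
  apply Fermat.Agent.S24Res.ord_neg_of_not_mem
  rw [Fermat.Agent.S17.Setup.mem_cuspPlace_iff]
  intro h
  have h1 := h (-1) (by norm_num)
  rw [Fermat.Agent.S24.coe_jBar_eq_jqModC, coeff_jqModC_neg_one] at h1
  exact one_ne_zero h1

/-! ### the bad values -/

/-- the ramified values of `j̄` on the reduction of `X₀(M)`. -/
def badValues : Set (IsLocalRing.ResidueField A₀) :=
  ramValues (IsLocalRing.ResidueField A₀)
    (Fermat.Agent.RRMod.jC (IsLocalRing.ResidueField A₀) M)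

include hℓ hA hℓM in
/-- only finitely many values of `j̄` are ramified. -/
theorem finite_badValues : (badValues A₀ M).Finite := by
  haveI := isAlgClosed_residue A₀
  haveI := fibsep_finiteDimensional_jC A₀ ℓ M hℓ hA hℓM
  haveI := Fermat.Agent.RRMod.isSeparable_fullC' (IsLocalRing.ResidueField A₀) M
  exact finite_ramValues (Fermat.Agent.RRMod.isRRField_fullC' (IsLocalRing.ResidueField A₀) M)
    (fibsep_transcendental_jC A₀ M)

/-! ### Galois -/

/-- `j` is fixed by `G_ℚ`. -/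
theorem galQ_smul_jBar (σ : GQ) : galQ M σ • Fermat.Agent.S24.jBar M = Fermat.Agent.S24.jBar M := by
  apply Subtype.ext
  rw [coe_galQ_smul, Fermat.Agent.S24.coe_jBar_eq_jqModC]
  exact coeffMap_jqModC _

/-- the fibres of `j` are permuted by `G_ℚ`: `P` over `t` ⟹ `σ P` over `σ t`. -/
theorem galQ_smul_fibre (σ : GQ) {t : Qb} {P : Place Qb ↥(modularFunctionFieldBar M)}
    (hP : 0 < P.ord (Fermat.Agent.S24.jBar M - algebraMap Qb _ t)) :
    0 < (galQ M σ • P).ord (Fermat.Agent.S24.jBar M - algebraMap Qb _ (σ t)) := by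
  have h1 : Fermat.Agent.S24.jBar M - algebraMap Qb ↥(modularFunctionFieldBar M) (σ t)
      = galQ M σ • (Fermat.Agent.S24.jBar M - algebraMap Qb _ t) := by
    rw [smul_sub, galQ_smul_jBar, SemilinearAut.smul_algebraMap]
    rfl
  rw [h1, SemilinearAut.ord_smul]
  exact hP

/-- equivariance of the values of a `G_ℚ`-fixed function. -/
theorem valueAt_galQ (σ : GQ) (P : Place Qb ↥(modularFunctionFieldBar M))
    {b : modularFunctionFieldBar M} (hb : galQ M σ • b = b) :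
    valueAt (Fermat.Agent.RRMod.isRRField_bar M) (galQ M σ • P) b
      = σ (valueAt (Fermat.Agent.RRMod.isRRField_bar M) P b) :=
  valueAt_smul_of_fixed _ (galQ M σ) P hb

/-- the value of `j` on its fibre. -/
theorem valueAt_jBar {t : Qb} {P : Place Qb ↥(modularFunctionFieldBar M)}
    (hP : 0 < P.ord (Fermat.Agent.S24.jBar M - algebraMap Qb _ t)) :
    valueAt (Fermat.Agent.RRMod.isRRField_bar M) P (Fermat.Agent.S24.jBar M) = t :=
  valueAt_eq_of_ord_pos _ P hP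

/-! ### FIB(c) -/

variable (hg : genusFF Qb (modularFunctionFieldBar M) =
  genusFF (IsLocalRing.ResidueField A₀)
    (modularFunctionFieldFullC (IsLocalRing.ResidueField A₀) M))

include hℓ hA hℓM hg in
/-- **FIB(c), modular instance.**  There is a finite family `b` of `G_ℚ`-fixed functions on
`X₀(M)`, regular away from the cusp `∞`, such that on the fibres of `j` over `t ∈ A₀`:
the values of the `b i` lie in `A₀`, and any two distinct points of the fibre are separated by a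
unit difference (at `A₀`) of the values of some `b i`, provided `t̄` is not a bad value. -/
theorem exists_sepFamily :
    ∃ (n : ℕ) (b : Fin n → modularFunctionFieldBar M),
      (∀ i (σ : GQ), galQ M σ • b i = b i) ∧
      (∀ i (P : Place Qb ↥(modularFunctionFieldBar M)),
        P ≠ Fermat.Agent.S17.Setup.cuspPlace M → 0 ≤ P.ord (b i)) ∧
      (∀ (t : Qb), t ∈ A₀ → ∀ P : Place Qb ↥(modularFunctionFieldBar M),
        0 < P.ord (Fermat.Agent.S24.jBar M - algebraMap Qb _ t) → ∀ i,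
          valueAt (Fermat.Agent.RRMod.isRRField_bar M) P (b i) ∈ A₀) ∧
      (∀ (t : Qb) (ht : t ∈ A₀), IsLocalRing.residue A₀ ⟨t, ht⟩ ∉ badValues A₀ M →
        ∀ P P' : Place Qb ↥(modularFunctionFieldBar M),
          0 < P.ord (Fermat.Agent.S24.jBar M - algebraMap Qb _ t) →
          0 < P'.ord (Fermat.Agent.S24.jBar M - algebraMap Qb _ t) → P ≠ P' →
          ∃ i, A₀.valuation (valueAt (Fermat.Agent.RRMod.isRRField_bar M) P (b i)
            - valueAt (Fermat.Agent.RRMod.isRRField_bar M) P' (b i)) = 1) := by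
  set S := modularValSetup A₀ ℓ M hℓ hA hℓM with hS
  set r := redPlace A₀ ℓ M hℓ hA hℓM hg with hr_def
  have hr : IsReduction S r := isReduction_redPlace A₀ ℓ M hℓ hA hℓM hg
  set Pinf := Fermat.Agent.S17.Setup.cuspPlace M with hPinf_def
  set N : ℤ := 2 * (genusFF Qb (modularFunctionFieldBar M) : ℤ) + 1 with hN
  -- the rational orthonormal basis of `L(N ∞)`
  haveI : FiniteDimensional Qb (riemannRochSpace (Finsupp.single Pinf N :
      Divisor Qb ↥(modularFunctionFieldBar M))) :=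
    finite_riemannRochSpace (Fermat.Agent.RRMod.isRRField_bar M) _
  obtain ⟨n, b, -, hspan, hfix, hbO, hli⟩ := exists_ratOrtho_basis A₀ ℓ M hℓ hA hℓM
    (riemannRochSpace (Finsupp.single Pinf N : Divisor Qb ↥(modularFunctionFieldBar M)))
    (fun σ f hf => by
      have h1 := (FFGal.smul_mem_riemannRochSpace_iff (galQ M σ)
        (Finsupp.single Pinf N : Divisor Qb ↥(modularFunctionFieldBar M)) f).mpr hf
      rwa [galQ_smul_single_cuspPlace] at h1)
  have hb : SepBasis S r Pinf N b :=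
    sepBasis_of_orthonormal hr Pinf (by rw [hN]; omega) b hspan hbO hli
  have hx := fibsep_j_mem A₀ ℓ M hℓ hA hℓM
  have htr := fibsep_transcendental_red_j A₀ ℓ M hℓ hA hℓM
  have hdeg := fibsep_degree_poleDiv A₀ ℓ M hℓ hA hℓM
  have hcusp := fibsep_ord_cusp M
  refine ⟨n, b, fun i σ => hfix i σ, fun i P hP => hb.ord_nonneg i hP, ?_, ?_⟩
  · intro t ht P hP i
    exact hr.valueAt_mem_of_fibre hx htr hdeg hcusp hb ht hP i
  · intro t ht hbad P P' hP hP' hne
    have hN' : 2 * (genusFF (IsLocalRing.ResidueField A₀)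
        (modularFunctionFieldFullC (IsLocalRing.ResidueField A₀) M) : ℤ) + 1 ≤ N := by
      rw [hN, hg]
    refine hr.exists_unit_of_fibre hx htr hdeg hcusp hb hN' ht ?_ hP hP' hne
    rw [fibsep_red_j]
    exact hbad

include hℓ hA in
/-- integrality over `ℤ_(ℓ)` of the values of a `G_ℚ`-fixed function on the fibres of `j` over
integral `t`, from integrality at the ONE place `A₀`. -/
theorem isIntegral_valueAt_of_fibre {b : modularFunctionFieldBar M}
    (hfix : ∀ σ : GQ, galQ M σ • b = b)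
    (hval : ∀ (t : Qb), t ∈ A₀ → ∀ P : Place Qb ↥(modularFunctionFieldBar M),
      0 < P.ord (Fermat.Agent.S24.jBar M - algebraMap Qb _ t) →
        valueAt (Fermat.Agent.RRMod.isRRField_bar M) P b ∈ A₀)
    {t : Qb} (ht : IsIntegral (GaloisRep.ratLocalizedAt ℓ) t)
    {P : Place Qb ↥(modularFunctionFieldBar M)}
    (hP : 0 < P.ord (Fermat.Agent.S24.jBar M - algebraMap Qb _ t)) :
    IsIntegral (GaloisRep.ratLocalizedAt ℓ)
      (valueAt (Fermat.Agent.RRMod.isRRField_bar M) P b) := by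
  apply pl_isIntegral_of_forall_conj hℓ A₀ hA
  intro σ
  rw [← valueAt_galQ M σ P (hfix σ)]
  exact hval (σ t) (pl_mem_of_isIntegral A₀ hA (pl_isIntegral_conj ht σ)) _
    (galQ_smul_fibre M σ hP)

end Fermat.Agent.FF
end
end MergeWrap_Lib_FF_FibSep

section MergeWrap_Lib_FF_ModSetup -- from Lib/FF/ModSetup.lean

set_option autoImplicit false
set_option synthInstance.maxHeartbeats 400000

noncomputable section

namespace Fermat.Agent.FF

open AlgebraicCurve ModularCurve GaloisRep Fermat.Agent.RR Fermat.Agent.Deuring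
  Fermat.Agent.FFGoodEll Fermat.Agent.GaussInt

local notation "Kb" => AlgebraicClosure ℚ
local notation "GK" => (AlgebraicClosure ℚ ≃ₐ[ℚ] AlgebraicClosure ℚ)

/-- **The modular `GeomSetup`** at a level `M` with `4 ∣ M` or `9 ∣ M`, a prime `ℓ ∤ M` and a
place `A₀` of `ℚ̄` over `ℓ`. -/
def modGeomSetup (A₀ : ValuationSubring Kb) (ℓ M : ℕ) [NeZero M] (hℓ : ℓ.Prime)
    (hA : A₀.LiesOverPrime ℓ) (hℓM : ¬ ℓ ∣ M) (h49 : 4 ∣ M ∨ 9 ∣ M) :
    GeomSetup ℓ ↥(modularFunctionFieldBar M)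
      ↥(modularFunctionFieldFullC (IsLocalRing.ResidueField A₀) M) A₀ where
  hA₀ := hA
  S := modularValSetup A₀ ℓ M hℓ hA hℓM
  S_A := rfl
  S_res := fun _ _ _ => rfl
  hL := hasLattice_modularValSetup A₀ ℓ M hℓ hA hℓM
  hg := Fermat.Agent.GenusEq.genusFF_eq M h49 ℓ hℓ hℓM A₀ hA
  inf_k := infinite_residue A₀
  r := redPlace A₀ ℓ M hℓ hA hℓM (Fermat.Agent.GenusEq.genusFF_eq M h49 ℓ hℓ hℓM A₀ hA)
  hr := isReduction_redPlace A₀ ℓ M hℓ hA hℓM _
  gal := arithmeticGalois (modularFunctionFieldFull M)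
  gal_base := fun σ c => arithmeticRingAut_algebraMap (modularFunctionFieldFull M) σ c
  oo := Fermat.Agent.S17.Setup.cuspPlace M
  gal_oo := fun σ => Fermat.Agent.FFGal.galQ_smul_cuspPlace M σ

end Fermat.Agent.FF
end
end MergeWrap_Lib_FF_ModSetup

section MergeWrap_Lib_FF_GoodEll_ModFibres -- from Lib/FF/GoodEll/ModFibres.lean

set_option autoImplicit false
set_option linter.style.haveILetI false
set_option linter.unusedSectionVars false
set_option synthInstance.maxHeartbeats 400000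
set_option maxHeartbeats 1000000

/-!
# FF / S19, route R-G, seat FIB: ASSEMBLY of the good fibres for the modular setup (helper20)

For `𝒮 = FF.modGeomSetup A₀ ℓ M hℓ hA hℓM h49` and a finite group `W` with `ι : W →+ Pic⁰`:

`exists_modFibres` : there are fibres `Fib i` (`i : Fin g`, `g` the genus; `Fib i` = the places over
the primitive `(ℓ m_i + 1)`-th roots of unity under `j`), a finite family `J` of separating value
functions `s i j : Place → ℚ̄` (`J = Option (Fin n)`: the value of `j`, and the values of a rational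
orthonormal basis of `L((2g+1) ∞)`, helper24 FIB (c)) with: `Fib i` finite, nonempty, Galois
stable; `s` integral, equivariant, separating the points of `Fib i` by units at `A₀`; and EVERY
tuple `τ ∈ Π Fib i` is good at `A₀` for every `w ∈ W`.

These are exactly the fields of `FF.GoodFibres` (family form).
-/

noncomputable section

open AlgebraicCurve ModularCurve

namespace Fermat.Agent.FFGoodEll

open Fermat.Agent.RR Fermat.Agent.Deuring Fermat.Agent.FF Fermat.Agent.GaussInt GaloisRep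

local notation "Kb" => AlgebraicClosure ℚ
local notation "GK" => (AlgebraicClosure ℚ ≃ₐ[ℚ] AlgebraicClosure ℚ)

variable (A₀ : ValuationSubring Kb) (ℓ M : ℕ) [NeZero M]
  (hℓ : ℓ.Prime) (hA : A₀.LiesOverPrime ℓ) (hℓM : ¬ ℓ ∣ M) (h49 : 4 ∣ M ∨ 9 ∣ M)

/-- the indices `m` such that some root of unity of `Θ m` reduces to a ramified value of `j̄`. -/
def badIndices : Set ℕ :=
  {m | ∃ t, ∃ ht : t ∈ cycloΘ Kb ℓ m,
    IsLocalRing.residue A₀ ⟨t, cycloΘ_mem_valuationSubring A₀ ht⟩ ∈ badValues A₀ M}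

include hℓ hA hℓM in
theorem finite_badIndices : (badIndices A₀ ℓ M).Finite :=
  (cycloValueSeq (modularValSetup A₀ ℓ M hℓ hA hℓM) hℓ hA).finite_bad
    (modularValSetup A₀ ℓ M hℓ hA hℓM) (finite_badValues A₀ ℓ M hℓ hA hℓM)

/-- the separating value functions: `none ↦ j(P)`, `some a ↦ b_a(P)`. -/
def sepValue {n : ℕ} (b : Fin n → modularFunctionFieldBar M) :
    Option (Fin n) → Place Kb ↥(modularFunctionFieldBar M) → Kb
  | none, P => valueAt (Fermat.Agent.RRMod.isRRField_bar M) P (Fermat.Agent.S24.jBar M)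
  | some a, P => valueAt (Fermat.Agent.RRMod.isRRField_bar M) P (b a)

/-- **FIB, modular assembly** (family form). -/
theorem exists_modFibres {W : Type} [AddCommGroup W] [Finite W]
    (ι : W →+ Pic0 Kb ↥(modularFunctionFieldBar M)) :
    ∃ (Fib : Fin (genusFF Kb ↥(modularFunctionFieldBar M)) →
        Set (Place Kb ↥(modularFunctionFieldBar M)))
      (J : Type) (_ : Finite J)
      (s : Fin (genusFF Kb ↥(modularFunctionFieldBar M)) → J →
        Place Kb ↥(modularFunctionFieldBar M) → Kb),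
      (∀ i, (Fib i).Finite) ∧ (∀ i, (Fib i).Nonempty) ∧
      (∀ i (σ : GK) P, P ∈ Fib i → (modGeomSetup A₀ ℓ M hℓ hA hℓM h49).gal σ • P ∈ Fib i) ∧
      (∀ i j P, P ∈ Fib i → IsIntegral (ratLocalizedAt ℓ) (s i j P)) ∧
      (∀ i j (σ : GK) P, P ∈ Fib i →
        s i j ((modGeomSetup A₀ ℓ M hℓ hA hℓM h49).gal σ • P) = σ (s i j P)) ∧
      (∀ i P P', P ∈ Fib i → P' ∈ Fib i → P ≠ P' →
        ∃ j, A₀.valuation (s i j P - s i j P') = 1) ∧
      (∀ τ : Fin (genusFF Kb ↥(modularFunctionFieldBar M)) →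
          Place Kb ↥(modularFunctionFieldBar M), (∀ i, τ i ∈ Fib i) →
        ∀ (w : W) (X : Divisor Kb ↥(modularFunctionFieldBar M))
          (hX : X ∈ Divisor.degZero (K := Kb) (F := ↥(modularFunctionFieldBar M))),
          Pic0.mk ⟨X, hX⟩ = ι w →
            IsGoodDiv ((modGeomSetup A₀ ℓ M hℓ hA hℓM h49).r (modGeomSetup A₀ ℓ M hℓ hA hℓM h49).oo)
              (redDiv (modGeomSetup A₀ ℓ M hℓ hA hℓM h49).r (X + sumTuple τ))) := by
  classical
  set 𝒮 := modGeomSetup A₀ ℓ M hℓ hA hℓM h49 with h𝒮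
  have hRR : IsRRField Kb ↥(modularFunctionFieldBar M) := Fermat.Agent.RRMod.isRRField_bar M
  have hgen : genusFF Kb ↥(modularFunctionFieldBar M) =
      genusFF (IsLocalRing.ResidueField A₀)
        ↥(modularFunctionFieldFullC (IsLocalRing.ResidueField A₀) M) := 𝒮.hg
  -- the separating family (helper24)
  obtain ⟨n, b, hbfix, -, hbval, hbsep⟩ := exists_sepFamily A₀ ℓ M hℓ hA hℓM hgen
  -- the good indices
  obtain ⟨m, -, hmT, hm⟩ := exists_indices_goodFibres 𝒮 hℓ ι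
    (x := Fermat.Agent.S24.jBar M) (jBar_mem_Ov A₀ ℓ M hℓ hA hℓM)
    (transcendental_red_jBar A₀ ℓ M hℓ hA hℓM) (degree_poleDiv_red_jBar A₀ ℓ M hℓ hA hℓM)
    (finite_badIndices A₀ ℓ M hℓ hA hℓM).toFinset
  have hfixj : ∀ σ : GK, 𝒮.gal σ • Fermat.Agent.S24.jBar M = Fermat.Agent.S24.jBar M :=
    fun σ => galQ_smul_jBar M σ
  refine ⟨fun i => cycloFib ℓ (Fermat.Agent.S24.jBar M) (m i), Option (Fin n), inferInstance,
    fun _ => sepValue M b, fun i => finite_cycloFib hRR _ _,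
    fun i => cycloFib_nonempty hRR (Fermat.Agent.S24.transcendental_jBar M) _,
    fun i σ P hP => gal_smul_mem_cycloFib 𝒮 hfixj (m i) σ hP, ?_, ?_, ?_,
    fun τ hτ w X hX hXw => (hm τ hτ w X hX hXw).1⟩
  · -- integrality
    intro i j P hP
    obtain ⟨t, ht, hPt⟩ := mem_cycloFib.mp hP
    have htint : IsIntegral (ratLocalizedAt ℓ) t :=
      isIntegral_cycloΘ (ratLocalizedAt ℓ) (mem_cycloΘ.mpr ht)
    cases j with
    | none =>
      show IsIntegral (ratLocalizedAt ℓ) (valueAt _ P (Fermat.Agent.S24.jBar M))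
      rw [valueAt_jBar M hPt]
      exact htint
    | some a =>
      exact isIntegral_valueAt_of_fibre A₀ ℓ M hℓ hA (fun σ => hbfix a σ)
        (fun t' ht' P' hP' => hbval t' ht' P' hP' a) htint hPt
  · -- equivariance
    intro i j σ P _
    cases j with
    | none => exact valueAt_galQ M σ P (galQ_smul_jBar M σ)
    | some a => exact valueAt_galQ M σ P (hbfix a σ)
  · -- separation by units
    intro i P P' hP hP' hne
    obtain ⟨t, ht, hPt⟩ := mem_cycloFib.mp hP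
    obtain ⟨t', ht', hPt'⟩ := mem_cycloFib.mp hP'
    by_cases htt : t = t'
    · subst htt
      have htA : t ∈ A₀ := cycloΘ_mem_valuationSubring A₀ (mem_cycloΘ.mpr ht)
      have hbad : IsLocalRing.residue A₀ ⟨t, htA⟩ ∉ badValues A₀ M := by
        intro hb
        apply hmT i
        rw [Set.Finite.mem_toFinset]
        exact ⟨t, mem_cycloΘ.mpr ht, hb⟩
      obtain ⟨a, ha⟩ := hbsep t htA hbad P P' hPt hPt' hne
      exact ⟨some a, ha⟩
    · refine ⟨none, ?_⟩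
      show A₀.valuation (valueAt _ P (Fermat.Agent.S24.jBar M)
        - valueAt _ P' (Fermat.Agent.S24.jBar M)) = 1
      rw [valueAt_jBar M hPt, valueAt_jBar M hPt']
      exact valuation_sub_cycloΘ A₀ hℓ hA (mem_cycloΘ.mpr ht) (mem_cycloΘ.mpr ht') htt

/-- **Seat FIB, final**: the good fibres of the modular setup. -/
theorem nonempty_goodFibres_modular {W : Type} [AddCommGroup W] [Finite W]
    (ι : W →+ Pic0 Kb ↥(modularFunctionFieldBar M)) :
    Nonempty (GoodFibres (modGeomSetup A₀ ℓ M hℓ hA hℓM h49) ι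
      (genusFF Kb ↥(modularFunctionFieldBar M))) := by
  obtain ⟨Fib, J, hJ, s, h1, h2, h3, h4, h5, h6, h7⟩ :=
    exists_modFibres A₀ ℓ M hℓ hA hℓM h49 ι
  exact ⟨{ Fib := Fib, fin := h1, nonempty := h2, stable := h3, J := J, finJ := hJ, s := s,
           s_int := h4, s_eq := h5, unit := h6, good := h7 }⟩

end Fermat.Agent.FFGoodEll
end
end MergeWrap_Lib_FF_GoodEll_ModFibres

section MergeWrap_Lib_FF_Kum_FibSet -- from Lib/FF/Kum/FibSet.lean

set_option autoImplicit false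
set_option linter.style.haveILetI false
set_option linter.unusedSectionVars false
set_option synthInstance.maxHeartbeats 400000
set_option maxHeartbeats 1000000

noncomputable section

open AlgebraicCurve ModularCurve

namespace Fermat.Agent.FFKum

open Fermat.Agent.RR Fermat.Agent.Deuring Fermat.Agent.FF Fermat.Agent.GaussInt GaloisRep
  Fermat.Agent.FFGoodEll

local notation "Kb" => AlgebraicClosure ℚ
local notation "GK" => (AlgebraicClosure ℚ ≃ₐ[ℚ] AlgebraicClosure ℚ)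

section Abstract

variable {p : ℕ} {F Fk : Type} [Field F] [Algebra Kb F] {A₀ : ValuationSubring Kb} [Field Fk]
  [Algebra (IsLocalRing.ResidueField A₀) Fk]

/-- **the good fibres for a set of classes** `pt : X → Pic⁰`: the fields of `FF.GoodFibres`,
without a group structure on the index set. -/
structure GoodFibresSet (𝒮 : GeomSetup p F Fk A₀) {X : Type} (pt : X → Pic0 Kb F) (g : ℕ) where
  Fib : Fin g → Set (Place Kb F)
  fin : ∀ i, (Fib i).Finite
  nonempty : ∀ i, (Fib i).Nonempty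
  stable : ∀ i (σ : GK) P, P ∈ Fib i → 𝒮.gal σ • P ∈ Fib i
  /-- index set of the separating functions -/
  J : Type
  finJ : Finite J
  /-- values of the separating functions -/
  s : Fin g → J → Place Kb F → Kb
  s_int : ∀ i j P, P ∈ Fib i → IsIntegral (ratLocalizedAt p) (s i j P)
  s_eq : ∀ i j (σ : GK) P, P ∈ Fib i → s i j (𝒮.gal σ • P) = σ (s i j P)
  /-- two distinct places of `Fib i` are separated by a unit AT THE ONE PLACE `A₀` -/
  unit : ∀ i P P', P ∈ Fib i → P' ∈ Fib i → P ≠ P' →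
    ∃ j, A₀.valuation (s i j P - s i j P') = 1
  /-- goodness of every tuple at `A₀` -/
  good : ∀ τ : Fin g → Place Kb F, (∀ i, τ i ∈ Fib i) → ∀ (x : X) (D : Divisor Kb F)
    (hD : D ∈ Divisor.degZero (K := Kb) (F := F)), Pic0.mk ⟨D, hD⟩ = pt x →
      IsGoodDiv (𝒮.r 𝒮.oo) (redDiv 𝒮.r (D + sumTuple τ))

/-- the group form is a special case. -/
def GoodFibresSet.toGroup {𝒮 : GeomSetup p F Fk A₀} {W : Type} [AddCommGroup W]
    {ι : W →+ Pic0 Kb F} {g : ℕ} (𝔉 : GoodFibresSet 𝒮 (fun w => ι w) g) : GoodFibres 𝒮 ι g where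
  Fib := 𝔉.Fib
  fin := 𝔉.fin
  nonempty := 𝔉.nonempty
  stable := 𝔉.stable
  J := 𝔉.J
  finJ := 𝔉.finJ
  s := 𝔉.s
  s_int := 𝔉.s_int
  s_eq := 𝔉.s_eq
  unit := 𝔉.unit
  good := 𝔉.good

/-- the group form gives the set form. -/
def GoodFibresSet.ofGroup {𝒮 : GeomSetup p F Fk A₀} {W : Type} [AddCommGroup W]
    {ι : W →+ Pic0 Kb F} {g : ℕ} (𝔉 : GoodFibres 𝒮 ι g) : GoodFibresSet 𝒮 (fun w => ι w) g where
  Fib := 𝔉.Fib
  fin := 𝔉.fin
  nonempty := 𝔉.nonempty
  stable := 𝔉.stable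
  J := 𝔉.J
  finJ := 𝔉.finJ
  s := 𝔉.s
  s_int := 𝔉.s_int
  s_eq := 𝔉.s_eq
  unit := 𝔉.unit
  good := 𝔉.good

/-- restriction along a map of index sets. -/
def GoodFibresSet.comp {𝒮 : GeomSetup p F Fk A₀} {X X' : Type} {pt : X → Pic0 Kb F} {g : ℕ}
    (𝔉 : GoodFibresSet 𝒮 pt g) (f : X' → X) : GoodFibresSet 𝒮 (fun x => pt (f x)) g where
  Fib := 𝔉.Fib
  fin := 𝔉.fin
  nonempty := 𝔉.nonempty
  stable := 𝔉.stable
  J := 𝔉.J
  finJ := 𝔉.finJ
  s := 𝔉.s
  s_int := 𝔉.s_int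
  s_eq := 𝔉.s_eq
  unit := 𝔉.unit
  good := fun τ hτ x D hD h => 𝔉.good τ hτ (f x) D hD h

/-- goodness in characteristic `0` follows from goodness of the reduction. -/
theorem GoodFibresSet.good_gen {𝒮 : GeomSetup p F Fk A₀} {X : Type} {pt : X → Pic0 Kb F} {g : ℕ}
    (𝔉 : GoodFibresSet 𝒮 pt g) (τ : Fin g → Place Kb F) (hτ : ∀ i, τ i ∈ 𝔉.Fib i) (x : X)
    (D : Divisor Kb F) (hD : D ∈ Divisor.degZero (K := Kb) (F := F))
    (h : Pic0.mk ⟨D, hD⟩ = pt x) : IsGoodDiv 𝒮.oo (D + sumTuple τ) := by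
  have h1 := 𝔉.good τ hτ x D hD h
  exact IsGoodDiv.of_reduction 𝒮.S 𝒮.hL 𝒮.hr.push 𝒮.hg (by rwa [redDiv_apply] at h1)

/-- **FIB (d) for a finite set of classes**: there are `g` distinct indices `m i`, off a given
finite set `T`, such that EVERY tuple `τ i ∈ cycloFib p x (m i)` is good at `A₀`, for every class
`pt a` (`a : X`, `X` finite). -/
theorem exists_indices_goodFibres_set (𝒮 : GeomSetup p F Fk A₀) (hp : p.Prime)
    {X : Type} [Finite X] (pt : X → Pic0 Kb F)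
    {x : F} (hx : x ∈ 𝒮.S.Ov)
    (htr : Transcendental (IsLocalRing.ResidueField A₀) (𝒮.S.red x))
    (hdeg : Divisor.degree (poleDiv 𝒮.S.hFk (𝒮.S.red x)) = Divisor.degree (poleDiv 𝒮.S.hF x))
    (T : Finset ℕ) :
    ∃ m : Fin (genusFF Kb F) → ℕ, Function.Injective m ∧ (∀ i, m i ∉ T) ∧
      ∀ τ : Fin (genusFF Kb F) → Place Kb F, (∀ i, τ i ∈ cycloFib p x (m i)) →
        ∀ (a : X) (D : Divisor Kb F) (hD : D ∈ Divisor.degZero (K := Kb) (F := F)),
          Pic0.mk ⟨D, hD⟩ = pt a →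
            IsGoodDiv (𝒮.r 𝒮.oo) (redDiv 𝒮.r (D + sumTuple τ)) ∧
              IsGoodDiv 𝒮.oo (D + sumTuple τ) := by
  classical
  letI : Fintype X := Fintype.ofFinite X
  -- representatives
  have hrep : ∀ a : X, ∃ D : Divisor.degZero (K := Kb) (F := F), Pic0.mk D = pt a :=
    fun a => Pic0.mk_surjective (pt a)
  choose D₀ hD₀ using hrep
  obtain ⟨m, hminj, hmT, hm⟩ := exists_indices_good 𝒮.S 𝒮.hL 𝒮.hr 𝒮.hg
    (fibCompat_of_isReduction 𝒮.hr hx htr hdeg) (geomValueSeq 𝒮 hp) 𝒮.oo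
    (Finset.univ.image fun a => (D₀ a : Divisor Kb F))
    (by
      intro Y hY
      obtain ⟨a, -, rfl⟩ := Finset.mem_image.mp hY
      exact (D₀ a).2) T
  refine ⟨m, hminj, hmT, fun τ hτ a D hD hDa => ?_⟩
  have h0 := hm τ hτ (D₀ a : Divisor Kb F) (Finset.mem_image_of_mem _ (Finset.mem_univ a))
  have hXX' : D - (D₀ a : Divisor Kb F) ∈ Divisor.principal (K := Kb) (F := F) := by
    have h1 : Pic0.mk ⟨D, hD⟩ = Pic0.mk (D₀ a) := hDa.trans (hD₀ a).symm
    have h2 := (QuotientAddGroup.eq (s := (Divisor.principal (K := Kb) (F := F)).addSubgroupOf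
      (Divisor.degZero (K := Kb) (F := F)))).mp h1
    rw [AddSubgroup.mem_addSubgroupOf] at h2
    have h3 : (((-⟨D, hD⟩ + D₀ a : Divisor.degZero (K := Kb) (F := F))) : Divisor Kb F)
        = -(D - (D₀ a : Divisor Kb F)) := by
      rw [AddSubgroup.coe_add, AddSubgroup.coe_neg]
      abel
    rw [h3] at h2
    exact (AddSubgroup.neg_mem_iff _).mp h2
  have h1 : IsGoodDiv (𝒮.r 𝒮.oo) (redDiv 𝒮.r (D + sumTuple τ)) :=
    isGoodDiv_redDiv_congr 𝒮.hr hXX' h0.1
  refine ⟨h1, ?_⟩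
  exact IsGoodDiv.of_reduction 𝒮.S 𝒮.hL 𝒮.hr.push 𝒮.hg (by rwa [redDiv_apply] at h1)

end Abstract

section Modular

variable (A₀ : ValuationSubring Kb) (ℓ M : ℕ) [NeZero M]
  (hℓ : ℓ.Prime) (hA : A₀.LiesOverPrime ℓ) (hℓM : ¬ ℓ ∣ M) (h49 : 4 ∣ M ∨ 9 ∣ M)

/-- **FIB for a finite set of classes, modular instance**: for every finite family of classes
`pt : X → J₀(M)(ℚ̄)` the modular setup at `A₀` carries good fibres. -/
theorem nonempty_goodFibresSet_modular {X : Type} [Finite X]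
    (pt : X → Pic0 Kb ↥(modularFunctionFieldBar M)) :
    Nonempty (GoodFibresSet (modGeomSetup A₀ ℓ M hℓ hA hℓM h49) pt
      (genusFF Kb ↥(modularFunctionFieldBar M))) := by
  classical
  set 𝒮 := modGeomSetup A₀ ℓ M hℓ hA hℓM h49 with h𝒮
  have hRR : IsRRField Kb ↥(modularFunctionFieldBar M) := Fermat.Agent.RRMod.isRRField_bar M
  have hgen : genusFF Kb ↥(modularFunctionFieldBar M) =
      genusFF (IsLocalRing.ResidueField A₀)
        ↥(modularFunctionFieldFullC (IsLocalRing.ResidueField A₀) M) := 𝒮.hg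
  -- the separating family
  obtain ⟨n, b, hbfix, -, hbval, hbsep⟩ := exists_sepFamily A₀ ℓ M hℓ hA hℓM hgen
  -- the good indices
  obtain ⟨m, -, hmT, hm⟩ := exists_indices_goodFibres_set 𝒮 hℓ pt
    (x := Fermat.Agent.S24.jBar M) (jBar_mem_Ov A₀ ℓ M hℓ hA hℓM)
    (transcendental_red_jBar A₀ ℓ M hℓ hA hℓM) (degree_poleDiv_red_jBar A₀ ℓ M hℓ hA hℓM)
    (finite_badIndices A₀ ℓ M hℓ hA hℓM).toFinset
  have hfixj : ∀ σ : GK, 𝒮.gal σ • Fermat.Agent.S24.jBar M = Fermat.Agent.S24.jBar M :=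
    fun σ => Fermat.Agent.FFGoodEll.galQ_smul_jBar M σ
  refine ⟨{
    Fib := fun i => cycloFib ℓ (Fermat.Agent.S24.jBar M) (m i)
    fin := fun i => finite_cycloFib hRR _ _
    nonempty := fun i => cycloFib_nonempty hRR (Fermat.Agent.S24.transcendental_jBar M) _
    stable := fun i σ P hP => gal_smul_mem_cycloFib 𝒮 hfixj (m i) σ hP
    J := Option (Fin n)
    finJ := inferInstance
    s := fun _ => sepValue M b
    s_int := ?_
    s_eq := ?_
    unit := ?_
    good := fun τ hτ a D hD hDa => (hm τ hτ a D hD hDa).1 }⟩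
  · -- integrality
    intro i j P hP
    obtain ⟨t, ht, hPt⟩ := mem_cycloFib.mp hP
    have htint : IsIntegral (ratLocalizedAt ℓ) t :=
      isIntegral_cycloΘ (ratLocalizedAt ℓ) (mem_cycloΘ.mpr ht)
    cases j with
    | none =>
      show IsIntegral (ratLocalizedAt ℓ) (valueAt _ P (Fermat.Agent.S24.jBar M))
      rw [valueAt_jBar M hPt]
      exact htint
    | some a =>
      exact isIntegral_valueAt_of_fibre A₀ ℓ M hℓ hA (fun σ => hbfix a σ)
        (fun t' ht' P' hP' => hbval t' ht' P' hP' a) htint hPt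
  · -- equivariance
    intro i j σ P _
    cases j with
    | none => exact valueAt_galQ M σ P (Fermat.Agent.FF.galQ_smul_jBar M σ)
    | some a => exact valueAt_galQ M σ P (hbfix a σ)
  · -- separation by units
    intro i P P' hP hP' hne
    obtain ⟨t, ht, hPt⟩ := mem_cycloFib.mp hP
    obtain ⟨t', ht', hPt'⟩ := mem_cycloFib.mp hP'
    by_cases htt : t = t'
    · subst htt
      have htA : t ∈ A₀ := cycloΘ_mem_valuationSubring A₀ (mem_cycloΘ.mpr ht)
      have hbad : IsLocalRing.residue A₀ ⟨t, htA⟩ ∉ badValues A₀ M := by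
        intro hb
        apply hmT i
        rw [Set.Finite.mem_toFinset]
        exact ⟨t, mem_cycloΘ.mpr ht, hb⟩
      obtain ⟨a, ha⟩ := hbsep t htA hbad P P' hPt hPt' hne
      exact ⟨some a, ha⟩
    · refine ⟨none, ?_⟩
      show A₀.valuation (valueAt _ P (Fermat.Agent.S24.jBar M)
        - valueAt _ P' (Fermat.Agent.S24.jBar M)) = 1
      rw [valueAt_jBar M hPt, valueAt_jBar M hPt']
      exact valuation_sub_cycloΘ A₀ hℓ hA (mem_cycloΘ.mpr ht) (mem_cycloΘ.mpr ht') htt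

end Modular

end Fermat.Agent.FFKum
end
end MergeWrap_Lib_FF_Kum_FibSet

section MergeWrap_Lib_FF_Kum_EchSet -- from Lib/FF/Kum/EchSet.lean

set_option autoImplicit false
set_option linter.style.haveILetI false

noncomputable section

open AlgebraicCurve GaloisRep Fermat.Agent.RR Fermat.Agent.RRMult Fermat.Agent.Deuring
  Fermat.Agent.FFGoodEll Fermat.Agent.FF Fermat.Agent.FFGal Fermat.Agent.FFGeom

namespace Fermat.Agent.FFKum

/-- **Inputs of the echelon coordinates for a set of classes**: `FFGeom.EchData` with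
`cls : X → Pic⁰` a function on a set `X` (no group structure). -/
structure EchSet (G K F X T : Type) [Group G] [Field K] [Field F] [Algebra K F] where
  hF : IsRRField K F
  /-- the place `∞` -/
  P : Place K F
  /-- `M₀` -/
  T₀ : ℤ
  hT₀ : 3 * (genusFF K F : ℤ) - 1 ≤ T₀
  n₁ : ℕ
  n₂ : ℕ
  r : ℕ
  e₂ : ℕ
  /-- basis of `L(T₀ P)` -/
  b₁ : Fin n₁ → F
  /-- basis of `L(2 T₀ P)` -/
  b₂ : Fin n₂ → F
  /-- pivots in `b₁` -/
  I₁ : Fin r → Fin n₁
  /-- pivots in `b₂` -/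
  I₂ : Fin e₂ → Fin n₂
  hb₁ : LinearIndependent K b₁
  hb₂ : LinearIndependent K b₂
  span₁ : Submodule.span K (Set.range b₁) = riemannRochSpace (Finsupp.single P T₀)
  span₂ : Submodule.span K (Set.range b₂) = riemannRochSpace (Finsupp.single P (2 * T₀))
  chart₁ : chartSpan K b₁ I₁ = riemannRochSpace (Finsupp.single P (2 * (genusFF K F : ℤ) - 1))
  chart₂ : chartSpan K b₂ I₂ = riemannRochSpace (Finsupp.single P (2 * (genusFF K F : ℤ) - 1))
  hr : (r : ℤ) = T₀ + 1 - 2 * (genusFF K F : ℤ)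
  he₂ : (e₂ : ℤ) = 2 * T₀ + 1 - 2 * (genusFF K F : ℤ)
  /-- the class of a point -/
  cls : X → Pic0 K F
  /-- the divisor `E_τ` of a tuple -/
  E : T → Divisor K F
  E_nonneg : ∀ τ, 0 ≤ E τ
  E_deg : ∀ τ, Divisor.degree (E τ) = (genusFF K F : ℤ)
  /-- goodness in characteristic `0`: the effective divisor `D ∼ X_x + E_τ` is good -/
  good : ∀ τ x, ∃ D : Divisor K F, IsRepOf (cls x) (E τ) D ∧ IsGoodDiv P D
  /-- the Galois action -/
  gal : G →* SemilinearAut K F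
  act : G → X → X
  perm : G → T → T
  gal_P : ∀ σ, gal σ • P = P
  gal_b₁ : ∀ σ i, gal σ • b₁ i = b₁ i
  gal_b₂ : ∀ σ i, gal σ • b₂ i = b₂ i
  cls_act : ∀ σ x, cls (act σ x) = gal σ • cls x
  E_perm : ∀ σ τ, E (perm σ τ) = gal σ • E τ

namespace EchSet

variable {G K F X T : Type} [Group G] [Field K] [Field F] [Algebra K F]
  (d : EchSet G K F X T)

/-- THE effective divisor `D_x^τ ∼ cls x + E_τ`. -/
def D (τ : T) (x : X) : Divisor K F := (d.good τ x).choose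

theorem isRepOf_D (τ : T) (x : X) : IsRepOf (d.cls x) (d.E τ) (d.D τ x) :=
  (d.good τ x).choose_spec.1

theorem isGoodDiv_D (τ : T) (x : X) : IsGoodDiv d.P (d.D τ x) :=
  (d.good τ x).choose_spec.2

theorem D_nonneg (τ : T) (x : X) : 0 ≤ d.D τ x := (d.isRepOf_D τ x).1

theorem degree_D (τ : T) (x : X) : Divisor.degree (d.D τ x) = (genusFF K F : ℤ) := by
  obtain ⟨-, h0, -⟩ := d.isRepOf_D τ x
  have h1 : Divisor.degree (d.D τ x - d.E τ) = 0 := Divisor.mem_degZero.mp h0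
  rw [map_sub, d.E_deg] at h1
  omega

theorem ell_D (τ : T) (x : X) : ell (d.D τ x) = 1 :=
  (d.isGoodDiv_D τ x).ell_eq_one d.hF (d.degree_D τ x)

/-- uniqueness: every representative is `D τ x`. -/
theorem eq_D {τ : T} {x : X} {D' : Divisor K F} (h : IsRepOf (d.cls x) (d.E τ) D') :
    D' = d.D τ x :=
  IsRepOf.unique d.hF (d.isRepOf_D τ x) (d.ell_D τ x) h

/-- `D τ x` depends only on the class of `x`. -/
theorem D_congr (τ : T) {x x' : X} (h : d.cls x = d.cls x') : d.D τ x = d.D τ x' := by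
  apply d.eq_D
  rw [← h]
  exact d.isRepOf_D τ x

/-- **equivariance of the divisors**: `D_{σ x}^{σ τ} = σ • D_x^τ`. -/
theorem D_equiv (σ : G) (τ : T) (x : X) :
    d.D (d.perm σ τ) (d.act σ x) = d.gal σ • d.D τ x := by
  have h := d.isRepOf_D (d.perm σ τ) (d.act σ x)
  rw [d.cls_act, d.E_perm] at h
  exact IsRepOf.smul_eq d.hF (d.gal σ) (d.isRepOf_D τ x) (d.ell_D τ x) h

/-- a divisor is a representative of the class `0` relative to itself. -/
theorem isRepOf_zero_self {E : Divisor K F} (hE : 0 ≤ E) : IsRepOf (0 : Pic0 K F) E E := by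
  refine ⟨hE, by rw [sub_self]; exact zero_mem _, ?_⟩
  have : (⟨E - E, by rw [sub_self]; exact zero_mem _⟩ :
      Divisor.degZero (K := K) (F := F)) = 0 := Subtype.ext (sub_self _)
  rw [this]
  rfl

/-- **the `EchData` with base divisors `D τ x`** (trivial group, tuples `T × X`). -/
def toEch : EchData G K F Unit (T × X) where
  hF := d.hF
  P := d.P
  T₀ := d.T₀
  hT₀ := d.hT₀
  n₁ := d.n₁
  n₂ := d.n₂
  r := d.r
  e₂ := d.e₂
  b₁ := d.b₁
  b₂ := d.b₂
  I₁ := d.I₁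
  I₂ := d.I₂
  hb₁ := d.hb₁
  hb₂ := d.hb₂
  span₁ := d.span₁
  span₂ := d.span₂
  chart₁ := d.chart₁
  chart₂ := d.chart₂
  hr := d.hr
  he₂ := d.he₂
  cls := 0
  E := fun τx => d.D τx.1 τx.2
  E_nonneg := fun τx => d.D_nonneg τx.1 τx.2
  E_deg := fun τx => d.degree_D τx.1 τx.2
  good := fun τx _ => ⟨d.D τx.1 τx.2, isRepOf_zero_self (d.D_nonneg τx.1 τx.2),
    d.isGoodDiv_D τx.1 τx.2⟩
  gal := d.gal
  act := fun _ u => u
  perm := fun σ τx => (d.perm σ τx.1, d.act σ τx.2)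
  gal_P := d.gal_P
  gal_b₁ := d.gal_b₁
  gal_b₂ := d.gal_b₂
  cls_act := fun σ _ => by
    show (0 : Pic0 K F) = d.gal σ • (0 : Pic0 K F)
    exact (smul_zero (A := Pic0 K F) (d.gal σ)).symm
  E_perm := fun σ τx => d.D_equiv σ τx.1 τx.2

@[simp] theorem toEch_E (τ : T) (x : X) : d.toEch.E (τ, x) = d.D τ x := rfl
@[simp] theorem toEch_P : d.toEch.P = d.P := rfl
@[simp] theorem toEch_T₀ : d.toEch.T₀ = d.T₀ := rfl
@[simp] theorem toEch_b₁ : d.toEch.b₁ = d.b₁ := rfl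
@[simp] theorem toEch_b₂ : d.toEch.b₂ = d.b₂ := rfl
@[simp] theorem toEch_perm (σ : G) (τ : T) (x : X) :
    d.toEch.perm σ (τ, x) = (d.perm σ τ, d.act σ x) := rfl

theorem toEch_D (τ : T) (x : X) (u : Unit) : d.toEch.D (τ, x) u = d.D τ x :=
  d.toEch.D_zero (τ, x)

/-! ### `Γ` -/

/-- **the echelon matrix of `L(T₀ P - D_x^τ)`**. -/
def Γ (τ : T) (x : X) : Matrix (Fin d.n₁) (Fin d.r) K := d.toEch.Γ (τ, x) 0

theorem Γ_ech (τ : T) (x : X) : (d.Γ τ x).submatrix d.I₁ id = 1 :=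
  d.toEch.Γ_ech (τ, x) 0

theorem colSpan_Γ (τ : T) (x : X) :
    colSpan d.b₁ (d.Γ τ x) = riemannRochSpace (Finsupp.single d.P d.T₀ - d.D τ x) :=
  d.toEch.colSpan_Γ_zero (τ, x)

/-- characterisation of `Γ τ x`. -/
theorem Γ_eq {τ : T} {x : X} {Γ' : Matrix (Fin d.n₁) (Fin d.r) K}
    (h1 : Γ'.submatrix d.I₁ id = 1)
    (h2 : colSpan d.b₁ Γ' = riemannRochSpace (Finsupp.single d.P d.T₀ - d.D τ x)) :
    d.Γ τ x = Γ' :=
  echelon_eq_of_colSpan_eq d.hb₁ h1 (d.Γ_ech τ x) ((d.colSpan_Γ τ x).trans h2.symm)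

/-- `Γ τ x` depends only on the class of `x`. -/
theorem Γ_congr (τ : T) {x x' : X} (h : d.cls x = d.cls x') : d.Γ τ x = d.Γ τ x' :=
  d.Γ_eq (d.Γ_ech τ x') (by rw [d.colSpan_Γ, d.D_congr τ h])

/-- **equivariance of `Γ`**. -/
theorem Γ_equiv (σ : G) (τ : T) (x : X) :
    d.Γ (d.perm σ τ) (d.act σ x) = (d.Γ τ x).map (SemilinearAut.baseAut (d.gal σ)) :=
  d.toEch.Γ_equiv σ (τ, x) 0

theorem Γ_equiv_apply (σ : G) (τ : T) (x : X) (i : Fin d.n₁) (a : Fin d.r) :
    d.Γ (d.perm σ τ) (d.act σ x) i a = SemilinearAut.baseAut (d.gal σ) (d.Γ τ x i a) := by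
  rw [d.Γ_equiv]
  rfl

/-! ### `Xo` and `Lx` -/

/-- **the echelon matrix of `L(2 T₀ P - D_x^τ)`** (the matrix `E₂` for the origin `x`). -/
def Xo (τ : T) (x : X) : Matrix (Fin d.n₂) (Fin d.e₂) K := d.toEch.X (τ, x)

theorem Xo_ech (τ : T) (x : X) : (d.Xo τ x).submatrix d.I₂ id = 1 :=
  d.toEch.X_ech (τ, x)

theorem colSpan_Xo (τ : T) (x : X) :
    colSpan d.b₂ (d.Xo τ x) = riemannRochSpace (Finsupp.single d.P (2 * d.T₀) - d.D τ x) :=
  d.toEch.colSpan_X (τ, x)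

theorem Xo_eq {τ : T} {x : X} {X' : Matrix (Fin d.n₂) (Fin d.e₂) K}
    (h1 : X'.submatrix d.I₂ id = 1)
    (h2 : colSpan d.b₂ X' = riemannRochSpace (Finsupp.single d.P (2 * d.T₀) - d.D τ x)) :
    d.Xo τ x = X' :=
  echelon_eq_of_colSpan_eq d.hb₂ h1 (d.Xo_ech τ x) ((d.colSpan_Xo τ x).trans h2.symm)

/-- `Xo τ x` depends only on the class of `x`. -/
theorem Xo_congr (τ : T) {x x' : X} (h : d.cls x = d.cls x') : d.Xo τ x = d.Xo τ x' :=
  d.Xo_eq (d.Xo_ech τ x') (by rw [d.colSpan_Xo, d.D_congr τ h])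

/-- **equivariance of `Xo`**. -/
theorem Xo_equiv (σ : G) (τ : T) (x : X) :
    d.Xo (d.perm σ τ) (d.act σ x) = (d.Xo τ x).map (SemilinearAut.baseAut (d.gal σ)) :=
  d.toEch.X_equiv σ (τ, x)

theorem Xo_equiv_apply (σ : G) (τ : T) (x : X) (i : Fin d.n₂) (a : Fin d.e₂) :
    d.Xo (d.perm σ τ) (d.act σ x) i a = SemilinearAut.baseAut (d.gal σ) (d.Xo τ x i a) := by
  rw [d.Xo_equiv]
  rfl

/-- the left inverse of every `Xo τ x`: the pivot selector. -/
def Lx : Matrix (Fin d.e₂) (Fin d.n₂) K := pivotSel K d.I₂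

theorem Lx_mul_Xo (τ : T) (x : X) : d.Lx * d.Xo τ x = 1 := by
  unfold Lx
  rw [pivotSel_mul, d.Xo_ech]

theorem Lx_apply (a : Fin d.e₂) (i : Fin d.n₂) :
    d.Lx a i = if i = d.I₂ a then 1 else 0 := rfl

theorem Lx_map {K' : Type*} [Field K'] (f : K →+* K') :
    d.Lx.map f = pivotSel K' d.I₂ := by
  ext a i
  rw [Matrix.map_apply, Lx_apply]
  unfold pivotSel
  split_ifs
  · exact map_one f
  · exact map_zero f

/-- the entries of `Lx` are integral over any subring. -/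
theorem Lx_int (R : Type*) [CommRing R] [Algebra R K] (a : Fin d.e₂) (i : Fin d.n₂) :
    IsIntegral R (d.Lx a i) := by
  rw [Lx_apply]
  split_ifs
  · exact isIntegral_one
  · exact isIntegral_zero

/-! ### separation -/

/-- `Γ τ x` determines the divisor `D τ x`. -/
theorem D_eq_of_Γ_eq (hT₀ : 3 * (genusFF K F : ℤ) ≤ d.T₀) {τ : T} {x x' : X}
    (h : d.Γ τ x = d.Γ τ x') : d.D τ x = d.D τ x' := by
  have h1 : riemannRochSpace (Finsupp.single d.P d.T₀ - d.D τ x)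
      = riemannRochSpace (Finsupp.single d.P d.T₀ - d.D τ x') := by
    rw [← d.colSpan_Γ, ← d.colSpan_Γ, h]
  have hdeg : ∀ y, Divisor.degree (Finsupp.single d.P d.T₀ - d.D τ y)
      = d.T₀ - (genusFF K F : ℤ) := fun y => by
    rw [map_sub, degree_single_one d.hF, d.degree_D]
  have h2 := Fermat.Agent.FFGeomGood.eq_of_rrSpace_eq d.hF (by rw [hdeg]; omega)
    (by rw [hdeg]; omega) h1
  exact sub_right_injective h2

/-- `Γ τ x` determines the class of `x`. -/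
theorem cls_eq_of_Γ_eq (hT₀ : 3 * (genusFF K F : ℤ) ≤ d.T₀) {τ : T} {x x' : X}
    (h : d.Γ τ x = d.Γ τ x') : d.cls x = d.cls x' := by
  have hD := d.D_eq_of_Γ_eq hT₀ h
  obtain ⟨-, a, ha⟩ := d.isRepOf_D τ x
  obtain ⟨-, a', ha'⟩ := d.isRepOf_D τ x'
  rw [← ha, ← ha']
  refine congrArg Pic0.mk (Subtype.ext ?_)
  show d.D τ x - d.E τ = d.D τ x' - d.E τ
  rw [hD]

end EchSet

/-! ### the `EchSet` of a geometric setup -/

local notation "Kb" => AlgebraicClosure ℚ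
local notation "GK" => (AlgebraicClosure ℚ ≃ₐ[ℚ] AlgebraicClosure ℚ)

variable {p : ℕ} {F Fk : Type} [Field F] [Algebra Kb F] {A₀ : ValuationSubring Kb} [Field Fk]
  [Algebra (IsLocalRing.ResidueField A₀) Fk]

section Fibres

variable {𝒮 : GeomSetup p F Fk A₀} {X : Type} {pt : X → Pic0 Kb F} {g : ℕ}

/-- the Galois action on the tower `Fib i`. -/
def fibPermS (𝔉 : GoodFibresSet 𝒮 pt g) (i : Fin g) (σ : GK) (P : ↥(𝔉.Fib i)) : ↥(𝔉.Fib i) :=
  ⟨𝒮.gal σ • P.1, 𝔉.stable i σ P.1 P.2⟩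

@[simp]
theorem coe_fibPermS (𝔉 : GoodFibresSet 𝒮 pt g) (i : Fin g) (σ : GK) (P : ↥(𝔉.Fib i)) :
    ((fibPermS 𝔉 i σ P : ↥(𝔉.Fib i)) : Place Kb F) = 𝒮.gal σ • (P : Place Kb F) := rfl

/-- the divisor `E_τ` of a tuple. -/
def tupDivS (𝔉 : GoodFibresSet 𝒮 pt g) (τ : ∀ i : Fin g, ↥(𝔉.Fib i)) : Divisor Kb F :=
  sumTuple fun i => ((τ i : ↥(𝔉.Fib i)) : Place Kb F)

theorem tupDivS_perm (𝔉 : GoodFibresSet 𝒮 pt g) (σ : GK) (τ : ∀ i : Fin g, ↥(𝔉.Fib i)) :
    tupDivS 𝔉 (fun i => fibPermS 𝔉 i σ (τ i)) = 𝒮.gal σ • tupDivS 𝔉 τ := by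
  unfold tupDivS
  rw [smul_sumTuple]
  rfl

/-- existence of the effective good representative `D_x^τ`. -/
theorem exists_isRepOf_tupDivS (𝔉 : GoodFibresSet 𝒮 pt g) (hg : g = genusFF Kb F)
    (τ : ∀ i : Fin g, ↥(𝔉.Fib i)) (x : X) :
    ∃ D : Divisor Kb F, IsRepOf (pt x) (tupDivS 𝔉 τ) D ∧ IsGoodDiv 𝒮.oo D := by
  obtain ⟨⟨Y, hY⟩, hYx⟩ := Pic0.mk_surjective (pt x)
  refine exists_isRepOf_of_isGoodDiv 𝒮.hRR hY hYx ?_
    (𝔉.good_gen (fun i => ((τ i : ↥(𝔉.Fib i)) : Place Kb F)) (fun i => (τ i).2) x Y hY hYx)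
  unfold tupDivS
  rw [degree_sumTuple 𝒮.hRR, hg]

end Fibres

section Inst

variable (𝒮 : GeomSetup p F Fk A₀) {X : Type} (act : GK → X → X)
  (pt : X → Pic0 Kb F) (hpt : ∀ (σ : GK) (x : X), pt (act σ x) = 𝒮.gal σ • pt x)
  {g M₀ n₁ n₂ n₄ r₁ r₂ : ℕ} (hg : g = genusFF Kb F) (hM₀ : 4 * g + 2 ≤ M₀)
  (hn₁ : n₁ + g = M₀ + 1) (hn₂ : n₂ + g = 2 * M₀ + 1) (hr₁ : r₁ + g = n₁) (hr₂ : r₂ + g = n₂)
  (B : RatBases 𝒮 M₀ n₁ n₂ n₄ r₁ r₂) (𝔉 : GoodFibresSet 𝒮 pt g)

/-- **the echelon data (set form) of a geometric setup.** -/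
def echSetOfGeom : EchSet GK Kb F X (∀ i : Fin g, ↥(𝔉.Fib i)) where
  hF := 𝒮.hRR
  P := 𝒮.oo
  T₀ := (M₀ : ℤ)
  hT₀ := by omega
  n₁ := n₁
  n₂ := n₂
  r := r₁
  e₂ := r₂
  b₁ := B.b₁
  b₂ := B.b₂
  I₁ := B.I₁
  I₂ := B.I₂
  hb₁ := B.li₁
  hb₂ := B.li₂
  span₁ := B.span₁
  span₂ := by
    rw [B.span₂]
    unfold GeomSetup.T
    rw [Finsupp.smul_single]
    congr 2
  chart₁ := B.chart₁
  chart₂ := B.chart₂
  hr := by omega
  he₂ := by omega
  cls := pt
  E := tupDivS 𝔉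
  E_nonneg := fun τ => sumTuple_nonneg _
  E_deg := fun τ => by
    unfold tupDivS
    rw [degree_sumTuple 𝒮.hRR, hg]
  good := fun τ x => exists_isRepOf_tupDivS 𝔉 hg τ x
  gal := 𝒮.gal
  act := act
  perm := fun σ τ i => fibPermS 𝔉 i σ (τ i)
  gal_P := 𝒮.gal_oo
  gal_b₁ := B.fix₁
  gal_b₂ := B.fix₂
  cls_act := hpt
  E_perm := fun σ τ => tupDivS_perm 𝔉 σ τ

end Inst

end Fermat.Agent.FFKum
end
end MergeWrap_Lib_FF_Kum_EchSet

section MergeWrap_Lib_FF_Kum_GoodSet -- from Lib/FF/Kum/GoodSet.lean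

set_option autoImplicit false
set_option linter.style.haveILetI false

noncomputable section

open AlgebraicCurve GaloisRep Fermat.Agent.RR Fermat.Agent.RRMult Fermat.Agent.Deuring
  Fermat.Agent.FFGoodEll Fermat.Agent.FF Fermat.Agent.FFGal Fermat.Agent.FFGeom
  Fermat.Agent.KMRing Fermat.Agent.KMBridge Fermat.Agent.FFGeomGood

namespace Fermat.Agent.FFKum

section General

variable {K F : Type*} [Field K] [Field F] [Algebra K F]

/-- representatives of `x`, `y`, `z`, `o` relative to `E` with `x + y = z + o`: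
`D₃ ∼ D₁ + D₂ - D₀`. -/
theorem exists_divOf_of_isRepOf_quad (h : IsRRField K F) {x y z o : Pic0 K F}
    {E D₁ D₂ D₃ D₀ : Divisor K F} (h₁ : IsRepOf x E D₁) (h₂ : IsRepOf y E D₂)
    (h₃ : IsRepOf z E D₃) (h₀ : IsRepOf o E D₀) (hxy : x + y = z + o) :
    ∃ f : F, f ≠ 0 ∧ D₃ = D₁ + D₂ - D₀ + divOf h f := by
  obtain ⟨-, a₁, hx⟩ := h₁
  obtain ⟨-, a₂, hy⟩ := h₂
  obtain ⟨-, a₃, hz⟩ := h₃
  obtain ⟨-, a₀, ho⟩ := h₀
  have hprin : (((⟨D₃ - E, a₃⟩ : Divisor.degZero (K := K) (F := F)) + ⟨D₀ - E, a₀⟩) -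
      (⟨D₁ - E, a₁⟩ + ⟨D₂ - E, a₂⟩) : Divisor.degZero (K := K) (F := F)) ∈
      (Divisor.principal (K := K) (F := F)).addSubgroupOf (Divisor.degZero (K := K) (F := F)) := by
    have : Pic0.mk (((⟨D₃ - E, a₃⟩ : Divisor.degZero (K := K) (F := F)) + ⟨D₀ - E, a₀⟩) -
        (⟨D₁ - E, a₁⟩ + ⟨D₂ - E, a₂⟩)) = 0 := by
      have e : Pic0.mk (((⟨D₃ - E, a₃⟩ : Divisor.degZero (K := K) (F := F)) + ⟨D₀ - E, a₀⟩) -
          (⟨D₁ - E, a₁⟩ + ⟨D₂ - E, a₂⟩))
          = (Pic0.mk ⟨D₃ - E, a₃⟩ + Pic0.mk ⟨D₀ - E, a₀⟩) -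
            (Pic0.mk ⟨D₁ - E, a₁⟩ + Pic0.mk ⟨D₂ - E, a₂⟩) := rfl
      rw [e, hx, hy, hz, ho, hxy, sub_self]
    exact (QuotientAddGroup.eq_zero_iff _).mp this
  rw [AddSubgroup.mem_addSubgroupOf] at hprin
  obtain ⟨f, hf, hfD⟩ := hprin
  refine ⟨f, hf, ?_⟩
  ext w
  have h1 := hfD w
  have h2 : (((((⟨D₃ - E, a₃⟩ : Divisor.degZero (K := K) (F := F)) + ⟨D₀ - E, a₀⟩) -
      (⟨D₁ - E, a₁⟩ + ⟨D₂ - E, a₂⟩) : Divisor.degZero (K := K) (F := F)) : Divisor K F)) w
      = (D₃ w - E w + (D₀ w - E w)) - (D₁ w - E w + (D₂ w - E w)) := by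
    show (((D₃ - E) + (D₀ - E)) - ((D₁ - E) + (D₂ - E))) w = _
    simp
  rw [h2] at h1
  simp only [Finsupp.add_apply, Finsupp.sub_apply, divOf_apply]
  omega

end General

namespace EchSet

variable {G K F X T : Type} [Group G] [Field K] [Field F] [Algebra K F]

/-- **multiplication tables** for the bases of an `EchSet`. -/
structure MulTable (d : EchSet G K F X T) (n₄ : ℕ) where
  /-- basis of (a space containing) `L(2T) · L(2T)` -/
  b₄ : Fin n₄ → F
  hb₄ : LinearIndependent K b₄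
  /-- structure constants `L(T) × L(T) → L(2T)` -/
  m₁ : Fin d.n₁ → Fin d.n₁ → Fin d.n₂ → K
  /-- structure constants `L(2T) × L(2T) → span b₄` -/
  m₂ : Fin d.n₂ → Fin d.n₂ → Fin n₄ → K
  hm₁ : ∀ i j, d.b₁ i * d.b₁ j = ∑ k, m₁ i j k • d.b₂ k
  hm₂ : ∀ i j, d.b₂ i * d.b₂ j = ∑ k, m₂ i j k • b₄ k

variable {d : EchSet G K F X T} {n₄ : ℕ} (μ : d.MulTable n₄)

/-- the Khuri-Makdisi data at the pair of points `(x, y)` with origin `o`, for the tuple `τ`. -/
def kmData (τ : T) (x y o : X) : KMData K d.n₁ d.n₂ n₄ d.r d.r d.r d.e₂ where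
  m₁ := μ.m₁
  m₂ := μ.m₂
  Γx := d.Γ τ x
  Γy := d.Γ τ y
  E₁ := d.Γ τ o
  E₂ := d.Xo τ o

/-- the dictionary in characteristic `0` for ANY data `d₀` with the right entries. -/
def kmCoordOf (d : EchSet G K F X T) {n₄ : ℕ} (b₄ : Fin n₄ → F)
    (li₄ : LinearIndependent K b₄)
    (d₀ : KMData K d.n₁ d.n₂ n₄ d.r d.r d.r d.e₂)
    (hm₁ : ∀ i j, d.b₁ i * d.b₁ j = ∑ l, d₀.m₁ i j l • d.b₂ l)
    (hm₂ : ∀ i j, d.b₂ i * d.b₂ j = ∑ l, d₀.m₂ i j l • b₄ l)
    (τ : T) (x y o : X) (hΓx : d₀.Γx = d.Γ τ x) (hΓy : d₀.Γy = d.Γ τ y)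
    (hE₁ : d₀.E₁ = d.Γ τ o) (hE₂ : d₀.E₂ = d.Xo τ o) :
    KMCoord (Finsupp.single d.P d.T₀) (d.D τ x) (d.D τ y) (d.D τ o) d₀ where
  b₁ := d.b₁
  b₂ := d.b₂
  b₄ := b₄
  li₁ := d.hb₁
  li₂ := d.hb₂
  li₄ := li₄
  span₁ := d.span₁
  span₂ := by rw [d.span₂, two_nsmul_single_place]
  hm₁ := hm₁
  hm₂ := hm₂
  hΓx := by rw [span_coord_eq_colSpan, hΓx]; exact d.colSpan_Γ τ x
  hΓy := by rw [span_coord_eq_colSpan, hΓy]; exact d.colSpan_Γ τ y
  hE₁ := by rw [span_coord_eq_colSpan, hE₁]; exact d.colSpan_Γ τ o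
  hE₂ := by rw [span_coord_eq_colSpan, hE₂, d.colSpan_Xo, two_nsmul_single_place]

/-- **the characteristic-0 dictionary** between `kmData μ τ x y o` and the function field. -/
def kmCoord (τ : T) (x y o : X) :
    KMCoord (Finsupp.single d.P d.T₀) (d.D τ x) (d.D τ y) (d.D τ o) (kmData μ τ x y o) :=
  kmCoordOf d μ.b₄ μ.hb₄ (kmData μ τ x y o) μ.hm₁ μ.hm₂ τ x y o rfl rfl rfl rfl

@[simp] theorem kmCoord_b₁ (τ : T) (x y o : X) : (kmCoord μ τ x y o).b₁ = d.b₁ := rfl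
@[simp] theorem kmCoord_b₂ (τ : T) (x y o : X) : (kmCoord μ τ x y o).b₂ = d.b₂ := rfl
@[simp] theorem kmCoord_b₄ (τ : T) (x y o : X) : (kmCoord μ τ x y o).b₄ = μ.b₄ := rfl

variable (d)

theorem degree_T₀_sub_D (τ : T) (x : X) :
    Divisor.degree (Finsupp.single d.P d.T₀ - d.D τ x) = d.T₀ - (genusFF K F : ℤ) := by
  rw [map_sub, degree_single_one d.hF, d.degree_D]

/-- **the Riemann-Roch hypotheses** of the affine Khuri-Makdisi step at `(x, y)` with origin `o`: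
`D₃ = D τ z`, `cls x + cls y = cls z + cls o`. -/
theorem kmHyp (hT₀ : 4 * (genusFF K F : ℤ) ≤ d.T₀) (τ : T) {x y z o : X}
    (h : d.cls x + d.cls y = d.cls z + d.cls o) :
    KMCoord.KMHyp d.hF (Finsupp.single d.P d.T₀) (d.D τ x) (d.D τ y) (d.D τ z) (d.D τ o) where
  hx := by
    rw [d.degree_T₀_sub_D]
    omega
  hy := by
    rw [d.degree_T₀_sub_D]
    omega
  hE := by
    rw [d.degree_T₀_sub_D]
    have hg : (0 : ℤ) ≤ (genusFF K F : ℤ) := Int.natCast_nonneg _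
    omega
  hell := d.ell_D τ z
  hD₃ := d.D_nonneg τ z
  equiv := exists_divOf_of_isRepOf_quad d.hF (d.isRepOf_D τ x) (d.isRepOf_D τ y)
    (d.isRepOf_D τ z) (d.isRepOf_D τ o) h

variable {d}

/-- **`good_gen`**: the pointwise Khuri-Makdisi rank statements on the generic fibre. -/
theorem kmGood_gen [Infinite K] (hT₀ : 4 * (genusFF K F : ℤ) ≤ d.T₀) {ρ : ℕ}
    (hρ : (ρ : ℤ) = 2 * d.T₀ + 1 - 3 * (genusFF K F : ℤ)) (τ : T) {x y z o : X}
    (h : d.cls x + d.cls y = d.cls z + d.cls o) :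
    KMGood (kmData μ τ x y o) ρ d.I₁ := by
  have hg : (0 : ℤ) ≤ (genusFF K F : ℤ) := Int.natCast_nonneg _
  refine KMCoord.kmGood_of_isGoodDiv (kmCoord μ τ x y o) d.hF (d.kmHyp hT₀ τ h)
    (d.isGoodDiv_D τ z) ?_ ?_ ?_ d.I₁ ?_
  · rw [d.degree_T₀_sub_D]
    omega
  · rw [hρ, map_sub, map_sub, two_nsmul_single_place, degree_single_one d.hF, d.degree_D,
      d.degree_D]
    ring
  · rw [d.degree_T₀_sub_D, d.hr]
    ring
  · intro j hj
    rw [← d.chart₁]
    exact Submodule.subset_span ⟨j, hj, rfl⟩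

/-- **`sum_gen`**: the result of the affine Khuri-Makdisi step is `L(T₀ P - D τ z)`, i.e. the
column space of `Γ τ z`. -/
theorem range_Γ [Infinite K] (hT₀ : 4 * (genusFF K F : ℤ) ≤ d.T₀) (τ : T) {x y z o : X}
    (h : d.cls x + d.cls y = d.cls z + d.cls o) :
    LinearMap.range (d.Γ τ z).mulVecLin = (kmData μ τ x y o).W₃ := by
  apply Submodule.map_injective_of_injective (kmCoord μ τ x y o).inj₁
  rw [(kmCoord μ τ x y o).map_W₃ d.hF (d.kmHyp hT₀ τ h), KMCoord.map_range_mulVecLin,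
    kmCoord_b₁, span_coord_eq_colSpan, d.colSpan_Γ]

/-! ### the special fibre -/

section Closed

variable {k Fk : Type*} [Field k] [Field Fk] [Algebra k Fk]

/-- the goodness hypothesis of `good_cl`, from goodness in the form of `GoodFibresSet.good`. -/
theorem isGoodDiv_red_D (e : EchSet G K F X T) (r : Place K F → Place k Fk) (Q : Place k Fk)
    (τ : T) (x : X)
    (h : ∀ (Y : Divisor K F) (hY : Y ∈ Divisor.degZero (K := K) (F := F)),
      Pic0.mk ⟨Y, hY⟩ = e.cls x → IsGoodDiv Q (redDiv r (Y + e.E τ))) :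
    IsGoodDiv Q (redDiv r (e.D τ x)) := by
  obtain ⟨-, h0, hx⟩ := e.isRepOf_D τ x
  have := h _ h0 hx
  rwa [sub_add_cancel] at this

/-- **`good_cl`, abstract form.** -/
theorem good_cl (e : EchSet G K F X T) (S : ValSetup K F k Fk) (hL : HasLattice S)
    [Infinite k] {r : Place K F → Place k Fk} (hr : IsReduction S r)
    (hg : genusFF K F = genusFF k Fk)
    (int₁ : ∀ i, e.b₁ i ∈ S.Ov) (red₁ : LinearIndependent k fun i => S.red (e.b₁ i))
    (int₂ : ∀ i, e.b₂ i ∈ S.Ov) (red₂ : LinearIndependent k fun i => S.red (e.b₂ i))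
    {n₄ : ℕ} (b₄ : Fin n₄ → F) (li₄ : LinearIndependent K b₄)
    (int₄ : ∀ i, b₄ i ∈ S.Ov) (red₄ : LinearIndependent k fun i => S.red (b₄ i))
    (hT₀ : 4 * (genusFF K F : ℤ) ≤ e.T₀)
    (hgood : ∀ τ x, IsGoodDiv (r e.P) (redDiv r (e.D τ x)))
    {ρ : ℕ} (hρ : (ρ : ℤ) = 2 * e.T₀ + 1 - 3 * (genusFF K F : ℤ))
    (τ : T) {x y z o : X} (h : e.cls x + e.cls y = e.cls z + e.cls o)
    (d : KMData S.A e.n₁ e.n₂ n₄ e.r e.r e.r e.e₂)
    (hm₁ : ∀ i j, e.b₁ i * e.b₁ j = ∑ l, ((d.m₁ i j l : S.A) : K) • e.b₂ l)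
    (hm₂ : ∀ i j, e.b₂ i * e.b₂ j = ∑ l, ((d.m₂ i j l : S.A) : K) • b₄ l)
    (hΓx : d.Γx.map S.A.subtype = e.Γ τ x) (hΓy : d.Γy.map S.A.subtype = e.Γ τ y)
    (hE₁ : d.E₁.map S.A.subtype = e.Γ τ o) (hE₂ : d.E₂.map S.A.subtype = e.Xo τ o) :
    KMGood (d.map S.res) ρ e.I₁ := by
  have hg0 : (0 : ℤ) ≤ (genusFF K F : ℤ) := Int.natCast_nonneg _
  have hdT : Divisor.degree (Finsupp.single e.P e.T₀) = e.T₀ := degree_single_one e.hF e.P e.T₀
  refine kmGood_residue hL hr hg (P := e.P) (M₀ := e.T₀) (by omega) d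
    (kmCoordOf e b₄ li₄ (d.map S.A.subtype) hm₁ hm₂ τ x y o hΓx hΓy hE₁ hE₂)
    int₁ red₁ int₂ red₂ int₄ red₄ (e.kmHyp hT₀ τ h) (e.degree_D τ z)
    ?_ ?_ ?_ ?_ (hgood τ z) ?_ ?_ e.I₁ ?_
  · exact linearIndependent_colVec_res_of_echelon S red₁ d.Γx e.I₁ (by rw [hΓx]; exact e.Γ_ech τ x)
  · exact linearIndependent_colVec_res_of_echelon S red₁ d.Γy e.I₁ (by rw [hΓy]; exact e.Γ_ech τ y)
  · exact linearIndependent_colVec_res_of_echelon S red₁ d.E₁ e.I₁ (by rw [hE₁]; exact e.Γ_ech τ o)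
  · exact linearIndependent_colVec_res_of_echelon S red₂ d.E₂ e.I₂ (by rw [hE₂]; exact e.Xo_ech τ o)
  · rw [hρ, map_sub, map_sub, map_nsmul, hdT, e.degree_D, e.degree_D]
    simp only [nsmul_eq_mul, Nat.cast_ofNat]
    ring
  · rw [map_sub, hdT, e.degree_D]
    have := e.hr
    omega
  · intro j hj
    have h1 : e.b₁ j ∈ chartSpan K e.b₁ e.I₁ := Submodule.subset_span ⟨j, hj, rfl⟩
    rw [e.chart₁] at h1
    exact h1

end Closed

end EchSet

/-! ### `K = ℚ̄`, a geometric setup -/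

section GeomSetup

local notation "Kb" => AlgebraicClosure ℚ
local notation "GK" => (AlgebraicClosure ℚ ≃ₐ[ℚ] AlgebraicClosure ℚ)

variable {p : ℕ} {F' Fk' : Type} [Field F'] [Algebra Kb F'] {A₀ : ValuationSubring Kb}
  [Field Fk'] [Algebra (IsLocalRing.ResidueField A₀) Fk'] {G' X' T' : Type} [Group G']

/-- **`good_cl`** for a geometric setup: for every model `d` over `A₀` of the affine
Khuri-Makdisi data at `(τ, x, y)` with origin `o`, the reduction of `d` modulo the maximal ideal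
of `A₀` satisfies `KMGood`. -/
theorem EchSet.good_cl_geomSetup (𝒮 : GeomSetup p F' Fk' A₀) (e : EchSet G' Kb F' X' T')
    (int₁ : ∀ i, e.b₁ i ∈ 𝒮.S.Ov)
    (red₁ : LinearIndependent (IsLocalRing.ResidueField A₀) fun i => 𝒮.S.red (e.b₁ i))
    (int₂ : ∀ i, e.b₂ i ∈ 𝒮.S.Ov)
    (red₂ : LinearIndependent (IsLocalRing.ResidueField A₀) fun i => 𝒮.S.red (e.b₂ i))
    {n₄ : ℕ} (μ : e.MulTable n₄)
    (int₄ : ∀ i, μ.b₄ i ∈ 𝒮.S.Ov)
    (red₄ : LinearIndependent (IsLocalRing.ResidueField A₀) fun i => 𝒮.S.red (μ.b₄ i))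
    (hT₀ : 4 * (genusFF Kb F' : ℤ) ≤ e.T₀)
    (hgood : ∀ τ x, IsGoodDiv (𝒮.r e.P) (redDiv 𝒮.r (e.D τ x)))
    {ρ : ℕ} (hρ : (ρ : ℤ) = 2 * e.T₀ + 1 - 3 * (genusFF Kb F' : ℤ))
    (τ : T') {x y z o : X'} (h : e.cls x + e.cls y = e.cls z + e.cls o)
    (d : KMData A₀ e.n₁ e.n₂ n₄ e.r e.r e.r e.e₂)
    (hd : d.map A₀.subtype = EchSet.kmData μ τ x y o) :
    KMGood (d.map (IsLocalRing.residue A₀)) ρ e.I₁ := by
  haveI := 𝒮.inf_k
  have hd' : (d.map (clIncl 𝒮)).map 𝒮.S.A.subtype = EchSet.kmData μ τ x y o := by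
    rw [KMData.map_map, subtype_comp_clIncl, hd]
  have h1 := e.good_cl 𝒮.S 𝒮.hL 𝒮.hr 𝒮.hg int₁ red₁ int₂ red₂ μ.b₄ μ.hb₄ int₄ red₄ hT₀ hgood hρ
    τ h (d.map (clIncl 𝒮))
    (fun i j => by
      have h2 := congrFun (congrFun (congrArg KMData.m₁ hd') i) j
      have h3 : ∀ l, (((d.map (clIncl 𝒮)).m₁ i j l : 𝒮.S.A) : Kb) = μ.m₁ i j l :=
        fun l => congrFun h2 l
      simp only [h3]
      exact μ.hm₁ i j)
    (fun i j => by
      have h2 := congrFun (congrFun (congrArg KMData.m₂ hd') i) j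
      have h3 : ∀ l, (((d.map (clIncl 𝒮)).m₂ i j l : 𝒮.S.A) : Kb) = μ.m₂ i j l :=
        fun l => congrFun h2 l
      simp only [h3]
      exact μ.hm₂ i j)
    (congrArg KMData.Γx hd') (congrArg KMData.Γy hd') (congrArg KMData.E₁ hd')
    (congrArg KMData.E₂ hd')
  rw [KMData.map_map, res_comp_clIncl] at h1
  exact h1

variable {X T : Type}

/-- **`Γ_int`**: the entries of `Γ τ x` are integral over `ℤ_(p)`. -/
theorem EchSet.Γ_int (hp : p.Prime) (𝒮 : GeomSetup p F' Fk' A₀) (e : EchSet GK Kb F' X T)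
    (hgal : ∀ (σ : GK) (c : Kb), SemilinearAut.baseAut (e.gal σ) c = σ c)
    (int₁ : ∀ i, e.b₁ i ∈ 𝒮.S.Ov)
    (red₁ : LinearIndependent (IsLocalRing.ResidueField A₀) fun i => 𝒮.S.red (e.b₁ i))
    (hT₀ : 3 * (genusFF Kb F' : ℤ) ≤ e.T₀)
    (hgood : ∀ τ x, IsGoodDiv (𝒮.r e.P) (redDiv 𝒮.r (e.D τ x)))
    (τ : T) (x : X) (i : Fin e.n₁) (a : Fin e.r) :
    IsIntegral (ratLocalizedAt p) (e.Γ τ x i a) :=
  EchData.Γ_int hp 𝒮 e.toEch hgal int₁ red₁ hT₀
    (fun τx u => by rw [e.toEch_D]; exact hgood τx.1 τx.2) (τ, x) 0 i a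

/-- **`Xo_int`**: the entries of `Xo τ x` are integral over `ℤ_(p)`. -/
theorem EchSet.Xo_int (hp : p.Prime) (𝒮 : GeomSetup p F' Fk' A₀) (e : EchSet GK Kb F' X T)
    (hgal : ∀ (σ : GK) (c : Kb), SemilinearAut.baseAut (e.gal σ) c = σ c)
    (int₂ : ∀ i, e.b₂ i ∈ 𝒮.S.Ov)
    (red₂ : LinearIndependent (IsLocalRing.ResidueField A₀) fun i => 𝒮.S.red (e.b₂ i))
    (hT₀ : 3 * (genusFF Kb F' : ℤ) ≤ 2 * e.T₀)
    (hgood : ∀ τ x, IsGoodDiv (𝒮.r e.P) (redDiv 𝒮.r (e.D τ x)))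
    (τ : T) (x : X) (i : Fin e.n₂) (a : Fin e.e₂) :
    IsIntegral (ratLocalizedAt p) (e.Xo τ x i a) :=
  EchData.X_int hp 𝒮 e.toEch hgal int₂ red₂ hT₀
    (fun τx u => by rw [e.toEch_D]; exact hgood τx.1 τx.2) (τ, x) i a

end GeomSetup

end Fermat.Agent.FFKum
end
end MergeWrap_Lib_FF_Kum_GoodSet

section MergeWrap_Lib_FF_Kum_FormalZ -- from Lib/FF/Kum/FormalZ.lean

set_option autoImplicit false

noncomputable section

namespace Fermat.Agent.FFKum

open GaloisRep Fermat.Agent.KMRing Fermat.Agent.FlatMod Fermat.Agent.FF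
open scoped Pointwise

local notation "Kb" => AlgebraicClosure ℚ
local notation "GK" => (AlgebraicClosure ℚ ≃ₐ[ℚ] AlgebraicClosure ℚ)
local notation "Bint" p => integralClosure (ratLocalizedAt p) Kb

/-- the Khuri-Makdisi data with origin matrices `E₁` (of `L(T - D_o)`) and `X` (of
`L(2T - D_o)`). -/
def kmDataO {n₁ n₂ n₄ r e₂ : ℕ}
    (m₁ : Fin n₁ → Fin n₁ → Fin n₂ → Kb) (m₂ : Fin n₂ → Fin n₂ → Fin n₄ → Kb)
    (Γx Γy E₁ : Matrix (Fin n₁) (Fin r) Kb) (X : Matrix (Fin n₂) (Fin e₂) Kb) :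
    KMData Kb n₁ n₂ n₄ r r r e₂ where
  m₁ := m₁
  m₂ := m₂
  Γx := Γx
  Γy := Γy
  E₁ := E₁
  E₂ := X

/-- **The geometric input on one zone** `Y`. -/
structure KMZone (p : ℕ) (Y : Type) (permY : GK → Y → Y)
    {n : Type} (Fib : n → Type) (perm : ∀ i, GK → Fib i → Fib i)
    (n₁ n₂ n₄ r e₂ : ℕ) where
  /-- expected dimension of `Y = L(2T - D₃ - D_o)` -/
  ρ : ℕ
  /-- the pivot rows -/
  I₀ : Fin r → Fin n₁
  /-- structure constants `L(T) × L(T) → L(2T)` -/
  m₁ : Fin n₁ → Fin n₁ → Fin n₂ → Kb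
  /-- structure constants `L(2T) × L(2T) → L(4T)` -/
  m₂ : Fin n₂ → Fin n₂ → Fin n₄ → Kb
  /-- echelon matrix of the first summand -/
  Γx : (∀ i, Fib i) → Y → Matrix (Fin n₁) (Fin r) Kb
  /-- echelon matrix of the second summand -/
  Γy : (∀ i, Fib i) → Y → Matrix (Fin n₁) (Fin r) Kb
  /-- echelon matrix of the sum -/
  Γz : (∀ i, Fib i) → Y → Matrix (Fin n₁) (Fin r) Kb
  /-- matrix of `L(T - D_o^τ)`, `o` the origin -/
  E₁ : (∀ i, Fib i) → Matrix (Fin n₁) (Fin r) Kb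
  /-- basis matrix of `L(2T - D_o^τ)` -/
  X : (∀ i, Fib i) → Matrix (Fin n₂) (Fin e₂) Kb
  /-- a left inverse of `X τ` -/
  Lx : (∀ i, Fib i) → Matrix (Fin e₂) (Fin n₂) Kb
  m₁_int : ∀ i j k, IsIntegral (ratLocalizedAt p) (m₁ i j k)
  m₂_int : ∀ i j k, IsIntegral (ratLocalizedAt p) (m₂ i j k)
  m₁_fix : ∀ (σ : GK) i j k, σ (m₁ i j k) = m₁ i j k
  m₂_fix : ∀ (σ : GK) i j k, σ (m₂ i j k) = m₂ i j k
  Γx_int : ∀ τ y i a, IsIntegral (ratLocalizedAt p) (Γx τ y i a)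
  Γy_int : ∀ τ y i a, IsIntegral (ratLocalizedAt p) (Γy τ y i a)
  E₁_int : ∀ τ i a, IsIntegral (ratLocalizedAt p) (E₁ τ i a)
  X_int : ∀ τ i a, IsIntegral (ratLocalizedAt p) (X τ i a)
  Lx_int : ∀ τ a i, IsIntegral (ratLocalizedAt p) (Lx τ a i)
  Lx_mul_X : ∀ τ, Lx τ * X τ = 1
  Γz_ech : ∀ τ y, (Γz τ y).submatrix I₀ id = 1
  Γx_equiv : ∀ τ (σ : GK) y i a, Γx (fun i => perm i σ (τ i)) (permY σ y) i a = σ (Γx τ y i a)
  Γy_equiv : ∀ τ (σ : GK) y i a, Γy (fun i => perm i σ (τ i)) (permY σ y) i a = σ (Γy τ y i a)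
  E₁_equiv : ∀ τ (σ : GK) i a, E₁ (fun i => perm i σ (τ i)) i a = σ (E₁ τ i a)
  X_equiv : ∀ τ (σ : GK) i a, X (fun i => perm i σ (τ i)) i a = σ (X τ i a)
  /-- Khuri-Makdisi over `ℚ̄`, at every point of the zone -/
  good_gen : ∀ τ y, KMGood (kmDataO m₁ m₂ (Γx τ y) (Γy τ y) (E₁ τ) (X τ)) ρ I₀
  /-- the result of the Khuri-Makdisi steps is the column space of `Γz` -/
  sum_gen : ∀ τ y,
    LinearMap.range (Γz τ y).mulVecLin = (kmDataO m₁ m₂ (Γx τ y) (Γy τ y) (E₁ τ) (X τ)).W₃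
  /-- the ONE place -/
  A₀ : ValuationSubring Kb
  hA₀ : A₀.LiesOverPrime p
  /-- Khuri-Makdisi over the residue field of `A₀`, for every integral model of the data -/
  good_cl : ∀ τ y (d : KMData A₀ n₁ n₂ n₄ r r r e₂),
    d.map A₀.subtype = kmDataO m₁ m₂ (Γx τ y) (Γy τ y) (E₁ τ) (X τ) →
      KMGood (d.map (IsLocalRing.residue A₀)) ρ I₀

section Setup

variable {p : ℕ} {Y : Type} {permY : GK → Y → Y}
  {n : Type} {Fib : n → Type} {perm : ∀ i, GK → Fib i → Fib i} {n₁ n₂ n₄ r e₂ : ℕ}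
  (𝒵 : KMZone p Y permY Fib perm n₁ n₂ n₄ r e₂)

/-- the generators of the ring of coordinate functions on the zone. -/
def zGen : ((∀ i, Fib i) × (Fin n₁ × Fin r)) ⊕ ((∀ i, Fib i) × (Fin n₁ × Fin r)) → Y → Kb :=
  fun k y => Sum.elim (fun k => 𝒵.Γx k.1 y k.2.1 k.2.2) (fun k => 𝒵.Γy k.1 y k.2.1 k.2.2) k

theorem zGen_int (k) (y : Y) : IsIntegral (ratLocalizedAt p) (zGen 𝒵 k y) := by
  rcases k with k | k
  · exact 𝒵.Γx_int k.1 y k.2.1 k.2.2
  · exact 𝒵.Γy_int k.1 y k.2.1 k.2.2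

/-- the ring of coordinate functions on the zone. -/
abbrev zRing : Subalgebra (Bint p) (Y → Kb) :=
  (MvPolynomial.aeval (zGen 𝒵) :
    MvPolynomial (((∀ i, Fib i) × (Fin n₁ × Fin r)) ⊕ ((∀ i, Fib i) × (Fin n₁ × Fin r)))
      (Bint p) →ₐ[Bint p] (Y → Kb)).range

/-- a generator as an element of the ring. -/
def zGenR (k : ((∀ i, Fib i) × (Fin n₁ × Fin r)) ⊕ ((∀ i, Fib i) × (Fin n₁ × Fin r))) :
    zRing 𝒵 :=
  ⟨zGen 𝒵 k, ⟨MvPolynomial.X k, MvPolynomial.aeval_X _ _⟩⟩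

/-- a constant as an element of the ring. -/
def zCst (b : Kb) (hb : IsIntegral (ratLocalizedAt p) b) : zRing 𝒵 :=
  algebraMap (Bint p) (zRing 𝒵) ⟨b, hb⟩

theorem coe_zCst (b : Kb) (hb : IsIntegral (ratLocalizedAt p) b) (y : Y) :
    ((zCst 𝒵 b hb : zRing 𝒵) : Y → Kb) y = b := rfl

theorem coe_zGenR (k) (y : Y) : ((zGenR 𝒵 k : zRing 𝒵) : Y → Kb) y = zGen 𝒵 k y :=
  rfl

/-- the Khuri-Makdisi data over the ring of coordinate functions. -/
def zDataR (τ : ∀ i, Fib i) : KMData (zRing 𝒵) n₁ n₂ n₄ r r r e₂ where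
  m₁ := fun i j k => zCst 𝒵 (𝒵.m₁ i j k) (𝒵.m₁_int i j k)
  m₂ := fun i j k => zCst 𝒵 (𝒵.m₂ i j k) (𝒵.m₂_int i j k)
  Γx := Matrix.of fun i a => zGenR 𝒵 (Sum.inl (τ, (i, a)))
  Γy := Matrix.of fun i a => zGenR 𝒵 (Sum.inr (τ, (i, a)))
  E₁ := Matrix.of fun i a => zCst 𝒵 (𝒵.E₁ τ i a) (𝒵.E₁_int τ i a)
  E₂ := Matrix.of fun i a => zCst 𝒵 (𝒵.X τ i a) (𝒵.X_int τ i a)

/-- at a generic point the data are the data of `KMZone`. -/
theorem zDataR_map_eval (τ : ∀ i, Fib i) (y : Y) :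
    (zDataR 𝒵 τ).map (PtsMax.evalHom (zRing 𝒵) y) =
      kmDataO 𝒵.m₁ 𝒵.m₂ (𝒵.Γx τ y) (𝒵.Γy τ y) (𝒵.E₁ τ) (𝒵.X τ) := by
  apply kmData_ext <;> intros <;> rfl

/-- `E₂` has a left inverse over the ring. -/
theorem zDataR_leftInv (τ : ∀ i, Fib i) :
    ∃ L : Matrix (Fin e₂) (Fin n₂) (zRing 𝒵), L * (zDataR 𝒵 τ).E₂ = 1 := by
  refine ⟨Matrix.of fun a i => zCst 𝒵 (𝒵.Lx τ a i) (𝒵.Lx_int τ a i), ?_⟩
  ext a b y
  have h := congrFun (congrFun (𝒵.Lx_mul_X τ) a) b
  rw [Matrix.mul_apply] at h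
  rw [Matrix.mul_apply]
  have hsum : ((∑ j, Matrix.of (fun a i => zCst 𝒵 (𝒵.Lx τ a i) (𝒵.Lx_int τ a i)) a j *
      (zDataR 𝒵 τ).E₂ j b : zRing 𝒵) : Y → Kb) y = ∑ j, 𝒵.Lx τ a j * 𝒵.X τ j b := by
    rw [AddSubmonoidClass.coe_finsetSum, Finset.sum_apply]
    rfl
  rw [hsum, h]
  by_cases hab : a = b
  · subst hab
    simp
  · simp [hab]

end Setup

section Closed

variable {p : ℕ} [Fact p.Prime] {Y : Type} {permY : GK → Y → Y}
  {n : Type} {Fib : n → Type} {perm : ∀ i, GK → Fib i → Fib i} {n₁ n₂ n₄ r e₂ : ℕ}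
  (𝒵 : KMZone p Y permY Fib perm n₁ n₂ n₄ r e₂)

/-- the integral model over `A₀` of the data at `(τ', y')`. -/
def zDataA₀ (τ' : ∀ i, Fib i) (y' : Y) : KMData 𝒵.A₀ n₁ n₂ n₄ r r r e₂ where
  m₁ := fun i j k =>
    ⟨𝒵.m₁ i j k, mem_of_isIntegral_of_liesOverPrime 𝒵.A₀ 𝒵.hA₀ (𝒵.m₁_int i j k)⟩
  m₂ := fun i j k =>
    ⟨𝒵.m₂ i j k, mem_of_isIntegral_of_liesOverPrime 𝒵.A₀ 𝒵.hA₀ (𝒵.m₂_int i j k)⟩
  Γx := Matrix.of fun i a =>
    ⟨𝒵.Γx τ' y' i a, mem_of_isIntegral_of_liesOverPrime 𝒵.A₀ 𝒵.hA₀ (𝒵.Γx_int τ' y' i a)⟩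
  Γy := Matrix.of fun i a =>
    ⟨𝒵.Γy τ' y' i a, mem_of_isIntegral_of_liesOverPrime 𝒵.A₀ 𝒵.hA₀ (𝒵.Γy_int τ' y' i a)⟩
  E₁ := Matrix.of fun i a =>
    ⟨𝒵.E₁ τ' i a, mem_of_isIntegral_of_liesOverPrime 𝒵.A₀ 𝒵.hA₀ (𝒵.E₁_int τ' i a)⟩
  E₂ := Matrix.of fun i a =>
    ⟨𝒵.X τ' i a, mem_of_isIntegral_of_liesOverPrime 𝒵.A₀ 𝒵.hA₀ (𝒵.X_int τ' i a)⟩

theorem zDataA₀_map_subtype (τ' : ∀ i, Fib i) (y' : Y) :
    (zDataA₀ 𝒵 τ' y').map 𝒵.A₀.subtype =
      kmDataO 𝒵.m₁ 𝒵.m₂ (𝒵.Γx τ' y') (𝒵.Γy τ' y') (𝒵.E₁ τ') (𝒵.X τ') := by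
  apply kmData_ext <;> intros <;> rfl

variable (hpermY_one : ∀ y, permY 1 y = y)
  (hpermY_mul : ∀ (σ τ : GK) y, permY (σ * τ) y = permY σ (permY τ y))
  (hperm_one : ∀ i P, perm i 1 P = P)
  (hperm_mul : ∀ i (σ τ : GK) P, perm i (σ * τ) P = perm i σ (perm i τ P))

include hpermY_one hpermY_mul hperm_one hperm_mul in
/-- **one-place transport**: `KMGood` at the closed point `(y, σ • A₀)`. -/
theorem zGood_closed (τ : ∀ i, Fib i) (y : Y) (σ : GK)
    (hA : (σ • 𝒵.A₀).LiesOverPrime p) :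
    KMGood ((zDataR 𝒵 τ).map (redPoint (zGen 𝒵) (zGen_int 𝒵) (σ • 𝒵.A₀) hA y))
      𝒵.ρ 𝒵.I₀ := by
  set τ' : ∀ i, Fib i := fun i => perm i σ⁻¹ (τ i) with hτ'
  have hτ : (fun i => perm i σ (τ' i)) = τ := by
    funext i
    rw [hτ', ← hperm_mul, mul_inv_cancel, hperm_one]
  have hyσ : permY σ (permY σ⁻¹ y) = y := by
    rw [← hpermY_mul, mul_inv_cancel, hpermY_one]
  have hΓx : ∀ i a, 𝒵.Γx τ y i a = σ (𝒵.Γx τ' (permY σ⁻¹ y) i a) := by
    intro i a
    rw [← 𝒵.Γx_equiv τ' σ (permY σ⁻¹ y) i a, hτ, hyσ]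
  have hΓy : ∀ i a, 𝒵.Γy τ y i a = σ (𝒵.Γy τ' (permY σ⁻¹ y) i a) := by
    intro i a
    rw [← 𝒵.Γy_equiv τ' σ (permY σ⁻¹ y) i a, hτ, hyσ]
  have hE : ∀ i a, 𝒵.E₁ τ i a = σ (𝒵.E₁ τ' i a) := by
    intro i a
    rw [← 𝒵.E₁_equiv τ' σ i a, hτ]
  have hX : ∀ i a, 𝒵.X τ i a = σ (𝒵.X τ' i a) := by
    intro i a
    rw [← 𝒵.X_equiv τ' σ i a, hτ]
  have hgood := 𝒵.good_cl τ' (permY σ⁻¹ y)
    (zDataA₀ 𝒵 τ' (permY σ⁻¹ y)) (zDataA₀_map_subtype 𝒵 _ _)
  have h2 := hgood.map_ringEquiv (residueEquivSMul σ 𝒵.A₀)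
  have heq : (zDataR 𝒵 τ).map (redPoint (zGen 𝒵) (zGen_int 𝒵) (σ • 𝒵.A₀) hA y) =
      ((zDataA₀ 𝒵 τ' (permY σ⁻¹ y)).map (IsLocalRing.residue 𝒵.A₀)).map
        (residueEquivSMul σ 𝒵.A₀ : IsLocalRing.ResidueField 𝒵.A₀ →+* _) := by
    apply kmData_ext
    · intro i j k
      exact residue_eq_residueEquivSMul σ 𝒵.A₀ _ _ _ _ (𝒵.m₁_fix σ i j k).symm
    · intro i j k
      exact residue_eq_residueEquivSMul σ 𝒵.A₀ _ _ _ _ (𝒵.m₂_fix σ i j k).symm
    · intro i a
      exact residue_eq_residueEquivSMul σ 𝒵.A₀ _ _ _ _ (hΓx i a)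
    · intro i a
      exact residue_eq_residueEquivSMul σ 𝒵.A₀ _ _ _ _ (hΓy i a)
    · intro i a
      exact residue_eq_residueEquivSMul σ 𝒵.A₀ _ _ _ _ (hE i a)
    · intro i a
      exact residue_eq_residueEquivSMul σ 𝒵.A₀ _ _ _ _ (hX i a)
  rw [heq]
  exact h2

end Closed

/-- **Formal side on one zone**: every entry of `Γz τ` is a polynomial over `Bint p` in the
entries of the `Γx τ'`, `Γy τ'`. -/
theorem exists_poly_of_kmZone {p : ℕ} [Fact p.Prime] {Y : Type} [Finite Y]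
    (permY : GK → Y → Y) (hpermY_one : ∀ y, permY 1 y = y)
    (hpermY_mul : ∀ (σ τ : GK) y, permY (σ * τ) y = permY σ (permY τ y))
    {n : Type} {Fib : n → Type} (perm : ∀ i, GK → Fib i → Fib i)
    (hperm_one : ∀ i P, perm i 1 P = P)
    (hperm_mul : ∀ i (σ τ : GK) P, perm i (σ * τ) P = perm i σ (perm i τ P))
    {n₁ n₂ n₄ r e₂ : ℕ} (𝒵 : KMZone p Y permY Fib perm n₁ n₂ n₄ r e₂)
    (τ : ∀ i, Fib i) (i : Fin n₁) (a : Fin r) :
    ∃ P : MvPolynomial
        (((∀ i, Fib i) × (Fin n₁ × Fin r)) ⊕ ((∀ i, Fib i) × (Fin n₁ × Fin r))) (Bint p),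
      ∀ y, 𝒵.Γz τ y i a =
        MvPolynomial.aeval
          (Sum.elim (fun k => 𝒵.Γx k.1 y k.2.1 k.2.2) (fun k => 𝒵.Γy k.1 y k.2.1 k.2.2)) P := by
  classical
  have key : ∃ Γ₃ : Matrix (Fin n₁) (Fin r) (zRing 𝒵), Γ₃.submatrix 𝒵.I₀ id = 1 ∧
      ∀ {K' : Type} [Field K'] (f : zRing 𝒵 →+* K'),
        LinearMap.range (Γ₃.map f).mulVecLin = ((zDataR 𝒵 τ).map f).W₃ := by
    refine KMRing.exists_sum_matrix (zDataR 𝒵 τ) (zDataR_leftInv 𝒵 τ) 𝒵.ρ 𝒵.I₀
      (PtsMax.evalHom (zRing 𝒵)) (PtsMax.eval_eq_zero _) (fun y => ?_) (fun M hM => ?_)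
    · rw [zDataR_map_eval]
      exact 𝒵.good_gen τ y
    · obtain ⟨y, A, hA, hle⟩ := exists_redPoint_of_maximal (zGen 𝒵) (zGen_int 𝒵) M hM
      obtain ⟨σ, rfl⟩ := exists_smul_eq_of_liesOverPrime 𝒵.A₀ A 𝒵.hA₀ hA
      exact ⟨_, inferInstance, _, hle,
        zGood_closed 𝒵 hpermY_one hpermY_mul hperm_one hperm_mul τ y σ hA⟩
  obtain ⟨Γ₃, hΓ₃, hrange⟩ := key
  obtain ⟨P, hP⟩ := (Γ₃ i a).2
  refine ⟨P, fun y => ?_⟩
  have h1 := KMRing.eq_map_of_echelon (zDataR 𝒵 τ) (PtsMax.evalHom (zRing 𝒵) y) hΓ₃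
    (hrange _) (𝒵.Γz_ech τ y)
    (by rw [zDataR_map_eval]; exact (𝒵.sum_gen τ y).le)
  have h2 : 𝒵.Γz τ y i a = ((Γ₃ i a : zRing 𝒵) : Y → Kb) y :=
    congrFun (congrFun h1 i) a
  have h3 : ((Γ₃ i a : zRing 𝒵) : Y → Kb) y =
      MvPolynomial.aeval (fun k => zGen 𝒵 k y) P :=
    (congrFun hP y).symm.trans (aeval_pi_apply (zGen 𝒵) P y)
  have h4 : (fun k => zGen 𝒵 k y) =
      Sum.elim (fun k => 𝒵.Γx k.1 y k.2.1 k.2.2) (fun k => 𝒵.Γy k.1 y k.2.1 k.2.2) := by
    funext k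
    rcases k with k | k <;> rfl
  rw [← h4, ← h3, ← h2]

end Fermat.Agent.FFKum
end
end MergeWrap_Lib_FF_Kum_FormalZ

section MergeWrap_Lib_FlatMod_OrderPlace -- from Lib/FlatMod/OrderPlace.lean

set_option autoImplicit false
set_option linter.style.haveILetI false
set_option linter.unusedSectionVars false

namespace Fermat.Agent.FlatMod

open GaloisRep TensorProduct WithConv
open scoped Pointwise

local notation "Kb" => AlgebraicClosure ℚ
local notation "GK" => (AlgebraicClosure ℚ ≃ₐ[ℚ] AlgebraicClosure ℚ)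
local notation "Bint" p => integralClosure (ratLocalizedAt p) Kb

variable {p : ℕ}

/-- Every place of `ℚ̄` over `p` is conjugate to a given one. -/
theorem exists_gal_map_mem [Fact p.Prime] (A₀ : ValuationSubring Kb)
    (hA₀ : A₀.LiesOverPrime p) (A : ValuationSubring Kb) (hA : A.LiesOverPrime p) :
    ∃ σ : GK, ∀ x : Kb, x ∈ A₀ → σ x ∈ A := by
  obtain ⟨σ, hσ⟩ := Fermat.Agent.FF.exists_smul_eq_of_liesOverPrime A₀ A hA₀ hA
  refine ⟨σ, fun x hx => ?_⟩
  rw [← hσ]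
  exact ValuationSubring.smul_mem_pointwise_smul_iff.2 hx

/-- **Hopf order criterion, one-place form**: the points of `T` are separated by units at ONE
place `A₀` over `p`.  No negation law, no conjugacy hypothesis. -/
theorem isFlat_of_coords_place [Fact p.Prime] {W : Type} [AddCommGroup W] [Finite W]
    (act : GK → W → W) (hact : ∀ (σ : GK) (w w' : W), act σ (w + w') = act σ w + act σ w')
    {T J ι : Type} [Finite T] [Finite J] [Finite ι]
    (perm : GK → T → T)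
    (θ : J → T → Kb) (hθint : ∀ i t, IsIntegral (ratLocalizedAt p) (θ i t))
    (hθeq : ∀ (σ : GK) i t, θ i (perm σ t) = σ (θ i t))
    (A₀ : ValuationSubring Kb) (hA₀ : A₀.LiesOverPrime p)
    (hθsep : ∀ t t', t ≠ t' → ∃ i, A₀.valuation (θ i t - θ i t') = 1)
    (c : T → ι → W → Kb)
    (hint : ∀ τ i w, IsIntegral (ratLocalizedAt p) (c τ i w))
    (hequiv : ∀ τ i (σ : GK) w, c (perm σ τ) i (act σ w) = σ (c τ i w))
    (hsep : ∀ w w' : W, (∀ τ i, c τ i w = c τ i w') → w = w')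
    (hadd : ∀ τ i, ∃ P : MvPolynomial ((T × ι) ⊕ (T × ι)) (Bint p), ∀ w w',
      c τ i (w + w') =
        MvPolynomial.aeval (Sum.elim (fun k => c k.1 k.2 w) (fun k => c k.1 k.2 w')) P) :
    IsFlatGaloisModule p W act :=
  isFlat_of_coords_place' act hact perm θ hθint hθeq A₀ (exists_gal_map_mem A₀ hA₀) hθsep
    c hint hequiv hsep hadd

/-- **Hopf order criterion for a product of fibres, one-place form**, without conjugacy
hypothesis: the form called by the assembly of FF/S19. -/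
theorem isFlat_of_coords_fibres' [Fact p.Prime] {W : Type} [AddCommGroup W] [Finite W]
    (act : GK → W → W) (hact : ∀ (σ : GK) (w w' : W), act σ (w + w') = act σ w + act σ w')
    {n J ι : Type} [Finite n] [Finite J] [Finite ι] {Fib : n → Type} [∀ i, Finite (Fib i)]
    (perm : ∀ i, GK → Fib i → Fib i)
    (s : ∀ i, J → Fib i → Kb)
    (hsint : ∀ i j P, IsIntegral (ratLocalizedAt p) (s i j P))
    (hseq : ∀ i j (σ : GK) P, s i j (perm i σ P) = σ (s i j P))
    (A₀ : ValuationSubring Kb) (hA₀ : A₀.LiesOverPrime p)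
    (hunit : ∀ i (P P' : Fib i), P ≠ P' → ∃ j, A₀.valuation (s i j P - s i j P') = 1)
    (c : (∀ i, Fib i) → ι → W → Kb)
    (hint : ∀ τ j w, IsIntegral (ratLocalizedAt p) (c τ j w))
    (hequiv : ∀ τ j (σ : GK) w, c (fun i => perm i σ (τ i)) j (act σ w) = σ (c τ j w))
    (hsep : ∀ w w' : W, (∀ τ j, c τ j w = c τ j w') → w = w')
    (hadd : ∀ τ j, ∃ P : MvPolynomial (((∀ i, Fib i) × ι) ⊕ ((∀ i, Fib i) × ι)) (Bint p),
      ∀ w w', c τ j (w + w') =
        MvPolynomial.aeval (Sum.elim (fun k => c k.1 k.2 w) (fun k => c k.1 k.2 w')) P) :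
    IsFlatGaloisModule p W act :=
  isFlat_of_coords_fibres act hact perm s hsint hseq A₀ (exists_gal_map_mem A₀ hA₀) hunit
    c hint hequiv hsep hadd

end Fermat.Agent.FlatMod
end MergeWrap_Lib_FlatMod_OrderPlace

section MergeWrap_Lib_FlatMod_OrderZones -- from Lib/FlatMod/OrderZones.lean

set_option autoImplicit false
set_option linter.style.haveILetI false
set_option linter.unusedSectionVars false

namespace Fermat.Agent.FlatMod

open GaloisRep TensorProduct WithConv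
open scoped Pointwise

local notation "Kb" => AlgebraicClosure ℚ
local notation "GK" => (AlgebraicClosure ℚ ≃ₐ[ℚ] AlgebraicClosure ℚ)
local notation "Bint" p => integralClosure (ratLocalizedAt p) Kb

variable {p : ℕ}

/-- The coordinates with the indicator functions of the zones added. -/
noncomputable def zoneCoord {W T ι Z : Type} [DecidableEq Z] (c : T → ι → W → Kb) (m : W → Z) :
    T → (ι ⊕ Z) → W → Kb :=
  fun τ k w => Sum.elim (fun i => c τ i w) (fun z => if m w = z then 1 else 0) k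

@[simp] theorem zoneCoord_inl {W T ι Z : Type} [DecidableEq Z] (c : T → ι → W → Kb) (m : W → Z)
    (τ : T) (i : ι) (w : W) : zoneCoord c m τ (Sum.inl i) w = c τ i w := rfl

@[simp] theorem zoneCoord_inr {W T ι Z : Type} [DecidableEq Z] (c : T → ι → W → Kb) (m : W → Z)
    (τ : T) (z : Z) (w : W) : zoneCoord c m τ (Sum.inr z) w = if m w = z then 1 else 0 := rfl

/-- The inclusion of the old variables into the new ones. -/
def zoneVar (T ι Z : Type) : (T × ι) ⊕ (T × ι) → (T × (ι ⊕ Z)) ⊕ (T × (ι ⊕ Z)) :=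
  Sum.map (Prod.map id Sum.inl) (Prod.map id Sum.inl)

theorem zoneCoord_comp_zoneVar {W T ι Z : Type} [DecidableEq Z] (c : T → ι → W → Kb) (m : W → Z)
    (w w' : W) :
    (Sum.elim (fun k : T × (ι ⊕ Z) => zoneCoord c m k.1 k.2 w)
        (fun k : T × (ι ⊕ Z) => zoneCoord c m k.1 k.2 w')) ∘ zoneVar T ι Z =
      Sum.elim (fun k : T × ι => c k.1 k.2 w) (fun k : T × ι => c k.1 k.2 w') := by
  funext k
  rcases k with k | k <;> rfl

/-- The addition polynomial of an old coordinate in the new coordinates. -/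
noncomputable def zoneAddPoly {T ι Z : Type} [Fintype Z] (τ : T)
    (P : Z → Z → MvPolynomial ((T × ι) ⊕ (T × ι)) (Bint p)) :
    MvPolynomial ((T × (ι ⊕ Z)) ⊕ (T × (ι ⊕ Z))) (Bint p) :=
  ∑ z : Z, ∑ z' : Z, MvPolynomial.X (Sum.inl (τ, Sum.inr z)) *
    MvPolynomial.X (Sum.inr (τ, Sum.inr z')) * MvPolynomial.rename (zoneVar T ι Z) (P z z')

theorem aeval_zoneAddPoly {W T ι Z : Type} [Fintype Z] [DecidableEq Z] (c : T → ι → W → Kb)
    (m : W → Z) (τ : T) (P : Z → Z → MvPolynomial ((T × ι) ⊕ (T × ι)) (Bint p)) (w w' : W) :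
    MvPolynomial.aeval (Sum.elim (fun k : T × (ι ⊕ Z) => zoneCoord c m k.1 k.2 w)
        (fun k : T × (ι ⊕ Z) => zoneCoord c m k.1 k.2 w')) (zoneAddPoly τ P) =
      MvPolynomial.aeval (Sum.elim (fun k : T × ι => c k.1 k.2 w)
        (fun k : T × ι => c k.1 k.2 w')) (P (m w) (m w')) := by
  unfold zoneAddPoly
  simp only [map_sum, map_mul, MvPolynomial.aeval_X, MvPolynomial.aeval_rename,
    zoneCoord_comp_zoneVar, Sum.elim_inl, Sum.elim_inr, zoneCoord_inr]
  rw [Finset.sum_eq_single (m w)]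
  · rw [Finset.sum_eq_single (m w')]
    · rw [if_pos rfl, if_pos rfl, one_mul, one_mul]
    · intro z' _ hz'
      rw [if_neg (Ne.symm hz'), mul_zero, zero_mul]
    · intro h
      exact absurd (Finset.mem_univ _) h
  · intro z _ hz
    refine Finset.sum_eq_zero fun z' _ => ?_
    rw [if_neg (Ne.symm hz), zero_mul, zero_mul]
  · intro h
    exact absurd (Finset.mem_univ _) h

/-- The addition polynomial of an indicator coordinate. -/
noncomputable def zoneIndPoly {T : Type} (ι : Type) {Z : Type} [Fintype Z] [DecidableEq Z] [Add Z]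
    (τ : T) (z : Z) : MvPolynomial ((T × (ι ⊕ Z)) ⊕ (T × (ι ⊕ Z))) (Bint p) :=
  ∑ z₁ : Z, ∑ z₂ : Z, if z₁ + z₂ = z then
    MvPolynomial.X (Sum.inl (τ, Sum.inr z₁)) * MvPolynomial.X (Sum.inr (τ, Sum.inr z₂)) else 0

theorem aeval_zoneIndPoly {W T ι Z : Type} [Fintype Z] [DecidableEq Z] [Add Z]
    (c : T → ι → W → Kb) (m : W → Z) (τ : T) (z : Z) (w w' : W) :
    MvPolynomial.aeval (Sum.elim (fun k : T × (ι ⊕ Z) => zoneCoord c m k.1 k.2 w)
        (fun k : T × (ι ⊕ Z) => zoneCoord c m k.1 k.2 w')) (zoneIndPoly (p := p) ι τ z) =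
      if m w + m w' = z then 1 else 0 := by
  unfold zoneIndPoly
  simp only [map_sum]
  rw [Finset.sum_eq_single (m w)]
  · rw [Finset.sum_eq_single (m w')]
    · by_cases h : m w + m w' = z
      · rw [if_pos h, if_pos h, map_mul, MvPolynomial.aeval_X, MvPolynomial.aeval_X,
          Sum.elim_inl, Sum.elim_inr, zoneCoord_inr, zoneCoord_inr, if_pos rfl, if_pos rfl,
          one_mul]
      · rw [if_neg h, if_neg h, map_zero]
    · intro z₂ _ hz₂
      by_cases h : m w + z₂ = z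
      · rw [if_pos h, map_mul, MvPolynomial.aeval_X, MvPolynomial.aeval_X,
          Sum.elim_inl, Sum.elim_inr, zoneCoord_inr, zoneCoord_inr, if_neg (Ne.symm hz₂),
          mul_zero]
      · rw [if_neg h, map_zero]
    · intro h
      exact absurd (Finset.mem_univ _) h
  · intro z₁ _ hz₁
    refine Finset.sum_eq_zero fun z₂ _ => ?_
    by_cases h : z₁ + z₂ = z
    · rw [if_pos h, map_mul, MvPolynomial.aeval_X, MvPolynomial.aeval_X,
        Sum.elim_inl, Sum.elim_inr, zoneCoord_inr, zoneCoord_inr, if_neg (Ne.symm hz₁),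
        zero_mul]
    · rw [if_neg h, map_zero]
  · intro h
    exact absurd (Finset.mem_univ _) h

/-- **Hopf order criterion with zones, one-place form**, `T` nonempty. -/
theorem isFlat_of_coords_place_zones_aux [Fact p.Prime] {W : Type} [AddCommGroup W] [Finite W]
    (act : GK → W → W) (hact : ∀ (σ : GK) (w w' : W), act σ (w + w') = act σ w + act σ w')
    {T J ι : Type} [Finite T] [Finite J] [Finite ι]
    (perm : GK → T → T)
    (θ : J → T → Kb) (hθint : ∀ i t, IsIntegral (ratLocalizedAt p) (θ i t))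
    (hθeq : ∀ (σ : GK) i t, θ i (perm σ t) = σ (θ i t))
    (A₀ : ValuationSubring Kb) (hA₀ : A₀.LiesOverPrime p)
    (hθsep : ∀ t t', t ≠ t' → ∃ i, A₀.valuation (θ i t - θ i t') = 1)
    (c : T → ι → W → Kb)
    (hint : ∀ τ i w, IsIntegral (ratLocalizedAt p) (c τ i w))
    (hequiv : ∀ τ i (σ : GK) w, c (perm σ τ) i (act σ w) = σ (c τ i w))
    {Z : Type} [Finite Z] [Add Z] (m : W → Z) (hm : ∀ w w', m (w + w') = m w + m w')
    (hminv : ∀ (σ : GK) w, m (act σ w) = m w)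
    (hT : Nonempty T)
    (hsep : ∀ w w' : W, m w = m w' → (∀ τ i, c τ i w = c τ i w') → w = w')
    (hadd : ∀ (z z' : Z) τ i, ∃ P : MvPolynomial ((T × ι) ⊕ (T × ι)) (Bint p), ∀ w w',
      m w = z → m w' = z' → c τ i (w + w') =
        MvPolynomial.aeval (Sum.elim (fun k => c k.1 k.2 w) (fun k => c k.1 k.2 w')) P) :
    IsFlatGaloisModule p W act := by
  classical
  haveI : Fintype Z := Fintype.ofFinite Z
  refine isFlat_of_coords_place act hact perm θ hθint hθeq A₀ hA₀ hθsep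
    (ι := ι ⊕ Z) (zoneCoord c m) ?_ ?_ ?_ ?_
  · rintro τ (i | z) w
    · exact hint τ i w
    · rw [zoneCoord_inr]
      split_ifs
      · exact isIntegral_one
      · exact isIntegral_zero
  · rintro τ (i | z) σ w
    · exact hequiv τ i σ w
    · rw [zoneCoord_inr, zoneCoord_inr, hminv]
      split_ifs
      · rw [map_one]
      · rw [map_zero]
  · intro w w' h
    refine hsep w w' ?_ fun τ i => h τ (Sum.inl i)
    obtain ⟨τ⟩ := hT
    have h1 := h τ (Sum.inr (m w))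
    rw [zoneCoord_inr, zoneCoord_inr, if_pos rfl] at h1
    by_contra hne
    rw [if_neg (Ne.symm hne)] at h1
    exact one_ne_zero h1
  · rintro τ (i | z)
    · choose P hP using fun z z' => hadd z z' τ i
      refine ⟨zoneAddPoly τ P, fun w w' => ?_⟩
      rw [aeval_zoneAddPoly, zoneCoord_inl]
      exact hP (m w) (m w') w w' rfl rfl
    · refine ⟨zoneIndPoly ι τ z, fun w w' => ?_⟩
      rw [aeval_zoneIndPoly, zoneCoord_inr, hm]

/-- **Hopf order criterion with zones, one-place form**: the addition law is polynomial with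
integral coefficients on every zone `{m w = z, m w' = z'}`, `m : W → Z` additive and
Galois-invariant, and the coordinates separate the points of every fibre of `m`. -/
theorem isFlat_of_coords_place_zones [Fact p.Prime] {W : Type} [AddCommGroup W] [Finite W]
    (act : GK → W → W) (hact : ∀ (σ : GK) (w w' : W), act σ (w + w') = act σ w + act σ w')
    {T J ι : Type} [Finite T] [Finite J] [Finite ι]
    (perm : GK → T → T)
    (θ : J → T → Kb) (hθint : ∀ i t, IsIntegral (ratLocalizedAt p) (θ i t))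
    (hθeq : ∀ (σ : GK) i t, θ i (perm σ t) = σ (θ i t))
    (A₀ : ValuationSubring Kb) (hA₀ : A₀.LiesOverPrime p)
    (hθsep : ∀ t t', t ≠ t' → ∃ i, A₀.valuation (θ i t - θ i t') = 1)
    (c : T → ι → W → Kb)
    (hint : ∀ τ i w, IsIntegral (ratLocalizedAt p) (c τ i w))
    (hequiv : ∀ τ i (σ : GK) w, c (perm σ τ) i (act σ w) = σ (c τ i w))
    {Z : Type} [Finite Z] [Add Z] (m : W → Z) (hm : ∀ w w', m (w + w') = m w + m w')
    (hminv : ∀ (σ : GK) w, m (act σ w) = m w)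
    (hsep : ∀ w w' : W, m w = m w' → (∀ τ i, c τ i w = c τ i w') → w = w')
    (hadd : ∀ (z z' : Z) τ i, ∃ P : MvPolynomial ((T × ι) ⊕ (T × ι)) (Bint p), ∀ w w',
      m w = z → m w' = z' → c τ i (w + w') =
        MvPolynomial.aeval (Sum.elim (fun k => c k.1 k.2 w) (fun k => c k.1 k.2 w')) P) :
    IsFlatGaloisModule p W act := by
  rcases isEmpty_or_nonempty T with hT | hT
  · -- no coordinates: `m` is injective; use the indicator functions alone
    refine isFlat_of_coords_place_zones_aux act hact (T := PUnit) (J := PEmpty) (ι := PEmpty)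
      (fun _ t => t) (fun i _ => i.elim) (fun i => i.elim) (fun _ i => i.elim) A₀ hA₀
      (fun t t' h => absurd (Subsingleton.elim t t') h)
      (fun _ i _ => i.elim) (fun _ i => i.elim) (fun _ i => i.elim) m hm hminv ⟨PUnit.unit⟩
      (fun w w' h _ => hsep w w' h fun τ => (hT.false τ).elim)
      (fun _ _ _ i => i.elim)
  · exact isFlat_of_coords_place_zones_aux act hact perm θ hθint hθeq A₀ hA₀ hθsep c hint hequiv
      m hm hminv hT hsep hadd

/-- **Hopf order criterion with zones for a product of fibres, one-place form**: the form of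
`isFlat_of_coords_fibres'` with a zone-dependent addition polynomial. -/
theorem isFlat_of_coords_fibres_zones [Fact p.Prime] {W : Type} [AddCommGroup W] [Finite W]
    (act : GK → W → W) (hact : ∀ (σ : GK) (w w' : W), act σ (w + w') = act σ w + act σ w')
    {n J ι : Type} [Finite n] [Finite J] [Finite ι] {Fib : n → Type} [∀ i, Finite (Fib i)]
    (perm : ∀ i, GK → Fib i → Fib i)
    (s : ∀ i, J → Fib i → Kb)
    (hsint : ∀ i j P, IsIntegral (ratLocalizedAt p) (s i j P))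
    (hseq : ∀ i j (σ : GK) P, s i j (perm i σ P) = σ (s i j P))
    (A₀ : ValuationSubring Kb) (hA₀ : A₀.LiesOverPrime p)
    (hunit : ∀ i (P P' : Fib i), P ≠ P' → ∃ j, A₀.valuation (s i j P - s i j P') = 1)
    (c : (∀ i, Fib i) → ι → W → Kb)
    (hint : ∀ τ j w, IsIntegral (ratLocalizedAt p) (c τ j w))
    (hequiv : ∀ τ j (σ : GK) w, c (fun i => perm i σ (τ i)) j (act σ w) = σ (c τ j w))
    {Z : Type} [Finite Z] [Add Z] (m : W → Z) (hm : ∀ w w', m (w + w') = m w + m w')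
    (hminv : ∀ (σ : GK) w, m (act σ w) = m w)
    (hsep : ∀ w w' : W, m w = m w' → (∀ τ j, c τ j w = c τ j w') → w = w')
    (hadd : ∀ (z z' : Z) τ j,
      ∃ P : MvPolynomial (((∀ i, Fib i) × ι) ⊕ ((∀ i, Fib i) × ι)) (Bint p),
      ∀ w w', m w = z → m w' = z' → c τ j (w + w') =
        MvPolynomial.aeval (Sum.elim (fun k => c k.1 k.2 w) (fun k => c k.1 k.2 w')) P) :
    IsFlatGaloisModule p W act := by
  classical
  refine isFlat_of_coords_place_zones act hact (T := ∀ i, Fib i) (J := n × J)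
    (fun σ τ i => perm i σ (τ i)) (fun k τ => s k.1 k.2 (τ k.1))
    (fun k τ => hsint k.1 k.2 (τ k.1)) (fun σ k τ => hseq k.1 k.2 σ (τ k.1)) A₀ hA₀ ?_
    c hint hequiv m hm hminv hsep hadd
  intro τ τ' hne
  obtain ⟨i, hi⟩ := Function.ne_iff.1 hne
  obtain ⟨j, hj⟩ := hunit i (τ i) (τ' i) hi
  exact ⟨(i, j), hj⟩

end Fermat.Agent.FlatMod
end MergeWrap_Lib_FlatMod_OrderZones

section MergeWrap_Lib_FF_Kum_KumAsm -- from Lib/FF/Kum/KumAsm.lean

set_option autoImplicit false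
set_option linter.style.haveILetI false

noncomputable section

open AlgebraicCurve GaloisRep Fermat.Agent.RR Fermat.Agent.Deuring Fermat.Agent.FFGoodEll
  Fermat.Agent.FFGal Fermat.Agent.FF Fermat.Agent.KMRing Fermat.Agent.FlatMod Fermat.Agent.FFGeom

namespace Fermat.Agent.FFKum

local notation "Kb" => AlgebraicClosure ℚ
local notation "GK" => (AlgebraicClosure ℚ ≃ₐ[ℚ] AlgebraicClosure ℚ)

variable {p : ℕ} {F Fk : Type} [Field F] [Algebra Kb F] {A₀ : ValuationSubring Kb} [Field Fk]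
  [Algebra (IsLocalRing.ResidueField A₀) Fk]

section Asm

variable (𝒮 : GeomSetup p F Fk A₀) {X : Type} (actX : GK → X → X)
  (pt : X → Pic0 Kb F) (hpt : ∀ (σ : GK) (x : X), pt (actX σ x) = 𝒮.gal σ • pt x)
  {g M₀ n₁ n₂ n₄ r₁ r₂ : ℕ} (hg : g = genusFF Kb F) (hM₀ : 4 * g + 2 ≤ M₀)
  (hn₁ : n₁ + g = M₀ + 1) (hn₂ : n₂ + g = 2 * M₀ + 1) (hr₁ : r₁ + g = n₁) (hr₂ : r₂ + g = n₂)
  (B : RatBases 𝒮 M₀ n₁ n₂ n₄ r₁ r₂) (𝔉 : GoodFibresSet 𝒮 pt g)

/-- the multiplication table of the rational bases. -/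
def mulTableOfGeomSet :
    (echSetOfGeom 𝒮 actX pt hpt hg hM₀ hn₁ hn₂ hr₁ hr₂ B 𝔉).MulTable n₄ where
  b₄ := B.b₄
  hb₄ := B.li₄
  m₁ := B.m₁
  m₂ := B.m₂
  hm₁ := B.hm₁
  hm₂ := B.hm₂

/-- goodness of the reductions of the divisors `D_x^τ`. -/
theorem isGoodDiv_red_D_ofGeomSet (τ : ∀ i : Fin g, ↥(𝔉.Fib i)) (x : X) :
    IsGoodDiv (𝒮.r (echSetOfGeom 𝒮 actX pt hpt hg hM₀ hn₁ hn₂ hr₁ hr₂ B 𝔉).P)
      (redDiv 𝒮.r ((echSetOfGeom 𝒮 actX pt hpt hg hM₀ hn₁ hn₂ hr₁ hr₂ B 𝔉).D τ x)) := by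
  refine EchSet.isGoodDiv_red_D _ 𝒮.r _ τ x fun Y hY hYx => ?_
  exact 𝔉.good (fun i => ((τ i : ↥(𝔉.Fib i)) : Place Kb F)) (fun i => (τ i).2) x Y hY hYx

theorem rho_eq_set :
    ((2 * M₀ + 1 - 3 * g : ℕ) : ℤ) =
      2 * (echSetOfGeom 𝒮 actX pt hpt hg hM₀ hn₁ hn₂ hr₁ hr₂ B 𝔉).T₀ + 1 -
        3 * (genusFF Kb F : ℤ) := by
  show ((2 * M₀ + 1 - 3 * g : ℕ) : ℤ) = 2 * (M₀ : ℤ) + 1 - 3 * (genusFF Kb F : ℤ)
  rw [← hg]
  omega

/-- `4 g ≤ T₀`. -/
theorem echSetOfGeom_four_le :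
    4 * (genusFF Kb F : ℤ) ≤ (echSetOfGeom 𝒮 actX pt hpt hg hM₀ hn₁ hn₂ hr₁ hr₂ B 𝔉).T₀ := by
  show 4 * (genusFF Kb F : ℤ) ≤ (M₀ : ℤ)
  rw [← hg]
  omega

/-- `3 g ≤ T₀`. -/
theorem echSetOfGeom_three_le :
    3 * (genusFF Kb F : ℤ) ≤ (echSetOfGeom 𝒮 actX pt hpt hg hM₀ hn₁ hn₂ hr₁ hr₂ B 𝔉).T₀ := by
  show 3 * (genusFF Kb F : ℤ) ≤ (M₀ : ℤ)
  rw [← hg]
  omega

/-- `3 g ≤ 2 T₀`. -/
theorem echSetOfGeom_three_le_two :
    3 * (genusFF Kb F : ℤ) ≤
      2 * (echSetOfGeom 𝒮 actX pt hpt hg hM₀ hn₁ hn₂ hr₁ hr₂ B 𝔉).T₀ := by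
  show 3 * (genusFF Kb F : ℤ) ≤ 2 * (M₀ : ℤ)
  rw [← hg]
  omega

/-- the tuples are not empty. -/
theorem nonempty_tuplesS : Nonempty (∀ i : Fin g, ↥(𝔉.Fib i)) :=
  ⟨fun i => ⟨(𝔉.nonempty i).choose, (𝔉.nonempty i).choose_spec⟩⟩

/-- integrality of the coordinates. -/
theorem echSetOfGeom_Γ_int (hp : p.Prime) (τ : ∀ i : Fin g, ↥(𝔉.Fib i)) (x : X)
    (i : Fin n₁) (a : Fin r₁) :
    IsIntegral (ratLocalizedAt p)
      ((echSetOfGeom 𝒮 actX pt hpt hg hM₀ hn₁ hn₂ hr₁ hr₂ B 𝔉).Γ τ x i a) :=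
  EchSet.Γ_int hp 𝒮 (echSetOfGeom 𝒮 actX pt hpt hg hM₀ hn₁ hn₂ hr₁ hr₂ B 𝔉)
    (baseAut_gal 𝒮) B.int₁ B.red₁
    (echSetOfGeom_three_le 𝒮 actX pt hpt hg hM₀ hn₁ hn₂ hr₁ hr₂ B 𝔉)
    (isGoodDiv_red_D_ofGeomSet 𝒮 actX pt hpt hg hM₀ hn₁ hn₂ hr₁ hr₂ B 𝔉) τ x i a

/-- integrality of the origin matrices. -/
theorem echSetOfGeom_Xo_int (hp : p.Prime) (τ : ∀ i : Fin g, ↥(𝔉.Fib i)) (x : X)
    (i : Fin n₂) (a : Fin r₂) :
    IsIntegral (ratLocalizedAt p)
      ((echSetOfGeom 𝒮 actX pt hpt hg hM₀ hn₁ hn₂ hr₁ hr₂ B 𝔉).Xo τ x i a) :=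
  EchSet.Xo_int hp 𝒮 (echSetOfGeom 𝒮 actX pt hpt hg hM₀ hn₁ hn₂ hr₁ hr₂ B 𝔉)
    (baseAut_gal 𝒮) B.int₂ B.red₂
    (echSetOfGeom_three_le_two 𝒮 actX pt hpt hg hM₀ hn₁ hn₂ hr₁ hr₂ B 𝔉)
    (isGoodDiv_red_D_ofGeomSet 𝒮 actX pt hpt hg hM₀ hn₁ hn₂ hr₁ hr₂ B 𝔉) τ x i a

/-- `Γ_equiv` with the Galois action of `ℚ̄`. -/
theorem echSetOfGeom_Γ_equiv (τ : ∀ i : Fin g, ↥(𝔉.Fib i)) (σ : GK) (x : X)
    (i : Fin n₁) (a : Fin r₁) :
    (echSetOfGeom 𝒮 actX pt hpt hg hM₀ hn₁ hn₂ hr₁ hr₂ B 𝔉).Γ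
        (fun i => fibPermS 𝔉 i σ (τ i)) (actX σ x) i a =
      σ ((echSetOfGeom 𝒮 actX pt hpt hg hM₀ hn₁ hn₂ hr₁ hr₂ B 𝔉).Γ τ x i a) := by
  have h := (echSetOfGeom 𝒮 actX pt hpt hg hM₀ hn₁ hn₂ hr₁ hr₂ B 𝔉).Γ_equiv_apply σ τ x i a
  rw [← baseAut_gal 𝒮 σ]
  exact h

/-- `Xo_equiv` with the Galois action of `ℚ̄`. -/
theorem echSetOfGeom_Xo_equiv (τ : ∀ i : Fin g, ↥(𝔉.Fib i)) (σ : GK) (x : X)
    (i : Fin n₂) (a : Fin r₂) :
    (echSetOfGeom 𝒮 actX pt hpt hg hM₀ hn₁ hn₂ hr₁ hr₂ B 𝔉).Xo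
        (fun i => fibPermS 𝔉 i σ (τ i)) (actX σ x) i a =
      σ ((echSetOfGeom 𝒮 actX pt hpt hg hM₀ hn₁ hn₂ hr₁ hr₂ B 𝔉).Xo τ x i a) := by
  have h := (echSetOfGeom 𝒮 actX pt hpt hg hM₀ hn₁ hn₂ hr₁ hr₂ B 𝔉).Xo_equiv_apply σ τ x i a
  rw [← baseAut_gal 𝒮 σ]
  exact h

/-- **the `KMZone` of a zone** `Y` with summands `a y`, `b y`, sum `s y` and origin `o`:
`pt (a y) + pt (b y) = pt (s y) + pt o`. -/
def kmZoneOfGeomSet (hp : p.Prime) {Y : Type} (permY : GK → Y → Y) (a b s : Y → X) (o : X)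
    (ha : ∀ (σ : GK) y, actX σ (a y) = a (permY σ y))
    (hb : ∀ (σ : GK) y, actX σ (b y) = b (permY σ y))
    (ho : ∀ σ : GK, actX σ o = o)
    (hsum : ∀ y, pt (a y) + pt (b y) = pt (s y) + pt o) :
    KMZone p Y permY (fun i : Fin g => ↥(𝔉.Fib i)) (fibPermS 𝔉) n₁ n₂ n₄ r₁ r₂ where
  ρ := 2 * M₀ + 1 - 3 * g
  I₀ := B.I₁
  m₁ := B.m₁
  m₂ := B.m₂
  Γx := fun τ y => (echSetOfGeom 𝒮 actX pt hpt hg hM₀ hn₁ hn₂ hr₁ hr₂ B 𝔉).Γ τ (a y)
  Γy := fun τ y => (echSetOfGeom 𝒮 actX pt hpt hg hM₀ hn₁ hn₂ hr₁ hr₂ B 𝔉).Γ τ (b y)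
  Γz := fun τ y => (echSetOfGeom 𝒮 actX pt hpt hg hM₀ hn₁ hn₂ hr₁ hr₂ B 𝔉).Γ τ (s y)
  E₁ := fun τ => (echSetOfGeom 𝒮 actX pt hpt hg hM₀ hn₁ hn₂ hr₁ hr₂ B 𝔉).Γ τ o
  X := fun τ => (echSetOfGeom 𝒮 actX pt hpt hg hM₀ hn₁ hn₂ hr₁ hr₂ B 𝔉).Xo τ o
  Lx := fun _ => (echSetOfGeom 𝒮 actX pt hpt hg hM₀ hn₁ hn₂ hr₁ hr₂ B 𝔉).Lx
  m₁_int := B.m₁_int
  m₂_int := B.m₂_int
  m₁_fix := B.m₁_fix
  m₂_fix := B.m₂_fix
  Γx_int := fun τ y i c =>
    echSetOfGeom_Γ_int 𝒮 actX pt hpt hg hM₀ hn₁ hn₂ hr₁ hr₂ B 𝔉 hp τ (a y) i c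
  Γy_int := fun τ y i c =>
    echSetOfGeom_Γ_int 𝒮 actX pt hpt hg hM₀ hn₁ hn₂ hr₁ hr₂ B 𝔉 hp τ (b y) i c
  E₁_int := fun τ i c =>
    echSetOfGeom_Γ_int 𝒮 actX pt hpt hg hM₀ hn₁ hn₂ hr₁ hr₂ B 𝔉 hp τ o i c
  X_int := fun τ i c =>
    echSetOfGeom_Xo_int 𝒮 actX pt hpt hg hM₀ hn₁ hn₂ hr₁ hr₂ B 𝔉 hp τ o i c
  Lx_int := fun _ c i =>
    (echSetOfGeom 𝒮 actX pt hpt hg hM₀ hn₁ hn₂ hr₁ hr₂ B 𝔉).Lx_int (ratLocalizedAt p) c i
  Lx_mul_X := fun τ =>
    (echSetOfGeom 𝒮 actX pt hpt hg hM₀ hn₁ hn₂ hr₁ hr₂ B 𝔉).Lx_mul_Xo τ o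
  Γz_ech := fun τ y =>
    (echSetOfGeom 𝒮 actX pt hpt hg hM₀ hn₁ hn₂ hr₁ hr₂ B 𝔉).Γ_ech τ (s y)
  Γx_equiv := fun τ σ y i c => by
    rw [← ha]
    exact echSetOfGeom_Γ_equiv 𝒮 actX pt hpt hg hM₀ hn₁ hn₂ hr₁ hr₂ B 𝔉 τ σ (a y) i c
  Γy_equiv := fun τ σ y i c => by
    rw [← hb]
    exact echSetOfGeom_Γ_equiv 𝒮 actX pt hpt hg hM₀ hn₁ hn₂ hr₁ hr₂ B 𝔉 τ σ (b y) i c
  E₁_equiv := fun τ σ i c => by
    have h := echSetOfGeom_Γ_equiv 𝒮 actX pt hpt hg hM₀ hn₁ hn₂ hr₁ hr₂ B 𝔉 τ σ o i c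
    rw [ho σ] at h
    exact h
  X_equiv := fun τ σ i c => by
    have h := echSetOfGeom_Xo_equiv 𝒮 actX pt hpt hg hM₀ hn₁ hn₂ hr₁ hr₂ B 𝔉 τ σ o i c
    rw [ho σ] at h
    exact h
  good_gen := fun τ y =>
    EchSet.kmGood_gen (mulTableOfGeomSet 𝒮 actX pt hpt hg hM₀ hn₁ hn₂ hr₁ hr₂ B 𝔉)
      (echSetOfGeom_four_le 𝒮 actX pt hpt hg hM₀ hn₁ hn₂ hr₁ hr₂ B 𝔉)
      (rho_eq_set 𝒮 actX pt hpt hg hM₀ hn₁ hn₂ hr₁ hr₂ B 𝔉) τ (hsum y)
  sum_gen := fun τ y =>
    EchSet.range_Γ (mulTableOfGeomSet 𝒮 actX pt hpt hg hM₀ hn₁ hn₂ hr₁ hr₂ B 𝔉)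
      (echSetOfGeom_four_le 𝒮 actX pt hpt hg hM₀ hn₁ hn₂ hr₁ hr₂ B 𝔉) τ (hsum y)
  A₀ := A₀
  hA₀ := 𝒮.hA₀
  good_cl := fun τ y d hd =>
    EchSet.good_cl_geomSetup 𝒮 (echSetOfGeom 𝒮 actX pt hpt hg hM₀ hn₁ hn₂ hr₁ hr₂ B 𝔉)
      B.int₁ B.red₁ B.int₂ B.red₂
      (mulTableOfGeomSet 𝒮 actX pt hpt hg hM₀ hn₁ hn₂ hr₁ hr₂ B 𝔉) B.int₄ B.red₄
      (echSetOfGeom_four_le 𝒮 actX pt hpt hg hM₀ hn₁ hn₂ hr₁ hr₂ B 𝔉)
      (isGoodDiv_red_D_ofGeomSet 𝒮 actX pt hpt hg hM₀ hn₁ hn₂ hr₁ hr₂ B 𝔉)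
      (rho_eq_set 𝒮 actX pt hpt hg hM₀ hn₁ hn₂ hr₁ hr₂ B 𝔉) τ (hsum y) d hd

end Asm

/-- **Geometric assembly with zones.**  `W` is a finite Galois module, `idx w` the index of the
point of `w`, `m : W → Z` an additive Galois-invariant map, `o z z'` a Galois-fixed origin for the
zone `(z, z')`:  `pt (idx w) + pt (idx w') = pt (idx (w + w')) + pt (o (m w) (m w'))`, and the
points separate the elements of every fibre of `m`. -/
theorem isFlat_of_geomSet [Fact p.Prime] (𝒮 : GeomSetup p F Fk A₀)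
    {W : Type} [AddCommGroup W] [Finite W] (act : GK → W → W)
    (hact : ∀ (σ : GK) (w w' : W), act σ (w + w') = act σ w + act σ w')
    (hact_one : ∀ w, act 1 w = w)
    (hact_mul : ∀ (σ τ : GK) w, act (σ * τ) w = act σ (act τ w))
    {X : Type} (actX : GK → X → X) (pt : X → Pic0 Kb F)
    (hpt : ∀ (σ : GK) (x : X), pt (actX σ x) = 𝒮.gal σ • pt x)
    (idx : W → X) (hidx : ∀ (σ : GK) (w : W), actX σ (idx w) = idx (act σ w))
    {Z : Type} [Finite Z] [Add Z] (m : W → Z) (hm : ∀ w w', m (w + w') = m w + m w')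
    (hminv : ∀ (σ : GK) w, m (act σ w) = m w)
    (o : Z → Z → X) (ho : ∀ (σ : GK) z z', actX σ (o z z') = o z z')
    (hsum : ∀ w w', pt (idx w) + pt (idx w') = pt (idx (w + w')) + pt (o (m w) (m w')))
    (hsep : ∀ w w', m w = m w' → pt (idx w) = pt (idx w') → w = w')
    {g M₀ n₁ n₂ n₄ r₁ r₂ : ℕ} (hg : g = genusFF Kb F) (hM₀ : 4 * g + 2 ≤ M₀)
    (hn₁ : n₁ + g = M₀ + 1) (hn₂ : n₂ + g = 2 * M₀ + 1) (hr₁ : r₁ + g = n₁) (hr₂ : r₂ + g = n₂)
    (B : RatBases 𝒮 M₀ n₁ n₂ n₄ r₁ r₂) (𝔉 : GoodFibresSet 𝒮 pt g) :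
    IsFlatGaloisModule p W act := by
  classical
  have hp : p.Prime := Fact.out
  haveI : ∀ i : Fin g, Finite ↥(𝔉.Fib i) := fun i => (𝔉.fin i).to_subtype
  haveI : Finite 𝔉.J := 𝔉.finJ
  have hperm_one : ∀ (i : Fin g) (P : ↥(𝔉.Fib i)), fibPermS 𝔉 i 1 P = P := by
    intro i P
    apply Subtype.ext
    show 𝒮.gal 1 • (P : Place Kb F) = P
    rw [map_one, one_smul]
  have hperm_mul : ∀ (i : Fin g) (σ τ : GK) (P : ↥(𝔉.Fib i)),
      fibPermS 𝔉 i (σ * τ) P = fibPermS 𝔉 i σ (fibPermS 𝔉 i τ P) := by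
    intro i σ τ P
    apply Subtype.ext
    show 𝒮.gal (σ * τ) • (P : Place Kb F) = 𝒮.gal σ • (𝒮.gal τ • (P : Place Kb F))
    rw [map_mul, mul_smul]
  refine isFlat_of_coords_fibres_zones act hact (ι := Fin n₁ × Fin r₁) (fibPermS 𝔉)
    (fun i j P => 𝔉.s i j P.1) (fun i j P => 𝔉.s_int i j P.1 P.2)
    (fun i j σ P => 𝔉.s_eq i j σ P.1 P.2) A₀ 𝒮.hA₀
    (fun i P P' hne => 𝔉.unit i P.1 P'.1 P.2 P'.2 (fun h => hne (Subtype.ext h)))
    (fun τ j w =>
      (echSetOfGeom 𝒮 actX pt hpt hg hM₀ hn₁ hn₂ hr₁ hr₂ B 𝔉).Γ τ (idx w) j.1 j.2)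
    ?_ ?_ m hm hminv ?_ ?_
  · -- integrality
    intro τ j w
    exact echSetOfGeom_Γ_int 𝒮 actX pt hpt hg hM₀ hn₁ hn₂ hr₁ hr₂ B 𝔉 hp τ (idx w) j.1 j.2
  · -- equivariance
    intro τ j σ w
    show (echSetOfGeom 𝒮 actX pt hpt hg hM₀ hn₁ hn₂ hr₁ hr₂ B 𝔉).Γ
        (fun i => fibPermS 𝔉 i σ (τ i)) (idx (act σ w)) j.1 j.2 = _
    rw [← hidx]
    exact echSetOfGeom_Γ_equiv 𝒮 actX pt hpt hg hM₀ hn₁ hn₂ hr₁ hr₂ B 𝔉 τ σ (idx w) j.1 j.2
  · -- separation
    intro w w' hmw hc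
    obtain ⟨τ₀⟩ := nonempty_tuplesS 𝒮 pt 𝔉
    refine hsep w w' hmw ?_
    refine (echSetOfGeom 𝒮 actX pt hpt hg hM₀ hn₁ hn₂ hr₁ hr₂ B 𝔉).cls_eq_of_Γ_eq
      (echSetOfGeom_three_le 𝒮 actX pt hpt hg hM₀ hn₁ hn₂ hr₁ hr₂ B 𝔉) (τ := τ₀) ?_
    ext i a
    exact hc τ₀ (i, a)
  · -- the addition polynomial of a zone
    intro z z' τ j
    let Y : Type := {y : W × W // m y.1 = z ∧ m y.2 = z'}
    let permY : GK → Y → Y := fun σ y =>
      ⟨(act σ y.1.1, act σ y.1.2), by rw [hminv, hminv]; exact y.2⟩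
    have hpermY_one : ∀ y : Y, permY 1 y = y := by
      intro y
      apply Subtype.ext
      exact Prod.ext (hact_one y.1.1) (hact_one y.1.2)
    have hpermY_mul : ∀ (σ τ : GK) (y : Y), permY (σ * τ) y = permY σ (permY τ y) := by
      intro σ τ y
      apply Subtype.ext
      exact Prod.ext (hact_mul σ τ y.1.1) (hact_mul σ τ y.1.2)
    have hsumY : ∀ y : Y, pt (idx y.1.1) + pt (idx y.1.2) =
        pt (idx (y.1.1 + y.1.2)) + pt (o z z') := by
      intro y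
      have h := hsum y.1.1 y.1.2
      rw [y.2.1, y.2.2] at h
      exact h
    obtain ⟨P, hP⟩ := exists_poly_of_kmZone permY hpermY_one hpermY_mul (fibPermS 𝔉)
      hperm_one hperm_mul
      (kmZoneOfGeomSet 𝒮 actX pt hpt hg hM₀ hn₁ hn₂ hr₁ hr₂ B 𝔉 hp permY
        (fun y => idx y.1.1) (fun y => idx y.1.2) (fun y => idx (y.1.1 + y.1.2)) (o z z')
        (fun σ y => hidx σ y.1.1) (fun σ y => hidx σ y.1.2) (fun σ => ho σ z z') hsumY)
      τ j.1 j.2
    exact ⟨P, fun w w' hw hw' => hP ⟨(w, w'), hw, hw'⟩⟩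

end Fermat.Agent.FFKum
end
end MergeWrap_Lib_FF_Kum_KumAsm

section MergeWrap_Lib_FF_GeomBasesMod -- from Lib/FF/GeomBasesMod.lean

set_option autoImplicit false
set_option linter.style.haveILetI false
set_option synthInstance.maxHeartbeats 400000
set_option maxHeartbeats 1600000

noncomputable section

namespace Fermat.Agent.FF

open ModularCurve AlgebraicCurve GaloisRep Fermat.Agent.RR Fermat.Agent.Deuring
  Fermat.Agent.GaussInt

local notation "Kb" => AlgebraicClosure ℚ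
local notation "GK" => (AlgebraicClosure ℚ ≃ₐ[ℚ] AlgebraicClosure ℚ)

variable (A₀ : ValuationSubring Kb) (p M : ℕ) [NeZero M]
  (hp : p.Prime) (hA : A₀.LiesOverPrime p) (hpM : ¬ p ∣ M)

/-- **D1 for the modular function field**: every `GeomSetup` on the Gauss valuation of
`ℚ̄(X₀(M))` at `A₀` with the arithmetic Galois action has rational orthonormal bases. -/
theorem hasRatOrtho_of_modular
    (𝒮 : GeomSetup p (modularFunctionFieldBar M)
      (modularFunctionFieldFullC (IsLocalRing.ResidueField A₀) M) A₀)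
    (hS : 𝒮.S = modularValSetup A₀ p M hp hA hpM)
    (hgal : ∀ σ : GK, 𝒮.gal σ = arithmeticGalois (modularFunctionFieldFull M) σ) :
    HasRatOrtho 𝒮 := by
  intro W hW hstab
  haveI := hW
  obtain ⟨n, b, -, hspan, hfix, hint, hli⟩ := exists_ratOrtho_basis A₀ p M hp hA hpM W
    (fun σ f hf => by
      have := hstab σ f hf
      rwa [hgal σ] at this)
  refine ⟨n, b, hspan, fun i σ => ?_, fun i => ?_, ?_⟩
  · rw [hgal σ]
    exact hfix i σ
  · rw [hS]
    exact hint i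
  · rw [hS]
    exact hli

/-- **`RatBases` for the modular function field.** -/
theorem exists_ratBases_modular
    (𝒮 : GeomSetup p (modularFunctionFieldBar M)
      (modularFunctionFieldFullC (IsLocalRing.ResidueField A₀) M) A₀)
    (hS : 𝒮.S = modularValSetup A₀ p M hp hA hpM)
    (hgal : ∀ σ : GK, 𝒮.gal σ = arithmeticGalois (modularFunctionFieldFull M) σ)
    {g M₀ n₁ n₂ r₁ r₂ : ℕ} (hg : g = genusFF Kb (modularFunctionFieldBar M))
    (hM₀ : 2 * g ≤ M₀ + 1)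
    (hn₁ : n₁ + g = M₀ + 1) (hn₂ : n₂ + g = 2 * M₀ + 1) (hr₁ : r₁ + g = n₁)
    (hr₂ : r₂ + g = n₂) :
    ∃ n₄ : ℕ, Nonempty (RatBases 𝒮 M₀ n₁ n₂ n₄ r₁ r₂) :=
  exists_ratBases hp 𝒮 (hasRatOrtho_of_modular A₀ p M hp hA hpM 𝒮 hS hgal) hg hM₀ hn₁ hn₂ hr₁ hr₂

end Fermat.Agent.FF
end
end MergeWrap_Lib_FF_GeomBasesMod

section MergeWrap_Lib_FF_Geom -- from Lib/FF/Geom.lean

set_option autoImplicit false

noncomputable section

namespace Fermat.Agent.FF

open AlgebraicCurve GaloisRep Fermat.Agent.RR Fermat.Agent.Deuring Fermat.Agent.FFGoodEll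
  Fermat.Agent.FlatMod

local notation "Kb" => AlgebraicClosure ℚ
local notation "GK" => (AlgebraicClosure ℚ ≃ₐ[ℚ] AlgebraicClosure ℚ)

variable {p : ℕ} {F Fk : Type} [Field F] [Algebra Kb F] {A₀ : ValuationSubring Kb} [Field Fk]
  [Algebra (IsLocalRing.ResidueField A₀) Fk]

/-- **Geometric assembly** (seat F2).  `W` is a finite group with an injective equivariant
homomorphism `ι` to `Pic⁰`; `g` is the genus, `M₀ ≥ 4g + 2`, and the dimensions are the ones of
Riemann-Roch: `n₁ = M₀ + 1 - g`, `n₂ = 2 M₀ + 1 - g`, `r₁ = n₁ - g`, `r₂ = n₂ - g`. -/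
theorem isFlat_of_geom [Fact p.Prime] (𝒮 : GeomSetup p F Fk A₀)
    {W : Type} [AddCommGroup W] [Finite W] (act : GK → W → W)
    (ι : W →+ Pic0 Kb F) (hι : Function.Injective ι)
    (hιeq : ∀ (σ : GK) (w : W), ι (act σ w) = 𝒮.gal σ • ι w)
    {g M₀ n₁ n₂ n₄ r₁ r₂ : ℕ} (hg : g = genusFF Kb F) (hM₀ : 4 * g + 2 ≤ M₀)
    (hn₁ : n₁ + g = M₀ + 1) (hn₂ : n₂ + g = 2 * M₀ + 1) (hr₁ : r₁ + g = n₁) (hr₂ : r₂ + g = n₂)
    (B : RatBases 𝒮 M₀ n₁ n₂ n₄ r₁ r₂) (𝔉 : GoodFibres 𝒮 ι g) :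
    IsFlatGaloisModule p W act :=
  Fermat.Agent.FFGeom.isFlat_of_geomSetup 𝒮 act ι hιeq hg hM₀ hn₁ hn₂ hr₁ hr₂ B 𝔉 hι

end Fermat.Agent.FF
end
end MergeWrap_Lib_FF_Geom

section MergeWrap_Lib_FF_Final -- from Lib/FF/Final.lean

set_option autoImplicit false
set_option synthInstance.maxHeartbeats 400000

noncomputable section

namespace Fermat.Agent.FF

open AlgebraicCurve ModularCurve GaloisRep Fermat.Agent.RR Fermat.Agent.Deuring
  Fermat.Agent.FFGoodEll Fermat.Agent.GaussInt Fermat.Agent.FlatMod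

local notation "Kb" => AlgebraicClosure ℚ
local notation "GK" => (AlgebraicClosure ℚ ≃ₐ[ℚ] AlgebraicClosure ℚ)

/-- the inclusion of the torsion. -/
def torsIncl (M : ℕ) (n : ℤ) :
    ↥(Submodule.torsionBy ℤ (JZero M) n) →+ Pic0 Kb ↥(modularFunctionFieldBar M) :=
  (Submodule.torsionBy ℤ (JZero M) n).subtype.toAddMonoidHom

theorem torsIncl_injective (M : ℕ) (n : ℤ) : Function.Injective (torsIncl M n) :=
  Subtype.val_injective

/-- the torsion is finite. -/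
theorem finite_torsionBy (M : ℕ) [NeZero M] (n : ℕ) (hn : 0 < n) :
    Finite ↥(Submodule.torsionBy ℤ (JZero M) (n : ℤ)) := by
  have h := Fermat.Agent.F3TF.torsionFinite M n hn
  refine Set.Finite.to_subtype (h.subset ?_)
  intro x hx
  have hx' : (n : ℤ) • x = 0 := (Submodule.mem_torsionBy_iff _ _).mp hx
  show n • x = 0
  rwa [natCast_zsmul] at hx'

/-- **the data to be constructed by the seats D1 (bases) and FIB (fibres)** at a level `M` with
`4 ∣ M` or `9 ∣ M`, for a prime `ℓ ∤ M` and `k`: a place `A₀` over `ℓ`, Galois-invariant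
orthonormal bases and good towers of places. -/
def ModularData (M ℓ k : ℕ) [NeZero M] (hℓ : ℓ.Prime) (hℓM : ¬ ℓ ∣ M) (h49 : 4 ∣ M ∨ 9 ∣ M) :
    Prop :=
  ∃ (A₀ : ValuationSubring Kb) (hA : A₀.LiesOverPrime ℓ) (g M₀ n₁ n₂ n₄ r₁ r₂ : ℕ),
    g = genusFF Kb ↥(modularFunctionFieldBar M) ∧ 4 * g + 2 ≤ M₀ ∧
    n₁ + g = M₀ + 1 ∧ n₂ + g = 2 * M₀ + 1 ∧ r₁ + g = n₁ ∧ r₂ + g = n₂ ∧
    Nonempty (RatBases (modGeomSetup A₀ ℓ M hℓ hA hℓM h49) M₀ n₁ n₂ n₄ r₁ r₂) ∧
    Nonempty (GoodFibres (modGeomSetup A₀ ℓ M hℓ hA hℓM h49) (torsIncl M ((ℓ : ℤ) ^ k)) g)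

/-- **Final wiring**: `ModularData ⇒ FlatTorsionAt`. -/
theorem flatTorsionAt_of_data (M ℓ k : ℕ) [NeZero M] (hℓ : ℓ.Prime) (hℓM : ¬ ℓ ∣ M)
    (h49 : 4 ∣ M ∨ 9 ∣ M) (h : ModularData M ℓ k hℓ hℓM h49) : FlatTorsionAt M ℓ k := by
  obtain ⟨A₀, hA, g, M₀, n₁, n₂, n₄, r₁, r₂, hg, hM₀, hn₁, hn₂, hr₁, hr₂, ⟨B⟩, ⟨𝔉⟩⟩ := h
  have : Fact ℓ.Prime := ⟨hℓ⟩
  have : Finite ↥(Submodule.torsionBy ℤ (JZero M) ((ℓ : ℤ) ^ k)) := by
    have := finite_torsionBy M (ℓ ^ k) (pow_pos hℓ.pos k)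
    simpa using this
  exact isFlat_of_geom (modGeomSetup A₀ ℓ M hℓ hA hℓM h49) (torsAct M ((ℓ : ℤ) ^ k))
    (torsIncl M ((ℓ : ℤ) ^ k)) (torsIncl_injective M _) (fun σ w => rfl)
    hg hM₀ hn₁ hn₂ hr₁ hr₂ B 𝔉

/-- **S19 from the modular data** at the auxiliary levels. -/
theorem s19_of_modularData
    (h : ∀ (M ℓ k : ℕ) [NeZero M] (hℓ : ℓ.Prime) (hℓM : ¬ ℓ ∣ M) (h49 : 4 ∣ M ∨ 9 ∣ M),
      ModularData M ℓ k hℓ hℓM h49) :
    S19Statement :=
  s19Statement_of_aux fun M ℓ k hM hℓ hℓM h49 =>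
    haveI : NeZero M := ⟨hM⟩
    flatTorsionAt_of_data M ℓ k hℓ hℓM h49 (h M ℓ k hℓ hℓM h49)

end Fermat.Agent.FF
end
end MergeWrap_Lib_FF_Final

section MergeWrap_Lib_FF_ModBases -- from Lib/FF/ModBases.lean

set_option autoImplicit false
set_option linter.style.haveILetI false
set_option synthInstance.maxHeartbeats 400000

noncomputable section

namespace Fermat.Agent.FF

open ModularCurve AlgebraicCurve GaloisRep Fermat.Agent.RR Fermat.Agent.Deuring
  Fermat.Agent.GaussInt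

local notation "Kb" => AlgebraicClosure ℚ
local notation "GK" => (AlgebraicClosure ℚ ≃ₐ[ℚ] AlgebraicClosure ℚ)

/-- **`RatBases` for `modGeomSetup`** (seat D1, final form). -/
theorem exists_ratBases_modGeomSetup (A₀ : ValuationSubring Kb) (ℓ M : ℕ) [NeZero M]
    (hℓ : ℓ.Prime) (hA : A₀.LiesOverPrime ℓ) (hℓM : ¬ ℓ ∣ M) (h49 : 4 ∣ M ∨ 9 ∣ M)
    {g M₀ n₁ n₂ r₁ r₂ : ℕ} (hg : g = genusFF Kb (modularFunctionFieldBar M))
    (hM₀ : 2 * g ≤ M₀ + 1)
    (hn₁ : n₁ + g = M₀ + 1) (hn₂ : n₂ + g = 2 * M₀ + 1) (hr₁ : r₁ + g = n₁)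
    (hr₂ : r₂ + g = n₂) :
    ∃ n₄ : ℕ, Nonempty (RatBases (modGeomSetup A₀ ℓ M hℓ hA hℓM h49) M₀ n₁ n₂ n₄ r₁ r₂) :=
  exists_ratBases_modular A₀ ℓ M hℓ hA hℓM (modGeomSetup A₀ ℓ M hℓ hA hℓM h49) rfl
    (fun _ => rfl) hg hM₀ hn₁ hn₂ hr₁ hr₂

/-- **`ModularData` from the good fibres alone**: with the bases of seat D1, the only remaining
input of `ModularData M ℓ k` is the tower of good fibres (seat FIB) at ONE place `A₀` over `ℓ`. -/
theorem modularData_of_goodFibres (M ℓ k : ℕ) [NeZero M] (hℓ : ℓ.Prime) (hℓM : ¬ ℓ ∣ M)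
    (h49 : 4 ∣ M ∨ 9 ∣ M) (A₀ : ValuationSubring Kb) (hA : A₀.LiesOverPrime ℓ)
    (hfib : Nonempty (GoodFibres (modGeomSetup A₀ ℓ M hℓ hA hℓM h49)
      (torsIncl M ((ℓ : ℤ) ^ k)) (genusFF Kb (modularFunctionFieldBar M)))) :
    ModularData M ℓ k hℓ hℓM h49 := by
  set g := genusFF Kb (modularFunctionFieldBar M) with hg
  obtain ⟨n₄, hB⟩ := exists_ratBases_modGeomSetup A₀ ℓ M hℓ hA hℓM h49
    (g := g) (M₀ := 4 * g + 2) (n₁ := 3 * g + 3) (n₂ := 7 * g + 5) (r₁ := 2 * g + 3)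
    (r₂ := 6 * g + 5) hg (by omega) (by omega) (by omega) (by omega) (by omega)
  exact ⟨A₀, hA, g, 4 * g + 2, 3 * g + 3, 7 * g + 5, n₄, 2 * g + 3, 6 * g + 5, hg, le_refl _,
    by omega, by omega, by omega, by omega, hB, hfib⟩

/-- **S19 from the good fibres**: if at every auxiliary level `M` (`4 ∣ M` or `9 ∣ M`), every
prime `ℓ ∤ M` and every `k` SOME place `A₀` over `ℓ` carries a tower of good fibres, then the
statement S19 holds. -/
theorem s19_of_goodFibres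
    (h : ∀ (M ℓ k : ℕ) [NeZero M] (hℓ : ℓ.Prime) (hℓM : ¬ ℓ ∣ M) (h49 : 4 ∣ M ∨ 9 ∣ M),
      ∃ (A₀ : ValuationSubring Kb) (hA : A₀.LiesOverPrime ℓ),
        Nonempty (GoodFibres (modGeomSetup A₀ ℓ M hℓ hA hℓM h49)
          (torsIncl M ((ℓ : ℤ) ^ k)) (genusFF Kb (modularFunctionFieldBar M)))) :
    S19Statement :=
  s19_of_modularData fun M ℓ k _ hℓ hℓM h49 => by
    obtain ⟨A₀, hA, hfib⟩ := h M ℓ k hℓ hℓM h49
    exact modularData_of_goodFibres M ℓ k hℓ hℓM h49 A₀ hA hfib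

end Fermat.Agent.FF
end
end MergeWrap_Lib_FF_ModBases

section MergeWrap_Lib_FF_Kum_KumFinal -- from Lib/FF/Kum/KumFinal.lean

set_option autoImplicit false
set_option linter.style.haveILetI false
set_option synthInstance.maxHeartbeats 400000

noncomputable section

namespace Fermat.Agent.FFKum

open AlgebraicCurve ModularCurve GaloisRep Fermat.Agent.RR Fermat.Agent.Deuring
  Fermat.Agent.FFGoodEll Fermat.Agent.GaussInt Fermat.Agent.FlatMod Fermat.Agent.FF

local notation "Kb" => AlgebraicClosure ℚ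
local notation "GK" => (AlgebraicClosure ℚ ≃ₐ[ℚ] AlgebraicClosure ℚ)

/-- **FL-K at the auxiliary levels.** -/
theorem flatKummerAt_aux (M ℓ k : ℕ) [NeZero M] (hℓ : ℓ.Prime) (hℓM : ¬ ℓ ∣ M)
    (h49 : 4 ∣ M ∨ 9 ∣ M) : FlatKummerAt M ℓ k := by
  intro R₀ h
  haveI : Fact ℓ.Prime := ⟨hℓ⟩
  haveI : NeZero (ℓ ^ k) := ⟨(pow_pos hℓ.pos k).ne'⟩
  obtain ⟨A₀, hA⟩ := Fermat.Agent.FrobExists.exists_valuationSubring_liesOver ℓ hℓ
  haveI : Finite ↥(Submodule.torsionBy ℤ (JZero M) ((ℓ : ℤ) ^ k)) := by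
    have := Fermat.Agent.FF.finite_torsionBy M (ℓ ^ k) (pow_pos hℓ.pos k)
    simpa using this
  haveI : Finite (KumMod M ℓ k) := Finite.instProd
  set g := genusFF Kb (modularFunctionFieldBar M) with hg
  obtain ⟨n₄, ⟨B⟩⟩ := exists_ratBases_modGeomSetup A₀ ℓ M hℓ hA hℓM h49
    (g := g) (M₀ := 4 * g + 2) (n₁ := 3 * g + 3) (n₂ := 7 * g + 5) (r₁ := 2 * g + 3)
    (r₂ := 6 * g + 5) hg (by omega) (by omega) (by omega) (by omega) (by omega)
  obtain ⟨𝔉⟩ := nonempty_goodFibresSet_modular A₀ ℓ M hℓ hA hℓM h49 (kumPt M ℓ k R₀)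
  exact isFlat_of_geomSet (modGeomSetup A₀ ℓ M hℓ hA hℓM h49) (kumAct M ℓ k R₀ h)
    (kumAct_add M ℓ k R₀ h) (kumAct_one M ℓ k R₀ h) (kumAct_mul M ℓ k R₀ h)
    (kumActO M ℓ k R₀ h) (kumPt M ℓ k R₀) (fun σ x => kumPt_actO M ℓ k R₀ h σ x)
    some (fun σ w => rfl) (m := Prod.snd) (fun w w' => rfl) (fun σ w => rfl)
    (kumOrigin M ℓ k) (fun σ z z' => kumActO_origin M ℓ k R₀ h σ z z')
    (fun w w' => kumPt_add M ℓ k R₀ w w') (fun w w' h2 hpt => kumPt_sep M ℓ k R₀ w w' h2 hpt)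
    hg (le_refl _) (by omega) (by omega) (by omega) (by omega) B 𝔉

/-- **FL-K**: for every level `N ≠ 0`, every prime `ℓ ∤ N` and every `k`, the Kummer module of
every division point `R₀` of a rational point (`ℓ^k • R₀` fixed by `G_ℚ`) is the module of
`ℚ̄`-points of a finite flat commutative group scheme over `ℤ_(ℓ)`. -/
theorem flatKummerAt (N ℓ k : ℕ) [NeZero N] [Fact ℓ.Prime] (hℓN : ¬ ℓ ∣ N) :
    FlatKummerAt N ℓ k :=
  flatKummerAt_of_aux N ℓ k hℓN fun M hM hℓM h49 =>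
    haveI : NeZero M := ⟨hM⟩
    flatKummerAt_aux M ℓ k Fact.out hℓM h49

/-- **FL-K, the form used by the descent**: for a Galois sub-module `W ⊆ J₀(N)[ℓ^k]` containing
the values `σ R - R` of the Kummer cocycle of a division point `R` of a rational point, the
extension module `W × ℤ/ℓ^k` of the cocycle is flat at `ℓ`. -/
theorem isFlat_extAct_kummer {N ℓ k : ℕ} [NeZero N] [Fact ℓ.Prime] (hℓN : ¬ ℓ ∣ N)
    {W : Type} [AddCommGroup W] (actW : GK → W → W) (ι : W →+ JZero N)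
    (hι : Function.Injective ι) (hιact : ∀ σ w, ι (actW σ w) = σ • ι w)
    (hιtors : ∀ w, (ℓ ^ k) • ι w = 0)
    (R : JZero N) (hR : ∀ σ : GK, σ • ((ℓ ^ k) • R) = (ℓ ^ k) • R)
    (c : GK → W) (hc : ∀ σ, ι (c σ) = σ • R - R) :
    IsFlatGaloisModule ℓ (W × ZMod (ℓ ^ k)) (extAct actW (ℓ ^ k) c) :=
  isFlat_extAct_of_flatKummerAt (flatKummerAt N ℓ k hℓN) actW ι hι hιact hιtors R hR c hc

end Fermat.Agent.FFKum
end
end MergeWrap_Lib_FF_Kum_KumFinal
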